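/-
S59, wall DEF-COND (captain helper69, 04:25Z): EXISTENCE of the universal rings `D_Σ`.

R3 (Wiles' induction), SEL, S54, FIN and R1 all CONSUME a
`GaloisRep.DeformationRingData 𝒪 ρ̄ (twFlat 𝒪 p Smin Σ)` (resp. `twOrd`); its existence is the frozen
S53 (`Fermat.Agent.S53.result` ✓) applied to the condition `twFlat 𝒪 p Smin Σ`, which needs

* **DC-F** `s59dc_StmtCondFlat` : `twFlat 𝒪 p Smin Σ` is a deformation condition
  (`GaloisRep.IsDeformationCondition`).  Tools on main: `W1/SubQuot.lean`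
  (`hasFiniteFlatModel_of_injective`, `_of_surjective`, `_prod`, `_of_subsingleton`,
  `sq_isFlatAt_iff`), `S32/SubquotAbs.lean` (`s32b_subquot_data`: annihilators), `S59/FinEFlat.lean`.
* **DC-O** `s59dc_StmtCondOrd` : the same for `twOrd 𝒪 p Smin Σ` (the line `L` of a strictly
  ordinary lift is unique because `χ_cyc ≢ 1 mod p` on `D_p`, `p` odd).
* **DC-T** `s59dc_StmtTanFlat`, `s59dc_StmtTanOrd` : `GaloisRep.TangentFinite` for both
  (TW: `TW/S/SelCard.lean` `stmtSelCardFlat` gives `TwTanCard … (card Sel)` for EVERY `Q`, and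
  `TwTanCard 𝒪 ρ̄ 𝒟 N → TangentFinite 𝒪 ρ̄ 𝒟` is elementary).
* **DC-B** (`hbar`) : `ρ̄` itself is of type `twFlat` / `twOrd` — hypothesis of the theorems below
  (for `ρ̄ = ρ̄_{W,p}` it is the reduction of `s59fe_twFlat` / `s59fe_twOrd`, FinE ✓).

PROVED here: `s59dc_exists_flat`, `s59dc_exists_ord` : DC-F/O + DC-T + DC-B ⇒ `Nonempty D`.
-/
import Fermat.Agent.S53
import Fermat.Agent.TW.Plan

set_option autoImplicit false
set_option linter.style.longLine false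
set_option linter.unusedVariables false

noncomputable section

namespace Fermat.Agent.S59

open IsLocalRing Fermat.Agent.TW

/-- **DC-F**: the flat condition of S56 (with extra primes `Q`) is a deformation condition. -/
def s59dc_StmtCondFlat : Prop :=
  ∀ (𝒪 : Type) [CommRing 𝒪] [IsDomain 𝒪] [IsDiscreteValuationRing 𝒪]
    [IsAdicComplete (maximalIdeal 𝒪) 𝒪] [Finite (ResidueField 𝒪)]
    (p : ℕ) [Fact p.Prime], p ≠ 2 → (p : 𝒪) ∈ maximalIdeal 𝒪 → ∀ Smin Q : Finset ℕ,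
    GaloisRep.IsDeformationCondition 𝒪 (twFlat 𝒪 p Smin Q)

/-- **DC-O**: the strict-ordinary condition of S56 (with extra primes `Q`) is a deformation
condition. -/
def s59dc_StmtCondOrd : Prop :=
  ∀ (𝒪 : Type) [CommRing 𝒪] [IsDomain 𝒪] [IsDiscreteValuationRing 𝒪]
    [IsAdicComplete (maximalIdeal 𝒪) 𝒪] [Finite (ResidueField 𝒪)]
    (p : ℕ) [Fact p.Prime], p ≠ 2 → (p : 𝒪) ∈ maximalIdeal 𝒪 → ∀ Smin Q : Finset ℕ,
    GaloisRep.IsDeformationCondition 𝒪 (twOrd 𝒪 p Smin Q)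

/-- **DC-T (flat)**: finiteness of the tangent space. -/
def s59dc_StmtTanFlat : Prop :=
  ∀ (𝒪 : Type) [CommRing 𝒪] [IsDomain 𝒪] [IsDiscreteValuationRing 𝒪]
    [IsAdicComplete (maximalIdeal 𝒪) 𝒪] [Finite (ResidueField 𝒪)]
    (p : ℕ) [Fact p.Prime] (ρbar : ResidualGaloisRep (ResidueField 𝒪)) (S Smin : Finset ℕ),
    TWHyp 𝒪 p ρbar S Smin → ∀ Q : Finset ℕ, (∀ q ∈ Q, q.Prime) →
    GaloisRep.TangentFinite 𝒪 ρbar (twFlat 𝒪 p Smin Q)

/-- **DC-T (ordinary)**: finiteness of the tangent space. -/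
def s59dc_StmtTanOrd : Prop :=
  ∀ (𝒪 : Type) [CommRing 𝒪] [IsDomain 𝒪] [IsDiscreteValuationRing 𝒪]
    [IsAdicComplete (maximalIdeal 𝒪) 𝒪] [Finite (ResidueField 𝒪)]
    (p : ℕ) [Fact p.Prime] (ρbar : ResidualGaloisRep (ResidueField 𝒪)) (S Smin : Finset ℕ),
    TWHyp 𝒪 p ρbar S Smin → ∀ Q : Finset ℕ, (∀ q ∈ Q, q.Prime) →
    GaloisRep.TangentFinite 𝒪 ρbar (twOrd 𝒪 p Smin Q)

section

variable (𝒪 : Type) [CommRing 𝒪] [IsDomain 𝒪] [IsDiscreteValuationRing 𝒪]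
  [IsAdicComplete (maximalIdeal 𝒪) 𝒪] [Finite (ResidueField 𝒪)]

/-- **Existence of `D_Σ`, flat case** (S53 ✓ + DC-F + DC-T + DC-B). -/
theorem s59dc_exists_flat (hC : s59dc_StmtCondFlat) (hT : s59dc_StmtTanFlat)
    (p : ℕ) [Fact p.Prime] (ρbar : ResidualGaloisRep (ResidueField 𝒪)) (S Smin : Finset ℕ)
    (h : TWHyp 𝒪 p ρbar S Smin) (Q : Finset ℕ) (hQ : ∀ q ∈ Q, q.Prime)
    (hbar : twFlat 𝒪 p Smin Q (GaloisRepAdic.ofResidualGaloisRep ρbar)) :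
    Nonempty (GaloisRep.DeformationRingData 𝒪 ρbar (twFlat 𝒪 p Smin Q)) :=
  Fermat.Agent.S53.result 𝒪 ρbar (twFlat 𝒪 p Smin Q) h.habs (hC 𝒪 p h.hp2 h.hp𝒪 Smin Q) hbar
    (hT 𝒪 p ρbar S Smin h Q hQ)

/-- **Existence of `D_Σ`, ordinary case** (S53 ✓ + DC-O + DC-T + DC-B). -/
theorem s59dc_exists_ord (hC : s59dc_StmtCondOrd) (hT : s59dc_StmtTanOrd)
    (p : ℕ) [Fact p.Prime] (ρbar : ResidualGaloisRep (ResidueField 𝒪)) (S Smin : Finset ℕ)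
    (h : TWHyp 𝒪 p ρbar S Smin) (Q : Finset ℕ) (hQ : ∀ q ∈ Q, q.Prime)
    (hbar : twOrd 𝒪 p Smin Q (GaloisRepAdic.ofResidualGaloisRep ρbar)) :
    Nonempty (GaloisRep.DeformationRingData 𝒪 ρbar (twOrd 𝒪 p Smin Q)) :=
  Fermat.Agent.S53.result 𝒪 ρbar (twOrd 𝒪 p Smin Q) h.habs (hC 𝒪 p h.hp2 h.hp𝒪 Smin Q) hbar
    (hT 𝒪 p ρbar S Smin h Q hQ)

end

end Fermat.Agent.S59

end
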