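/-
S59, wall DEF-COND, leaf **DC-B** (helper19): `hbar` — THE RESIDUAL REPRESENTATION IS OF TYPE `𝒟`.

`s59dc_exists_flat` / `s59dc_exists_ord` (DefCond/Plan.lean) need
`hbar : twFlat 𝒪 p Smin Q (GaloisRepAdic.ofResidualGaloisRep ρ̄)` (resp. `twOrd`) for
`ρ̄ = s59feBar W hΔ p φ hφ`.  Here:

* `s59dcb_isEquiv` : for local homomorphisms `φ : A → B`, `q : B → k_B` (`q = residue`),
    `(ρ.baseChangeAlong φ).baseChangeAlong q ≅ ofResidualGaloisRep (ρ.residual.baseChangeAlong (ResidueField.map φ))`;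
* **`s59dcb_bar`** : for ANY deformation condition `𝒟` over a complete Noetherian local ring `𝒪`:
    `𝒟 (ρ.baseChangeAlong φ hφ)` ⇒ `𝒟 (ofResidualGaloisRep (ρ.residual.baseChangeAlong (ResidueField.map φ)))`
    (`iff_forall_surjective` at the quotient `𝒪 → k`, then `of_isEquiv`);
* **`s59dcb_flat_of`, `s59dcb_ord_of`** : `hbar` for `ρ̄ = s59feBar W hΔ p φ hφ` and ANY `Smin`, `Q`
    containing `p` and the bad primes (from DC-F resp. DC-O and FinE `s59fe_twFlat_of` / `s59fe_twOrd_of`);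
* `s59dcb_flat`, `s59dcb_ord` : the same for `Smin = s59feSmin`, `Q = s59feSigma`;
* **`s59dcb_exists_flat`, `s59dcb_exists_ord`** : existence of `D_Σ` for `ρ̄ = s59feBar`
    with `hbar` plugged in (DC-F/O + DC-T are the only hypotheses left).
-/
import Fermat.Agent.S59.DefCond.Plan
import Fermat.Agent.S59.FinEPoint
import Fermat.Agent.S53.Bar

set_option autoImplicit false
set_option linter.style.haveILetI false
set_option linter.style.longLine false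
set_option linter.unusedSectionVars false
set_option linter.unusedVariables false

noncomputable section

namespace Fermat.Agent.S59

open IsLocalRing Polynomial Fermat.Agent.TW Fermat.Agent.EC TensorProduct

section Equiv

variable {A B : Type} [CommRing A] [IsLocalRing A] [CommRing B] [IsLocalRing B]

/-- **the reduction of a base change is the base change of the reduction**, in the category of
`GaloisRepAdic (ResidueField B)`. -/
theorem s59dcb_isEquiv (φ : A →+* B) (hφ : IsLocalHom φ) (ρ : GaloisRepAdic A)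
    (q : B →+* ResidueField B) (hq : IsLocalHom q) (hqr : ∀ b, q b = residue B b) :
    ((ρ.baseChangeAlong φ hφ).baseChangeAlong q hq).IsEquiv
      (GaloisRepAdic.ofResidualGaloisRep
        (ρ.residual.baseChangeAlong (haveI := hφ; ResidueField.map φ))) := by
  haveI := hφ
  have t1 : @IsScalarTower A B (ResidueField B) φ.toAlgebra.toSMul q.toAlgebra.toSMul
      ((q.comp φ).toAlgebra).toSMul :=
    @IsScalarTower.of_algebraMap_eq A B (ResidueField B) _ _ _ φ.toAlgebra q.toAlgebra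
      ((q.comp φ).toAlgebra) fun _ => rfl
  have t2 : @IsScalarTower A (ResidueField A) (ResidueField B) _
      ((ResidueField.map φ).toAlgebra).toSMul ((q.comp φ).toAlgebra).toSMul :=
    @IsScalarTower.of_algebraMap_eq A (ResidueField A) (ResidueField B) _ _ _ _
      ((ResidueField.map φ).toAlgebra) ((q.comp φ).toAlgebra) fun x => hqr (φ x)
  obtain ⟨e, he⟩ := @s59fe_residual_aux A B (ResidueField A) (ResidueField B) ρ.V _ _ _ _
    φ.toAlgebra _ q.toAlgebra ((ResidueField.map φ).toAlgebra) ((q.comp φ).toAlgebra) t1 t2 _ _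
  exact ⟨⟨e, fun σ x => he (ρ.ρ σ) x⟩⟩

end Equiv

section Bar

variable {A : Type} [CommRing A] [IsLocalRing A]
variable {𝒪 : Type} [CommRing 𝒪] [IsLocalRing 𝒪] [IsNoetherianRing 𝒪]
  [IsAdicComplete (maximalIdeal 𝒪) 𝒪]

/-- **DC-B, generic**: a deformation condition which holds for a lift `ρ ⊗ 𝒪` holds for the
residual representation. -/
theorem s59dcb_bar
    {𝒟 : ∀ ⦃A : Type⦄ [CommRing A] [IsLocalRing A] [Algebra 𝒪 A], GaloisRepAdic A → Prop}
    (h𝒟 : GaloisRep.IsDeformationCondition 𝒪 𝒟)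
    (φ : A →+* 𝒪) (hφ : IsLocalHom φ) (ρ : GaloisRepAdic A)
    (h : 𝒟 (ρ.baseChangeAlong φ hφ)) :
    𝒟 (GaloisRepAdic.ofResidualGaloisRep
      (ρ.residual.baseChangeAlong (haveI := hφ; ResidueField.map φ))) := by
  have hloc : IsLocalHom (algebraMap 𝒪 𝒪) := ⟨fun a ha => ha⟩
  have hsurj : Function.Surjective (residue 𝒪 ∘ algebraMap 𝒪 𝒪) := fun y => by
    obtain ⟨a, rfl⟩ := residue_surjective y
    exact ⟨a, rfl⟩
  have hk : GaloisRep.IsArtinianTestAlgebra 𝒪 (ResidueField 𝒪) :=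
    Fermat.Agent.S53.isArtinianTestAlgebra_residueField
  have hq : IsLocalHom ((Algebra.ofId 𝒪 (ResidueField 𝒪) : 𝒪 →ₐ[𝒪] ResidueField 𝒪) :
      𝒪 →+* ResidueField 𝒪) := hk.isLocalHom
  have hqs : Function.Surjective (Algebra.ofId 𝒪 (ResidueField 𝒪)) := residue_surjective
  have h1 := (h𝒟.iff_forall_surjective hloc hsurj (ρ.baseChangeAlong φ hφ)).1 h hk
    (Algebra.ofId 𝒪 (ResidueField 𝒪)) hq hqs
  exact h𝒟.of_isEquiv hk (s59dcb_isEquiv φ hφ ρ _ hq (fun _ => rfl)) h1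

end Bar

section Curve

variable (W : WeierstrassCurve ℤ) (hΔ : W.Δ ≠ 0) (p : ℕ) [hp : Fact p.Prime]
variable {𝒪 : Type} [CommRing 𝒪] [IsDomain 𝒪] [IsDiscreteValuationRing 𝒪]
  [IsAdicComplete (maximalIdeal 𝒪) 𝒪] [Finite (ResidueField 𝒪)]
  (φ : ℤ_[p] →+* 𝒪) (hφ : IsLocalHom φ)

/-- **DC-B, flat type** (general `Smin`, `Q`): `ρ̄_{W,p}` is of type `twFlat`. -/
theorem s59dcb_flat_of (hC : s59dc_StmtCondFlat) (hss : W.IsSemistableModel) (hp2 : p ≠ 2)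
    (hgood : W.IsGoodPrimeFor p) (Smin Q : Finset ℕ) (hpS : p ∈ Smin ∪ Q)
    (hS : ∀ q : ℕ, q.Prime → (q : ℤ) ∣ W.Δ → q ∈ Smin ∪ Q) :
    twFlat 𝒪 p Smin Q (GaloisRepAdic.ofResidualGaloisRep (s59feBar W hΔ p φ hφ)) :=
  s59dcb_bar (hC 𝒪 p hp2 (s59fe_p_mem p φ hφ) Smin Q) φ hφ (tateRepInt W hΔ p)
    (s59fe_twFlat_of W hΔ p φ hφ hss hp2 hgood Smin Q hpS hS)

/-- **DC-B, strictly ordinary type** (general `Smin`, `Q`): `ρ̄_{W,p}` is of type `twOrd`. -/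
theorem s59dcb_ord_of (hC : s59dc_StmtCondOrd) (hss : W.IsSemistableModel)
    (hp35 : p = 3 ∨ p = 5) (hbad : (p : ℤ) ∣ W.Δ) (Smin Q : Finset ℕ) (hpS : p ∈ Smin ∪ Q)
    (hS : ∀ q : ℕ, q.Prime → (q : ℤ) ∣ W.Δ → q ∈ Smin ∪ Q) :
    twOrd 𝒪 p Smin Q (GaloisRepAdic.ofResidualGaloisRep (s59feBar W hΔ p φ hφ)) := by
  have hp2 : p ≠ 2 := by rcases hp35 with rfl | rfl <;> decide
  exact s59dcb_bar (hC 𝒪 p hp2 (s59fe_p_mem p φ hφ) Smin Q) φ hφ (tateRepInt W hΔ p)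
    (s59fe_twOrd_of W hΔ p φ hφ hss hp35 hbad Smin Q hpS hS)

/-- **DC-B, flat type**, `Smin = s59feSmin`, `Q = s59feSigma`. -/
theorem s59dcb_flat (hC : s59dc_StmtCondFlat) (hss : W.IsSemistableModel) (hp2 : p ≠ 2)
    (hgood : W.IsGoodPrimeFor p) :
    twFlat 𝒪 p (s59feSmin W hΔ p) (s59feSigma W hΔ p)
      (GaloisRepAdic.ofResidualGaloisRep (s59feBar W hΔ p φ hφ)) :=
  s59dcb_flat_of W hΔ p φ hφ hC hss hp2 hgood _ _
    (Finset.mem_union_left _ (s59fe_p_mem_Smin W hΔ p))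
    (fun q hq hbad => s59fe_bad_mem W hΔ p hq hbad)

/-- **DC-B, strictly ordinary type**, `Smin = s59feSmin`, `Q = s59feSigma`. -/
theorem s59dcb_ord (hC : s59dc_StmtCondOrd) (hss : W.IsSemistableModel)
    (hp35 : p = 3 ∨ p = 5) (hbad : (p : ℤ) ∣ W.Δ) :
    twOrd 𝒪 p (s59feSmin W hΔ p) (s59feSigma W hΔ p)
      (GaloisRepAdic.ofResidualGaloisRep (s59feBar W hΔ p φ hφ)) :=
  s59dcb_ord_of W hΔ p φ hφ hC hss hp35 hbad _ _
    (Finset.mem_union_left _ (s59fe_p_mem_Smin W hΔ p))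
    (fun q hq hbad => s59fe_bad_mem W hΔ p hq hbad)

/-- **Existence of `D_Σ` for `ρ̄_{W,p}`, flat case**: `hbar` plugged in. -/
theorem s59dcb_exists_flat (hC : s59dc_StmtCondFlat) (hT : s59dc_StmtTanFlat)
    (hss : W.IsSemistableModel) (hgood : W.IsGoodPrimeFor p) (S Smin : Finset ℕ)
    (h : TWHyp 𝒪 p (s59feBar W hΔ p φ hφ) S Smin) (Q : Finset ℕ) (hQ : ∀ q ∈ Q, q.Prime)
    (hS : ∀ q : ℕ, q.Prime → (q : ℤ) ∣ W.Δ → q ∈ Smin ∪ Q) :
    Nonempty (GaloisRep.DeformationRingData 𝒪 (s59feBar W hΔ p φ hφ) (twFlat 𝒪 p Smin Q)) :=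
  s59dc_exists_flat 𝒪 hC hT p _ S Smin h Q hQ
    (s59dcb_flat_of W hΔ p φ hφ hC hss h.hp2 hgood Smin Q
      (Finset.mem_union_left _ h.hpSmin) hS)

/-- **Existence of `D_Σ` for `ρ̄_{W,p}`, ordinary case**: `hbar` plugged in. -/
theorem s59dcb_exists_ord (hC : s59dc_StmtCondOrd) (hT : s59dc_StmtTanOrd)
    (hss : W.IsSemistableModel) (hp35 : p = 3 ∨ p = 5) (hbad : (p : ℤ) ∣ W.Δ)
    (S Smin : Finset ℕ)
    (h : TWHyp 𝒪 p (s59feBar W hΔ p φ hφ) S Smin) (Q : Finset ℕ) (hQ : ∀ q ∈ Q, q.Prime)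
    (hS : ∀ q : ℕ, q.Prime → (q : ℤ) ∣ W.Δ → q ∈ Smin ∪ Q) :
    Nonempty (GaloisRep.DeformationRingData 𝒪 (s59feBar W hΔ p φ hφ) (twOrd 𝒪 p Smin Q)) :=
  s59dc_exists_ord 𝒪 hC hT p _ S Smin h Q hQ
    (s59dcb_ord_of W hΔ p φ hφ hC hss hp35 hbad Smin Q
      (Finset.mem_union_left _ h.hpSmin) hS)

end Curve

end Fermat.Agent.S59

end
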