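/-
S59, wall DEF-COND, piece **DC-COMMON** (helper94), part 1: the abstract tools.

* `s59dcc_congr`  : a condition pointwise equivalent to a deformation condition is one;
* `s59dcc_and`    : the conjunction of two deformation conditions is a deformation condition;
* `s59dcc_forall` : so is the conjunction of a family;
* `s59dcc_krull`  : in a Noetherian local ring, `x ∈ (m)` as soon as `x ∈ (m) mod 𝔪 ^ k` for all `k ≥ 1`;
* `s59dcc_of_coeff` : **the coefficient principle**: a condition which is invariant under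
  equivalence and is cut out, naturally in the coefficient ring, by equations `c i = 0` (on the
  Artinian test algebras) resp. by congruences `c i ∈ (m i)`, `m i : ℕ` (in general), is a
  deformation condition.
-/
import Fermat.Agent.S53.TestAlg
import Fermat.Prelude.Def_GaloisRep_DeformationCondition

set_option autoImplicit false
set_option linter.unusedSectionVars false
set_option linter.unusedVariables false
set_option linter.style.longLine false

noncomputable section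

namespace Fermat.Agent.S59

open IsLocalRing

section general

variable {𝒪 : Type} [CommRing 𝒪] [IsLocalRing 𝒪]

/-- A condition pointwise equivalent to a deformation condition is a deformation condition. -/
theorem s59dcc_congr
    {𝒟 𝒟' : ∀ ⦃A : Type⦄ [CommRing A] [IsLocalRing A] [Algebra 𝒪 A], GaloisRepAdic A → Prop}
    (h : ∀ ⦃A : Type⦄ [CommRing A] [IsLocalRing A] [Algebra 𝒪 A] (ρ : GaloisRepAdic A),
      𝒟 ρ ↔ 𝒟' ρ)
    (hD : GaloisRep.IsDeformationCondition 𝒪 𝒟) : GaloisRep.IsDeformationCondition 𝒪 𝒟' := by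
  have e : 𝒟 = 𝒟' := by
    funext A _ _ _ ρ
    exact propext (h ρ)
  exact e ▸ hD

/-- The conjunction of two deformation conditions is a deformation condition. -/
theorem s59dcc_and
    {𝒟₁ 𝒟₂ : ∀ ⦃A : Type⦄ [CommRing A] [IsLocalRing A] [Algebra 𝒪 A], GaloisRepAdic A → Prop}
    (h₁ : GaloisRep.IsDeformationCondition 𝒪 𝒟₁) (h₂ : GaloisRep.IsDeformationCondition 𝒪 𝒟₂) :
    GaloisRep.IsDeformationCondition 𝒪 (fun _A _ _ _ ρ => 𝒟₁ ρ ∧ 𝒟₂ ρ) where
  of_isEquiv := by
    intro A _ _ _ hA ρ ρ' e h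
    exact ⟨h₁.of_isEquiv hA e h.1, h₂.of_isEquiv hA e h.2⟩
  baseChangeAlong := by
    intro A B _ _ _ _ _ _ hA hB φ hφ ρ h
    exact ⟨h₁.baseChangeAlong hA hB φ hφ h.1, h₂.baseChangeAlong hA hB φ hφ h.2⟩
  of_baseChangeAlong_injective := by
    intro A B _ _ _ _ _ _ hA hB φ hφ hinj ρ h
    exact ⟨h₁.of_baseChangeAlong_injective hA hB φ hφ hinj h.1,
      h₂.of_baseChangeAlong_injective hA hB φ hφ hinj h.2⟩
  of_fibreProduct := by
    intro A B C P _ _ _ _ _ _ _ _ _ _ _ _ hA hB hC hP f g pA pB hpA hpB hfg hinj hsurj ρ hρA hρB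
    exact ⟨h₁.of_fibreProduct hA hB hC hP f g pA pB hpA hpB hfg hinj hsurj hρA.1 hρB.1,
      h₂.of_fibreProduct hA hB hC hP f g pA pB hpA hpB hfg hinj hsurj hρA.2 hρB.2⟩
  iff_forall_surjective := by
    intro A _ _ _ _ _ hloc hres ρ
    constructor
    · intro h B _ _ _ hB q hq hqs
      exact ⟨(h₁.iff_forall_surjective hloc hres ρ).1 h.1 hB q hq hqs,
        (h₂.iff_forall_surjective hloc hres ρ).1 h.2 hB q hq hqs⟩
    · intro h
      exact ⟨(h₁.iff_forall_surjective hloc hres ρ).2 fun B _ _ _ hB q hq hqs =>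
          (h hB q hq hqs).1,
        (h₂.iff_forall_surjective hloc hres ρ).2 fun B _ _ _ hB q hq hqs =>
          (h hB q hq hqs).2⟩

/-- The conjunction of a family of deformation conditions is a deformation condition. -/
theorem s59dcc_forall {ι : Sort*}
    {𝒟 : ι → ∀ ⦃A : Type⦄ [CommRing A] [IsLocalRing A] [Algebra 𝒪 A], GaloisRepAdic A → Prop}
    (h : ∀ i, GaloisRep.IsDeformationCondition 𝒪 (𝒟 i)) :
    GaloisRep.IsDeformationCondition 𝒪 (fun _A _ _ _ ρ => ∀ i, 𝒟 i ρ) where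
  of_isEquiv := by
    intro A _ _ _ hA ρ ρ' e hρ i
    exact (h i).of_isEquiv hA e (hρ i)
  baseChangeAlong := by
    intro A B _ _ _ _ _ _ hA hB φ hφ ρ hρ i
    exact (h i).baseChangeAlong hA hB φ hφ (hρ i)
  of_baseChangeAlong_injective := by
    intro A B _ _ _ _ _ _ hA hB φ hφ hinj ρ hρ i
    exact (h i).of_baseChangeAlong_injective hA hB φ hφ hinj (hρ i)
  of_fibreProduct := by
    intro A B C P _ _ _ _ _ _ _ _ _ _ _ _ hA hB hC hP f g pA pB hpA hpB hfg hinj hsurj ρ hρA hρB i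
    exact (h i).of_fibreProduct hA hB hC hP f g pA pB hpA hpB hfg hinj hsurj (hρA i) (hρB i)
  iff_forall_surjective := by
    intro A _ _ _ _ _ hloc hres ρ
    constructor
    · intro hρ B _ _ _ hB q hq hqs i
      exact ((h i).iff_forall_surjective hloc hres ρ).1 (hρ i) hB q hq hqs
    · intro hρ i
      exact ((h i).iff_forall_surjective hloc hres ρ).2 fun B _ _ _ hB q hq hqs =>
        hρ hB q hq hqs i

/-- A condition implied by a proposition which does not depend on the representation. -/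
theorem s59dcc_imp (c : Prop)
    {𝒟 : ∀ ⦃A : Type⦄ [CommRing A] [IsLocalRing A] [Algebra 𝒪 A], GaloisRepAdic A → Prop}
    (h : c → GaloisRep.IsDeformationCondition 𝒪 𝒟) :
    GaloisRep.IsDeformationCondition 𝒪 (fun _A _ _ _ ρ => c → 𝒟 ρ) where
  of_isEquiv := by
    intro A _ _ _ hA ρ ρ' e hρ hc
    exact (h hc).of_isEquiv hA e (hρ hc)
  baseChangeAlong := by
    intro A B _ _ _ _ _ _ hA hB φ hφ ρ hρ hc
    exact (h hc).baseChangeAlong hA hB φ hφ (hρ hc)
  of_baseChangeAlong_injective := by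
    intro A B _ _ _ _ _ _ hA hB φ hφ hinj ρ hρ hc
    exact (h hc).of_baseChangeAlong_injective hA hB φ hφ hinj (hρ hc)
  of_fibreProduct := by
    intro A B C P _ _ _ _ _ _ _ _ _ _ _ _ hA hB hC hP f g pA pB hpA hpB hfg hinj hsurj ρ hρA hρB hc
    exact (h hc).of_fibreProduct hA hB hC hP f g pA pB hpA hpB hfg hinj hsurj (hρA hc) (hρB hc)
  iff_forall_surjective := by
    intro A _ _ _ _ _ hloc hres ρ
    constructor
    · intro hρ B _ _ _ hB q hq hqs hc
      exact ((h hc).iff_forall_surjective hloc hres ρ).1 (hρ hc) hB q hq hqs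
    · intro hρ hc
      exact ((h hc).iff_forall_surjective hloc hres ρ).2 fun B _ _ _ hB q hq hqs =>
        hρ hB q hq hqs hc

end general

section krull

variable {A : Type} [CommRing A] [IsLocalRing A] [IsNoetherianRing A]

/-- **Ideals are closed**: in a Noetherian local ring, `x ∈ I` as soon as `x ∈ I + 𝔪 ^ k` for
all `k`. -/
theorem s59dcc_mem_of_forall_sup (I : Ideal A) (x : A)
    (h : ∀ k : ℕ, x ∈ I ⊔ maximalIdeal A ^ k) : x ∈ I := by
  have hbot := Ideal.iInf_pow_smul_eq_bot_of_isLocalRing (R := A) (M := A ⧸ I)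
    (maximalIdeal A) (IsLocalRing.maximalIdeal.isMaximal A).ne_top
  have hx : (Ideal.Quotient.mk I x : A ⧸ I) ∈
      ⨅ i : ℕ, (maximalIdeal A ^ i) • (⊤ : Submodule A (A ⧸ I)) := by
    rw [Submodule.mem_iInf]
    intro k
    obtain ⟨y, hy, z, hz, hyz⟩ := Submodule.mem_sup.1 (h k)
    have e : (Ideal.Quotient.mk I x : A ⧸ I) = z • (Ideal.Quotient.mk I 1 : A ⧸ I) := by
      rw [← hyz, map_add, Ideal.Quotient.eq_zero_iff_mem.2 hy, zero_add]
      rw [Algebra.smul_def, map_one, mul_one]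
      rfl
    rw [e]
    exact Submodule.smul_mem_smul hz Submodule.mem_top
  rw [hbot, Submodule.mem_bot] at hx
  exact Ideal.Quotient.eq_zero_iff_mem.1 hx

/-- **Krull**: `x ∈ (m)` as soon as the image of `x` in `A ⧸ 𝔪 ^ k` lies in `(m)` for all
`k ≥ 1`. -/
theorem s59dcc_krull (m : ℕ) (x : A)
    (h : ∀ k : ℕ, 1 ≤ k → Ideal.Quotient.mk (maximalIdeal A ^ k) x ∈
      Ideal.span {((m : ℕ) : A ⧸ maximalIdeal A ^ k)}) :
    x ∈ Ideal.span {((m : ℕ) : A)} := by
  refine s59dcc_mem_of_forall_sup _ x fun k => ?_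
  rcases Nat.eq_zero_or_pos k with rfl | hk
  · rw [pow_zero, Ideal.one_eq_top, sup_top_eq]
    exact Submodule.mem_top
  · obtain ⟨y, hy⟩ := Ideal.mem_span_singleton'.1 (h k hk)
    obtain ⟨z, rfl⟩ := Ideal.Quotient.mk_surjective y
    have h1 : Ideal.Quotient.mk (maximalIdeal A ^ k) (x - z * (m : A)) = 0 := by
      rw [map_sub, map_mul, map_natCast, hy, sub_self]
    have h2 : x - z * (m : A) ∈ maximalIdeal A ^ k := Ideal.Quotient.eq_zero_iff_mem.1 h1
    have e : x = z * (m : A) + (x - z * (m : A)) := by ring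
    rw [e]
    exact Submodule.add_mem_sup (Ideal.mem_span_singleton'.2 ⟨z, rfl⟩) h2

end krull

section principle

variable {𝒪 : Type} [CommRing 𝒪] [IsLocalRing 𝒪] [Finite (ResidueField 𝒪)]

/-- the image of `(m)` under a ring homomorphism lies in `(m)` -/
theorem s59dcc_map_mem_span {A B : Type} [CommRing A] [CommRing B] (φ : A →+* B) (m : ℕ) {x : A}
    (hx : x ∈ Ideal.span {((m : ℕ) : A)}) : φ x ∈ Ideal.span {((m : ℕ) : B)} := by
  obtain ⟨y, rfl⟩ := Ideal.mem_span_singleton'.1 hx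
  rw [map_mul, map_natCast]
  exact Ideal.mem_span_singleton'.2 ⟨φ y, rfl⟩

/-- **The coefficient principle.**  A condition `𝒟` which is invariant under equivalence, which
on every Artinian test algebra is cut out by equations `c i = 0` compatibly with base change, and
which on every local `𝒪`-algebra is cut out by congruences `c i ∈ (m i)`, `m i : ℕ`, compatibly
with base change, is a deformation condition. -/
theorem s59dcc_of_coeff
    (𝒟 : ∀ ⦃A : Type⦄ [CommRing A] [IsLocalRing A] [Algebra 𝒪 A], GaloisRepAdic A → Prop)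
    (hequiv : ∀ ⦃A : Type⦄ [CommRing A] [IsLocalRing A] [Algebra 𝒪 A]
      ⦃ρ ρ' : GaloisRepAdic A⦄, IsLocalHom (algebraMap 𝒪 A) → ρ.IsEquiv ρ' → 𝒟 ρ → 𝒟 ρ')
    (hArt : ∀ ⦃A : Type⦄ [CommRing A] [IsLocalRing A] [Algebra 𝒪 A] (ρ : GaloisRepAdic A),
      GaloisRep.IsArtinianTestAlgebra 𝒪 A →
      ∃ (ι : Type) (c : ι → A), (𝒟 ρ ↔ ∀ i, c i = 0) ∧
        ∀ ⦃B : Type⦄ [CommRing B] [IsLocalRing B] [Algebra 𝒪 B],
          GaloisRep.IsArtinianTestAlgebra 𝒪 B →
          ∀ (φ : A →ₐ[𝒪] B) (hφ : IsLocalHom (φ : A →+* B)),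
            (𝒟 (ρ.baseChangeAlong (φ : A →+* B) hφ) ↔ ∀ i, φ (c i) = 0))
    (hGen : ∀ ⦃A : Type⦄ [CommRing A] [IsLocalRing A] [Algebra 𝒪 A] (ρ : GaloisRepAdic A),
      IsLocalHom (algebraMap 𝒪 A) →
      ∃ (ι : Type) (c : ι → A) (m : ι → ℕ),
        (𝒟 ρ ↔ ∀ i, c i ∈ Ideal.span {((m i : ℕ) : A)}) ∧
        ∀ ⦃B : Type⦄ [CommRing B] [IsLocalRing B] [Algebra 𝒪 B],
          IsLocalHom (algebraMap 𝒪 B) →
          ∀ (φ : A →ₐ[𝒪] B) (hφ : IsLocalHom (φ : A →+* B)),
            (𝒟 (ρ.baseChangeAlong (φ : A →+* B) hφ) ↔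
              ∀ i, φ (c i) ∈ Ideal.span {((m i : ℕ) : B)})) :
    GaloisRep.IsDeformationCondition 𝒪 𝒟 where
  of_isEquiv := by
    intro A _ _ _ hA ρ ρ' e h
    exact hequiv hA.isLocalHom e h
  baseChangeAlong := by
    intro A B _ _ _ _ _ _ hA hB φ hφ ρ h
    obtain ⟨ι, c, m, h1, h2⟩ := hGen ρ hA.isLocalHom
    exact (h2 hB.isLocalHom φ hφ).2 fun i => s59dcc_map_mem_span (φ : A →+* B) (m i) ((h1.1 h) i)
  of_baseChangeAlong_injective := by
    intro A B _ _ _ _ _ _ hA hB φ hφ hinj ρ h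
    obtain ⟨ι, c, h1, h2⟩ := hArt ρ hA
    refine h1.2 fun i => ?_
    have h3 := (h2 hB φ hφ).1 h i
    exact hinj (h3.trans (map_zero φ).symm)
  of_fibreProduct := by
    intro A B C P _ _ _ _ _ _ _ _ _ _ _ _ hA hB hC hP f g pA pB hpA hpB hfg hinj hsurj ρ hρA hρB
    obtain ⟨ι, c, h1, h2⟩ := hArt ρ hP
    refine h1.2 fun i => ?_
    have h3 := (h2 hA pA hpA).1 hρA i
    have h4 := (h2 hB pB hpB).1 hρB i
    refine hinj ?_
    show (pA (c i), pB (c i)) = (pA 0, pB 0)
    rw [h3, h4, map_zero, map_zero]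
  iff_forall_surjective := by
    intro A _ _ _ _ _ hloc hres ρ
    obtain ⟨ι, c, m, h1, h2⟩ := hGen ρ hloc
    constructor
    · intro h B _ _ _ hB q hq hqs
      exact (h2 hB.isLocalHom q hq).2 fun i =>
        s59dcc_map_mem_span (q : A →+* B) (m i) ((h1.1 h) i)
    · intro h
      refine h1.2 fun i => s59dcc_krull (m i) (c i) fun k hk => ?_
      have hres' : Fermat.Agent.S53.IsResAlg 𝒪 A := ⟨hloc, hres⟩
      have hT := Fermat.Agent.S53.isTestRing_quotient_maximalIdeal_pow hres' k hk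
      haveI : IsLocalRing (A ⧸ maximalIdeal A ^ k) := hT.isLocalRing
      have hB := hT.isArtinianTestAlgebra
      have hq : IsLocalHom ((Ideal.Quotient.mkₐ 𝒪 (maximalIdeal A ^ k) :
          A →ₐ[𝒪] A ⧸ maximalIdeal A ^ k) : A →+* A ⧸ maximalIdeal A ^ k) :=
        Fermat.Agent.S53.IsResAlg.isLocalHom_ringHom hT.isResAlg _
      have h3 := h hB (Ideal.Quotient.mkₐ 𝒪 (maximalIdeal A ^ k)) hq
        (Ideal.Quotient.mkₐ_surjective 𝒪 _)
      exact (h2 hB.isLocalHom _ hq).1 h3 i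

end principle

end Fermat.Agent.S59

end
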