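/-
S59, wall DEF-COND, piece **DC-COMMON** (helper94), part 2: the conditions away from `p`.

* `s59dcc_unramAt σ`  : `ρ σ = 1` is a deformation condition;
* `s59dcc_unipAt σ`   : `charpoly (ρ σ) = (X - 1) ^ 2` is a deformation condition;
* `s59dcc_det`        : `DetIsCyclotomic p` is a deformation condition (`p ∈ 𝔪_𝒪`);
* `s59dcc_unram_outside S`, `s59dcc_unip_on Smin p` : the global forms used by S56;
* `s59dcc_twOrd_of`, `s59dcc_twFlat_of` : **GLUE** — `twOrd 𝒪 p Smin Q` (resp. `twFlat`) is a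
  deformation condition as soon as the `p`-local condition `IsStrictOrdinaryAt p`
  (resp. `IsFlatAt p`) ALONE is one.
-/
import Fermat.Agent.S59.DefCond.Common
import Fermat.Agent.TW.Plan

set_option autoImplicit false
set_option linter.unusedSectionVars false
set_option linter.unusedVariables false
set_option linter.style.longLine false

noncomputable section

namespace Fermat.Agent.S59

open IsLocalRing Polynomial
open scoped TensorProduct

/-- the absolute Galois group of `ℚ` -/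
abbrev S59dccGal : Type := AlgebraicClosure ℚ ≃ₐ[ℚ] AlgebraicClosure ℚ

section aux

variable {A B : Type} [CommRing A] [CommRing B] [Algebra A B]
variable {V : Type} [AddCommGroup V] [Module A V] [Module.Free A V] [Module.Finite A V]

theorem s59dcc_aux_eq_one_iff (b : Module.Basis (Fin 2) A V) (f : V →ₗ[A] V) :
    f = 1 ↔ ∀ ij : Fin 2 × Fin 2, LinearMap.toMatrix b b (f - 1) ij.1 ij.2 = 0 := by
  rw [← sub_eq_zero, ← (LinearMap.toMatrix b b).map_eq_zero_iff]
  constructor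
  · intro h ij
    rw [h]
    rfl
  · intro h
    ext i j
    exact h (i, j)

theorem s59dcc_aux_baseChange_eq_one_iff (b : Module.Basis (Fin 2) A V) (f : V →ₗ[A] V) :
    f.baseChange B = 1 ↔
      ∀ ij : Fin 2 × Fin 2, algebraMap A B (LinearMap.toMatrix b b (f - 1) ij.1 ij.2) = 0 := by
  have h1 : f.baseChange B - 1 = (f - 1).baseChange B := by
    rw [LinearMap.baseChange_sub, LinearMap.baseChange_one]
  rw [← sub_eq_zero, h1, ← (LinearMap.toMatrix (Algebra.TensorProduct.basis B b)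
    (Algebra.TensorProduct.basis B b)).map_eq_zero_iff, LinearMap.toMatrix_baseChange]
  constructor
  · intro h ij
    have := congrFun (congrFun h ij.1) ij.2
    simpa using this
  · intro h
    ext i j
    simpa using h (i, j)

theorem s59dcc_aux_charpoly_iff (f : V →ₗ[A] V) :
    f.charpoly = (X - 1) ^ 2 ↔ ∀ n : ℕ, (f.charpoly - (X - 1) ^ 2).coeff n = 0 := by
  rw [← sub_eq_zero, Polynomial.ext_iff]
  simp only [Polynomial.coeff_zero]

theorem s59dcc_aux_baseChange_charpoly_iff (f : V →ₗ[A] V) :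
    (f.baseChange B).charpoly = (X - 1) ^ 2 ↔
      ∀ n : ℕ, algebraMap A B ((f.charpoly - (X - 1) ^ 2).coeff n) = 0 := by
  have h1 : (f.baseChange B).charpoly - (X - 1) ^ 2 =
      (f.charpoly - (X - 1) ^ 2).map (algebraMap A B) := by
    rw [LinearMap.charpoly_baseChange, Polynomial.map_sub, Polynomial.map_pow, Polynomial.map_sub,
      Polynomial.map_X, Polynomial.map_one]
  rw [← sub_eq_zero, h1, Polynomial.ext_iff]
  simp only [Polynomial.coeff_zero, Polynomial.coeff_map]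

end aux

section eqform

variable {𝒪 : Type} [CommRing 𝒪] [IsLocalRing 𝒪] [Finite (ResidueField 𝒪)]

theorem s59dcc_mem_span_zero {A : Type} [CommRing A] (x : A) :
    x ∈ Ideal.span {(((0 : ℕ) : ℕ) : A)} ↔ x = 0 := by
  rw [Nat.cast_zero, Ideal.span_singleton_eq_bot.2 rfl, Ideal.mem_bot]

/-- **The coefficient principle, equational form.** -/
theorem s59dcc_of_eq
    (𝒟 : ∀ ⦃A : Type⦄ [CommRing A] [IsLocalRing A] [Algebra 𝒪 A], GaloisRepAdic A → Prop)
    (hequiv : ∀ ⦃A : Type⦄ [CommRing A] [IsLocalRing A] [Algebra 𝒪 A]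
      ⦃ρ ρ' : GaloisRepAdic A⦄, IsLocalHom (algebraMap 𝒪 A) → ρ.IsEquiv ρ' → 𝒟 ρ → 𝒟 ρ')
    (hEq : ∀ ⦃A : Type⦄ [CommRing A] [IsLocalRing A] [Algebra 𝒪 A] (ρ : GaloisRepAdic A),
      IsLocalHom (algebraMap 𝒪 A) →
      ∃ (ι : Type) (c : ι → A), (𝒟 ρ ↔ ∀ i, c i = 0) ∧
        ∀ ⦃B : Type⦄ [CommRing B] [IsLocalRing B] [Algebra 𝒪 B],
          IsLocalHom (algebraMap 𝒪 B) →
          ∀ (φ : A →ₐ[𝒪] B) (hφ : IsLocalHom (φ : A →+* B)),
            (𝒟 (ρ.baseChangeAlong (φ : A →+* B) hφ) ↔ ∀ i, φ (c i) = 0)) :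
    GaloisRep.IsDeformationCondition 𝒪 𝒟 := by
  refine s59dcc_of_coeff 𝒟 hequiv ?_ ?_
  · intro A _ _ _ ρ hA
    obtain ⟨ι, c, h1, h2⟩ := hEq ρ hA.isLocalHom
    exact ⟨ι, c, h1, fun B _ _ _ hB φ hφ => h2 hB.isLocalHom φ hφ⟩
  · intro A _ _ _ ρ hA
    obtain ⟨ι, c, h1, h2⟩ := hEq ρ hA
    refine ⟨ι, c, fun _ => 0, ?_, ?_⟩
    · rw [h1]
      exact forall_congr' fun i => (s59dcc_mem_span_zero (c i)).symm
    · intro B _ _ _ hB φ hφ
      rw [h2 hB φ hφ]
      exact forall_congr' fun i => (s59dcc_mem_span_zero (φ (c i))).symm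

/-- `ρ σ = 1` is a deformation condition. -/
theorem s59dcc_unramAt (σ : S59dccGal) :
    GaloisRep.IsDeformationCondition 𝒪 (fun _A _ _ _ ρ => ρ.ρ σ = 1) := by
  refine s59dcc_of_eq _ ?_ ?_
  · intro A _ _ _ ρ ρ' _ he h
    obtain ⟨e⟩ := he
    refine LinearMap.ext fun y => ?_
    have h1 := e.map_apply σ (e.toLinearEquiv.symm y)
    rw [h, Module.End.one_apply, LinearEquiv.apply_symm_apply] at h1
    rw [Module.End.one_apply]
    exact h1.symm
  · intro A _ _ _ ρ hA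
    refine ⟨Fin 2 × Fin 2, fun ij => LinearMap.toMatrix
      (Module.finBasisOfFinrankEq A ρ.V ρ.finrank_eq)
      (Module.finBasisOfFinrankEq A ρ.V ρ.finrank_eq) (ρ.ρ σ - 1) ij.1 ij.2,
      s59dcc_aux_eq_one_iff _ _, ?_⟩
    intro B _ _ _ hB φ hφ
    exact @s59dcc_aux_baseChange_eq_one_iff A B _ _ (φ : A →+* B).toAlgebra ρ.V _ _ _ _
      (Module.finBasisOfFinrankEq A ρ.V ρ.finrank_eq) (ρ.ρ σ)

/-- `charpoly (ρ σ) = (X - 1) ^ 2` is a deformation condition. -/
theorem s59dcc_unipAt (σ : S59dccGal) :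
    GaloisRep.IsDeformationCondition 𝒪
      (fun _A _ _ _ ρ => LinearMap.charpoly (ρ.ρ σ) = (X - 1) ^ 2) := by
  refine s59dcc_of_eq _ ?_ ?_
  · intro A _ _ _ ρ ρ' _ he h
    obtain ⟨e⟩ := he
    have h1 : ρ'.ρ σ = e.toLinearEquiv.conj (ρ.ρ σ) := by
      refine LinearMap.ext fun y => ?_
      rw [LinearEquiv.conj_apply_apply, e.map_apply, LinearEquiv.apply_symm_apply]
    rw [h1, LinearEquiv.charpoly_conj]
    exact h
  · intro A _ _ _ ρ hA
    refine ⟨ℕ, fun n => ((ρ.ρ σ).charpoly - (X - 1) ^ 2).coeff n,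
      s59dcc_aux_charpoly_iff _, ?_⟩
    intro B _ _ _ hB φ hφ
    exact @s59dcc_aux_baseChange_charpoly_iff A B _ _ (φ : A →+* B).toAlgebra ρ.V _ _ _ _
      (ρ.ρ σ)

end eqform

end Fermat.Agent.S59

end
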