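/-
S59, wall DEF-COND, piece **DC-COMMON** (helper94), part 3: `DetIsCyclotomic p` is a deformation
condition.

On a ring in which `p ^ N = 0` the congruences `det ρ(σ) ≡ a mod p ^ n` (for all `n` and all
exponents `a` of `σ` on `μ_{p^n}`) are equivalent to the EQUATIONS `det ρ(σ) = a` for the
exponents `a` of `σ` on `μ_{p^N}` (`s59dcc_det_iff`): two exponents of `σ` on `μ_{p^k}` are
congruent modulo `p ^ k` (`s59dcc_exp_modEq`).  So the coefficient principle applies.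
-/
import Fermat.Agent.S59.DefCond.CommonCond

set_option autoImplicit false
set_option linter.unusedSectionVars false
set_option linter.unusedVariables false
set_option linter.style.longLine false

noncomputable section

namespace Fermat.Agent.S59

open IsLocalRing Polynomial
open scoped TensorProduct

section cyc

/-- every `σ` acts on the `n`-th roots of unity by an `a`-th power -/
theorem s59dcc_exists_exp (n : ℕ) [NeZero n] (σ : S59dccGal) :
    ∃ a : ℕ, ∀ μ : AlgebraicClosure ℚ, μ ^ n = 1 → σ μ = μ ^ a := by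
  refine ⟨(modularCyclotomicCharacter.toFun n
    (σ : AlgebraicClosure ℚ ≃+* AlgebraicClosure ℚ)).val, fun μ hμ => ?_⟩
  have hu : IsUnit μ := IsUnit.of_pow_eq_one hμ (NeZero.ne n)
  obtain ⟨u, rfl⟩ := hu
  have hmem : u ∈ rootsOfUnity n (AlgebraicClosure ℚ) := by
    rw [mem_rootsOfUnity]
    exact Units.ext (by simpa using hμ)
  have := modularCyclotomicCharacter.toFun_spec
    (σ : AlgebraicClosure ℚ ≃+* AlgebraicClosure ℚ) (n := n) ⟨u, hmem⟩
  simpa using this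

/-- two exponents of `σ` on the `n`-th roots of unity are congruent modulo `n` -/
theorem s59dcc_exp_modEq (n : ℕ) [NeZero n] (σ : S59dccGal) {a a' : ℕ}
    (h : ∀ μ : AlgebraicClosure ℚ, μ ^ n = 1 → σ μ = μ ^ a)
    (h' : ∀ μ : AlgebraicClosure ℚ, μ ^ n = 1 → σ μ = μ ^ a') : a ≡ a' [MOD n] := by
  obtain ⟨ζ, hζ⟩ := HasEnoughRootsOfUnity.exists_primitiveRoot (AlgebraicClosure ℚ) n
  have h1 : ζ ^ a = ζ ^ a' := (h ζ hζ.pow_eq_one).symm.trans (h' ζ hζ.pow_eq_one)
  have hζ0 : ζ ≠ 0 := hζ.ne_zero (NeZero.ne n)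
  have key : ∀ b b' : ℕ, b ≤ b' → ζ ^ b = ζ ^ b' → b ≡ b' [MOD n] := by
    intro b b' hbb hpow
    have h3 : ζ ^ b * ζ ^ (b' - b) = ζ ^ b * 1 := by
      rw [← pow_add, Nat.add_sub_cancel' hbb, mul_one]
      exact hpow.symm
    have h4 : ζ ^ (b' - b) = 1 := mul_left_cancel₀ (pow_ne_zero b hζ0) h3
    exact (Nat.modEq_iff_dvd' hbb).2 ((hζ.pow_eq_one_iff_dvd _).1 h4)
  rcases le_total a a' with hle | hle
  · exact key a a' hle h1
  · exact (key a' a hle h1.symm).symm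

/-- in a ring with `p ^ N = 0`, two exponents of `σ`, on `μ_{p^n}` and on `μ_{p^N}`, are congruent
modulo `p ^ n` -/
theorem s59dcc_cast_sub_mem {R : Type} [CommRing R] (p : ℕ) [hp : Fact p.Prime] (N : ℕ)
    (hN : (p : R) ^ N = 0) (n : ℕ) (σ : S59dccGal) {a a' : ℕ}
    (h : ∀ μ : AlgebraicClosure ℚ, μ ^ p ^ n = 1 → σ μ = μ ^ a)
    (h' : ∀ μ : AlgebraicClosure ℚ, μ ^ p ^ N = 1 → σ μ = μ ^ a') :
    (a' : R) - (a : R) ∈ Ideal.span {((p ^ n : ℕ) : R)} := by
  haveI : NeZero (p ^ min n N) := ⟨pow_ne_zero _ hp.out.ne_zero⟩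
  have hk1 : p ^ min n N ∣ p ^ n := pow_dvd_pow p (min_le_left n N)
  have hk2 : p ^ min n N ∣ p ^ N := pow_dvd_pow p (min_le_right n N)
  have hmod : a ≡ a' [MOD p ^ min n N] := by
    refine s59dcc_exp_modEq (p ^ min n N) σ (fun μ hμ => h μ ?_) (fun μ hμ => h' μ ?_)
    · obtain ⟨c, hc⟩ := hk1
      rw [hc, pow_mul, hμ, one_pow]
    · obtain ⟨c, hc⟩ := hk2
      rw [hc, pow_mul, hμ, one_pow]
  obtain ⟨t, ht⟩ := (Nat.modEq_iff_dvd.1 hmod)
  have e : (a' : R) - (a : R) = (p : R) ^ min n N * (t : R) := by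
    have := congrArg (Int.cast : ℤ → R) ht
    push_cast at this
    exact this
  rcases le_total n N with hnN | hNn
  · rw [min_eq_left hnN] at e
    rw [e, ← Nat.cast_pow]
    exact Ideal.mul_mem_right _ _ (Ideal.subset_span rfl)
  · rw [min_eq_right hNn] at e
    rw [e, hN, zero_mul]
    exact Ideal.zero_mem _

/-- **Congruences ⟺ equations** when `p ^ N = 0`. -/
theorem s59dcc_det_iff {R : Type} [CommRing R] (p : ℕ) [hp : Fact p.Prime] (N : ℕ)
    (hN : (p : R) ^ N = 0) (d : S59dccGal → R) :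
    (∀ (n : ℕ) (σ : S59dccGal) (a : ℕ),
      (∀ μ : AlgebraicClosure ℚ, μ ^ p ^ n = 1 → σ μ = μ ^ a) →
        d σ - (a : R) ∈ Ideal.span {((p ^ n : ℕ) : R)}) ↔
    ∀ t : {t : S59dccGal × ℕ // ∀ μ : AlgebraicClosure ℚ, μ ^ p ^ N = 1 → t.1 μ = μ ^ t.2},
      d t.1.1 - (t.1.2 : R) = 0 := by
  constructor
  · intro h t
    have h1 := h N t.1.1 t.1.2 t.2
    rwa [Nat.cast_pow, hN, Ideal.span_singleton_eq_bot.2 rfl, Ideal.mem_bot] at h1
  · intro h n σ a ha
    haveI : NeZero (p ^ N) := ⟨pow_ne_zero _ hp.out.ne_zero⟩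
    obtain ⟨a', ha'⟩ := s59dcc_exists_exp (p ^ N) σ
    have h1 := h ⟨(σ, a'), ha'⟩
    have h2 : d σ - (a : R) = (a' : R) - (a : R) := by
      rw [sub_eq_zero] at h1
      show d σ - (a : R) = (a' : R) - (a : R)
      rw [show d σ = (a' : R) from h1]
    rw [h2]
    exact s59dcc_cast_sub_mem p N hN n σ ha ha'

end cyc

section det

variable {𝒪 : Type} [CommRing 𝒪] [IsLocalRing 𝒪] [Finite (ResidueField 𝒪)]

/-- `p` lies in the maximal ideal of a local `𝒪`-algebra -/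
theorem s59dcc_p_mem {A : Type} [CommRing A] [IsLocalRing A] [Algebra 𝒪 A]
    (hA : IsLocalHom (algebraMap 𝒪 A)) (p : ℕ) (hp𝒪 : (p : 𝒪) ∈ maximalIdeal 𝒪) :
    (p : A) ∈ maximalIdeal A := by
  have h1 : algebraMap 𝒪 A (p : 𝒪) ∈ maximalIdeal A := map_nonunit (algebraMap 𝒪 A) _ hp𝒪
  rwa [map_natCast] at h1

/-- the determinant commutes with base change -/
theorem s59dcc_aux_det {A B : Type} [CommRing A] [CommRing B] [Algebra A B]
    {V : Type} [AddCommGroup V] [Module A V] [Module.Free A V] [Module.Finite A V]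
    (f : V →ₗ[A] V) (a : ℕ) :
    LinearMap.det (f.baseChange B) - (a : B) = algebraMap A B (LinearMap.det f - (a : A)) := by
  rw [LinearMap.det_baseChange, map_sub, map_natCast]

/-- **`DetIsCyclotomic p` is a deformation condition.** -/
theorem s59dcc_det (p : ℕ) [hp : Fact p.Prime] (hp𝒪 : (p : 𝒪) ∈ maximalIdeal 𝒪) :
    GaloisRep.IsDeformationCondition 𝒪 (fun _A _ _ _ ρ => ρ.DetIsCyclotomic p) := by
  refine s59dcc_of_coeff _ ?_ ?_ ?_
  · -- invariance under equivalence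
    intro A _ _ _ ρ ρ' _ he h
    obtain ⟨e⟩ := he
    refine ⟨h.1, fun n σ a ha => ?_⟩
    have h1 : ρ'.ρ σ = e.toLinearEquiv.conj (ρ.ρ σ) := by
      refine LinearMap.ext fun y => ?_
      rw [LinearEquiv.conj_apply_apply, e.map_apply, LinearEquiv.apply_symm_apply]
    have h2 : LinearMap.det (ρ'.ρ σ) = LinearMap.det (ρ.ρ σ) := by
      rw [h1]
      exact LinearMap.det_conj (ρ.ρ σ) e.toLinearEquiv
    rw [h2]
    exact h.2 n σ a ha
  · -- equations on the Artinian test algebras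
    intro A _ _ _ ρ hA
    have hpA : (p : A) ∈ maximalIdeal A := s59dcc_p_mem hA.isLocalHom p hp𝒪
    haveI := hA.isArtinian
    obtain ⟨N, hN⟩ := IsArtinianRing.isNilpotent_jacobson_bot (R := A)
    rw [IsLocalRing.jacobson_eq_maximalIdeal _ bot_ne_top] at hN
    have hpN : (p : A) ^ N = 0 := by
      have := Ideal.pow_mem_pow hpA N
      rwa [hN, Ideal.zero_eq_bot, Ideal.mem_bot] at this
    refine ⟨{t : S59dccGal × ℕ // ∀ μ : AlgebraicClosure ℚ, μ ^ p ^ N = 1 → t.1 μ = μ ^ t.2},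
      fun t => LinearMap.det (ρ.ρ t.1.1) - (t.1.2 : A), ?_, ?_⟩
    · rw [← s59dcc_det_iff p N hpN (fun σ => LinearMap.det (ρ.ρ σ))]
      exact ⟨fun h => h.2, fun h => ⟨hpA, h⟩⟩
    · intro B _ _ _ hB φ hφ
      have hpB : (p : B) ∈ maximalIdeal B := s59dcc_p_mem hB.isLocalHom p hp𝒪
      have hpNB : (p : B) ^ N = 0 := by
        have := congrArg (φ : A →+* B) hpN
        rwa [map_pow, map_natCast, map_zero] at this
      have h1 := s59dcc_det_iff p N hpNB
        (fun σ => LinearMap.det ((ρ.baseChangeAlong (φ : A →+* B) hφ).ρ σ))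
      have h2 : ∀ (σ : S59dccGal) (a : ℕ),
          LinearMap.det ((ρ.baseChangeAlong (φ : A →+* B) hφ).ρ σ) - (a : B) =
            φ (LinearMap.det (ρ.ρ σ) - (a : A)) := fun σ a =>
        @s59dcc_aux_det A B _ _ (φ : A →+* B).toAlgebra ρ.V _ _ _ _ (ρ.ρ σ) a
      constructor
      · intro h t
        rw [← h2]
        exact h1.1 h.2 t
      · intro h
        refine ⟨hpB, h1.2 fun t => ?_⟩
        rw [h2]
        exact h t
  · -- congruences in general
    intro A _ _ _ ρ hA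
    have hpA : (p : A) ∈ maximalIdeal A := s59dcc_p_mem hA p hp𝒪
    refine ⟨{t : ℕ × S59dccGal × ℕ //
        ∀ μ : AlgebraicClosure ℚ, μ ^ p ^ t.1 = 1 → t.2.1 μ = μ ^ t.2.2},
      fun t => LinearMap.det (ρ.ρ t.1.2.1) - (t.1.2.2 : A), fun t => p ^ t.1.1, ?_, ?_⟩
    · constructor
      · intro h t
        exact h.2 t.1.1 t.1.2.1 t.1.2.2 t.2
      · intro h
        exact ⟨hpA, fun n σ a ha => h ⟨(n, σ, a), ha⟩⟩
    · intro B _ _ _ hB φ hφ
      have hpB : (p : B) ∈ maximalIdeal B := s59dcc_p_mem hB p hp𝒪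
      have h2 : ∀ (σ : S59dccGal) (a : ℕ),
          LinearMap.det ((ρ.baseChangeAlong (φ : A →+* B) hφ).ρ σ) - (a : B) =
            φ (LinearMap.det (ρ.ρ σ) - (a : A)) := fun σ a =>
        @s59dcc_aux_det A B _ _ (φ : A →+* B).toAlgebra ρ.V _ _ _ _ (ρ.ρ σ) a
      constructor
      · intro h t
        rw [← h2]
        exact h.2 t.1.1 t.1.2.1 t.1.2.2 t.2
      · intro h
        refine ⟨hpB, fun n σ a ha => ?_⟩
        rw [h2]
        exact h ⟨(n, σ, a), ha⟩

end det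

end Fermat.Agent.S59

end
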