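/-
S59, wall DEF-COND, piece **DC-COMMON** (helper94), part 4: GLUE.

* `s59dcc_unram_outside S` : "unramified outside `S`" is a deformation condition;
* `s59dcc_unip_on Smin p`  : "unipotent on inertia at the primes `q ≠ p` of `Smin`" is one;
* `s59dcc_twOrd_of`  : `twOrd 𝒪 p Smin Q` is a deformation condition as soon as the `p`-local
  condition `IsStrictOrdinaryAt p` ALONE is one;
* `s59dcc_twFlat_of` : the same for `twFlat` and `IsFlatAt p`;
* `s59dcc_stmtCondOrd_of`, `s59dcc_stmtCondFlat_of` : the Props DC-O / DC-F of `Plan.lean`.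
-/
import Fermat.Agent.S59.DefCond.CommonDet
import Fermat.Agent.S59.DefCond.Plan

set_option autoImplicit false
set_option linter.unusedSectionVars false
set_option linter.unusedVariables false
set_option linter.style.longLine false

noncomputable section

namespace Fermat.Agent.S59

open IsLocalRing Polynomial Fermat.Agent.TW

section glue

variable {𝒪 : Type} [CommRing 𝒪] [IsLocalRing 𝒪] [Finite (ResidueField 𝒪)]

/-- "Unramified outside `S`" is a deformation condition. -/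
theorem s59dcc_unram_outside (S : Finset ℕ) :
    GaloisRep.IsDeformationCondition 𝒪
      (fun _A _ _ _ ρ => ∀ q : ℕ, q.Prime → q ∉ S → ρ.IsUnramifiedAt q) := by
  have h : GaloisRep.IsDeformationCondition 𝒪
      (fun _A _ _ _ ρ => ∀ q : ℕ, q.Prime → q ∉ S →
        ∀ P : ValuationSubring (AlgebraicClosure ℚ), P.LiesOverPrime q →
          ∀ σ : S59dccGal, σ ∈ P.inertiaSubgroupIn ℚ → ρ.ρ σ = 1) :=
    s59dcc_forall fun q => s59dcc_imp _ fun _ => s59dcc_imp _ fun _ =>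
      s59dcc_forall fun P => s59dcc_imp _ fun _ => s59dcc_forall fun σ => s59dcc_imp _ fun _ =>
        s59dcc_unramAt σ
  exact s59dcc_congr (fun _A _ _ _ ρ => Iff.rfl) h

/-- "Unipotent on inertia at the primes `q ≠ p` of `Smin`" is a deformation condition. -/
theorem s59dcc_unip_on (Smin : Finset ℕ) (p : ℕ) :
    GaloisRep.IsDeformationCondition 𝒪
      (fun _A _ _ _ ρ => ∀ q ∈ Smin, q.Prime → q ≠ p → ρ.IsUnipotentOnInertiaAt q) := by
  have h : GaloisRep.IsDeformationCondition 𝒪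
      (fun _A _ _ _ ρ => ∀ q : ℕ, q ∈ Smin → q.Prime → q ≠ p →
        ∀ P : ValuationSubring (AlgebraicClosure ℚ), P.LiesOverPrime q →
          ∀ σ : S59dccGal, σ ∈ P.inertiaSubgroupIn ℚ →
            LinearMap.charpoly (ρ.ρ σ) = (X - 1) ^ 2) :=
    s59dcc_forall fun q => s59dcc_imp _ fun _ => s59dcc_imp _ fun _ => s59dcc_imp _ fun _ =>
      s59dcc_forall fun P => s59dcc_imp _ fun _ => s59dcc_forall fun σ => s59dcc_imp _ fun _ =>
        s59dcc_unipAt σ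
  exact s59dcc_congr (fun _A _ _ _ ρ => Iff.rfl) h

/-- **GLUE (ordinary)**: `twOrd` is a deformation condition as soon as `IsStrictOrdinaryAt p` is. -/
theorem s59dcc_twOrd_of (p : ℕ) [Fact p.Prime] (hp𝒪 : (p : 𝒪) ∈ maximalIdeal 𝒪)
    (Smin Q : Finset ℕ)
    (hloc : GaloisRep.IsDeformationCondition 𝒪 (fun _A _ _ _ ρ => ρ.IsStrictOrdinaryAt p)) :
    GaloisRep.IsDeformationCondition 𝒪 (twOrd 𝒪 p Smin Q) :=
  s59dcc_congr (fun _A _ _ _ ρ => Iff.rfl)
    (s59dcc_and (s59dcc_and (s59dcc_det p hp𝒪) (s59dcc_and hloc (s59dcc_unram_outside (Smin ∪ Q))))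
      (s59dcc_unip_on Smin p))

/-- **GLUE (flat)**: `twFlat` is a deformation condition as soon as `IsFlatAt p` is. -/
theorem s59dcc_twFlat_of (p : ℕ) [Fact p.Prime] (hp𝒪 : (p : 𝒪) ∈ maximalIdeal 𝒪)
    (Smin Q : Finset ℕ)
    (hloc : GaloisRep.IsDeformationCondition 𝒪 (fun _A _ _ _ ρ => ρ.IsFlatAt p)) :
    GaloisRep.IsDeformationCondition 𝒪 (twFlat 𝒪 p Smin Q) :=
  s59dcc_congr (fun _A _ _ _ ρ => Iff.rfl)
    (s59dcc_and (s59dcc_and (s59dcc_det p hp𝒪) (s59dcc_and hloc (s59dcc_unram_outside (Smin ∪ Q))))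
      (s59dcc_unip_on Smin p))

end glue

/-- **DC-O** from its `p`-local field. -/
theorem s59dcc_stmtCondOrd_of
    (hloc : ∀ (𝒪 : Type) [CommRing 𝒪] [IsLocalRing 𝒪] [Finite (ResidueField 𝒪)]
      (p : ℕ) [Fact p.Prime], p ≠ 2 → (p : 𝒪) ∈ maximalIdeal 𝒪 →
      GaloisRep.IsDeformationCondition 𝒪 (fun _A _ _ _ ρ => ρ.IsStrictOrdinaryAt p)) :
    s59dc_StmtCondOrd := by
  intro 𝒪 _ _ _ _ _ p _ hp2 hp𝒪 Smin Q
  exact s59dcc_twOrd_of p hp𝒪 Smin Q (hloc 𝒪 p hp2 hp𝒪)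

/-- **DC-F** from its `p`-local field. -/
theorem s59dcc_stmtCondFlat_of
    (hloc : ∀ (𝒪 : Type) [CommRing 𝒪] [IsLocalRing 𝒪] [Finite (ResidueField 𝒪)]
      (p : ℕ) [Fact p.Prime], p ≠ 2 → (p : 𝒪) ∈ maximalIdeal 𝒪 →
      GaloisRep.IsDeformationCondition 𝒪 (fun _A _ _ _ ρ => ρ.IsFlatAt p)) :
    s59dc_StmtCondFlat := by
  intro 𝒪 _ _ _ _ _ p _ hp2 hp𝒪 Smin Q
  exact s59dcc_twFlat_of p hp𝒪 Smin Q (hloc 𝒪 p hp2 hp𝒪)

end Fermat.Agent.S59

end
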