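/-
S59, wall DEF-COND, leaf DC-F, the `p`-local field (helper29).

`s59dcf_flat` : flatness at `p` (the prelude's `GaloisRepAdic.IsFlatAt p`) is a deformation
condition (`GaloisRep.IsDeformationCondition`), for coefficient rings `𝒪` with finite residue
field.

Everything goes through annihilators in `ℤ[G_ℚ]` (`s59fe_subquot`, helper77):
* `s59dcf_transport`, `s59dcf_transport_prod` : a finite flat model passes from `V₁ / I₁ V₁`
  (resp. from a product of two such) to `V₂ / I₂ V₂` if every element of `ℤ[G_ℚ]` killing the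
  first kills the second;
* `s59dcf_reflect` : `c (B ⊗ V) ⊆ J (B ⊗ V)` ⇒ `c V ⊆ φ⁻¹(J) V` (`V` free);
* `s59dcf_finite_residue`, `s59dcf_finite_quot_bot` : test algebras are finite rings.
The other fields of `twFlat` (determinant, unramified, unipotent) and the glue are DC-COMMON
(helper94).
-/
import Fermat.Agent.S59.FinEFlat
import Fermat.Prelude.Def_GaloisRep_DeformationCondition

set_option autoImplicit false
set_option linter.style.haveILetI false
set_option linter.unusedSectionVars false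
set_option linter.unusedVariables false

noncomputable section

namespace Fermat.Agent.S59

open Fermat.Agent.W1 Fermat.Agent.TW IsLocalRing TensorProduct

/-! ### Finiteness of test algebras -/

section Finiteness

/-- the residue field of a local `𝒪`-algebra with surjective residue map is finite -/
theorem s59dcf_finite_residue (𝒪 : Type) [CommRing 𝒪] [IsLocalRing 𝒪] [Finite (ResidueField 𝒪)]
    {A : Type} [CommRing A] [IsLocalRing A] [Algebra 𝒪 A] (hloc : IsLocalHom (algebraMap 𝒪 A))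
    (hsurj : Function.Surjective (IsLocalRing.residue A ∘ algebraMap 𝒪 A)) :
    Finite (ResidueField A) := by
  haveI := hloc
  refine Finite.of_surjective (IsLocalRing.ResidueField.map (algebraMap 𝒪 A)) ?_
  intro y
  obtain ⟨x, hx⟩ := hsurj y
  exact ⟨IsLocalRing.residue 𝒪 x, by rw [IsLocalRing.ResidueField.map_residue]; exact hx⟩

/-- an Artinian local ring with finite residue field is finite -/
theorem s59dcf_finite_quot_bot {B : Type} [CommRing B] [IsLocalRing B] [IsArtinianRing B]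
    [Finite (ResidueField B)] : Finite (B ⧸ (⊥ : Ideal B)) := by
  obtain ⟨n, hn⟩ := IsArtinianRing.isNilpotent_jacobson_bot (R := B)
  rw [IsLocalRing.jacobson_eq_maximalIdeal ⊥ bot_ne_top] at hn
  haveI : Finite (B ⧸ maximalIdeal B) := inferInstanceAs (Finite (ResidueField B))
  have h := Ideal.finite_quotient_pow (IsNoetherian.noetherian (maximalIdeal B)) n
  rw [hn] at h
  exact h

end Finiteness

/-! ### Transport of finite flat models by annihilators -/

section Transport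

variable {A₁ A₂ : Type} [CommRing A₁] [IsLocalRing A₁] [CommRing A₂] [IsLocalRing A₂]

/-- transport of a finite flat model by annihilators -/
theorem s59dcf_transport [Finite (ResidueField A₁)] [Finite (ResidueField A₂)]
    (p : ℕ) [Fact p.Prime] (ρ₁ : GaloisRepAdic A₁) (ρ₂ : GaloisRepAdic A₂)
    (I₁ : Ideal A₁) (I₂ : Ideal A₂) [Finite (A₁ ⧸ I₁)] [Finite (A₂ ⧸ I₂)]
    (hann : ∀ c : S59GQ →₀ ℤ,
      (∀ v : ρ₁.V, (c.sum fun g z => z • ρ₁.ρ g v) ∈ I₁ • (⊤ : Submodule A₁ ρ₁.V)) →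
      ∀ w : ρ₂.V, (c.sum fun g z => z • ρ₂.ρ g w) ∈ I₂ • (⊤ : Submodule A₂ ρ₂.V))
    (h : HasFiniteFlatModel (GaloisRep.ratLocalizedAt p)
      (ρ₁.V ⧸ (I₁ • (⊤ : Submodule A₁ ρ₁.V))) (fun σ => ρ₁.levelAction I₁ σ)) :
    HasFiniteFlatModel (GaloisRep.ratLocalizedAt p)
      (ρ₂.V ⧸ (I₂ • (⊤ : Submodule A₂ ρ₂.V))) (fun σ => ρ₂.levelAction I₂ σ) := by
  classical
  haveI := s59fe_finite_level ρ₁ I₁
  haveI := s59fe_finite_level ρ₂ I₂
  refine s59fe_subquot (GaloisRep.ratLocalizedAt p)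
    (ρ₁.V ⧸ (I₁ • (⊤ : Submodule A₁ ρ₁.V))) (fun σ => ρ₁.levelAction I₁ σ)
    (ρ₂.V ⧸ (I₂ • (⊤ : Submodule A₂ ρ₂.V))) (fun σ => ρ₂.levelAction I₂ σ)
    ?_ ?_ ?_ ?_ ?_ ?_ h
  · intro σ x x'
    exact map_add _ x x'
  · intro σ τ x
    exact s59fe_levelAction_mul ρ₁ _ σ τ x
  · intro σ y y'
    exact map_add _ y y'
  · intro σ τ y
    exact s59fe_levelAction_mul ρ₂ _ σ τ y
  · intro y
    exact s59fe_levelAction_one ρ₂ _ y
  · intro c hc y
    obtain ⟨w, rfl⟩ := Submodule.Quotient.mk_surjective _ y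
    have hc' : ∀ v : ρ₁.V, (c.sum fun g z => z • ρ₁.ρ g v) ∈
        I₁ • (⊤ : Submodule A₁ ρ₁.V) := by
      intro v
      have h1 := hc (Submodule.Quotient.mk v)
      rw [s59fe_sum_level, Submodule.mkQ_apply] at h1
      exact (Submodule.Quotient.mk_eq_zero _).1 h1
    rw [s59fe_sum_level, Submodule.mkQ_apply]
    exact (Submodule.Quotient.mk_eq_zero _).2 (hann c hc' w)

variable {A₃ : Type} [CommRing A₃] [IsLocalRing A₃]

/-- transport of finite flat models by annihilators, from a product -/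
theorem s59dcf_transport_prod [Finite (ResidueField A₁)] [Finite (ResidueField A₂)]
    [Finite (ResidueField A₃)]
    (p : ℕ) [Fact p.Prime] (ρ₁ : GaloisRepAdic A₁) (ρ₂ : GaloisRepAdic A₂) (ρ₃ : GaloisRepAdic A₃)
    (I₁ : Ideal A₁) (I₂ : Ideal A₂) (I₃ : Ideal A₃)
    [Finite (A₁ ⧸ I₁)] [Finite (A₂ ⧸ I₂)] [Finite (A₃ ⧸ I₃)]
    (hann : ∀ c : S59GQ →₀ ℤ,
      (∀ v : ρ₁.V, (c.sum fun g z => z • ρ₁.ρ g v) ∈ I₁ • (⊤ : Submodule A₁ ρ₁.V)) →
      (∀ v : ρ₂.V, (c.sum fun g z => z • ρ₂.ρ g v) ∈ I₂ • (⊤ : Submodule A₂ ρ₂.V)) →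
      ∀ w : ρ₃.V, (c.sum fun g z => z • ρ₃.ρ g w) ∈ I₃ • (⊤ : Submodule A₃ ρ₃.V))
    (h₁ : HasFiniteFlatModel (GaloisRep.ratLocalizedAt p)
      (ρ₁.V ⧸ (I₁ • (⊤ : Submodule A₁ ρ₁.V))) (fun σ => ρ₁.levelAction I₁ σ))
    (h₂ : HasFiniteFlatModel (GaloisRep.ratLocalizedAt p)
      (ρ₂.V ⧸ (I₂ • (⊤ : Submodule A₂ ρ₂.V))) (fun σ => ρ₂.levelAction I₂ σ)) :
    HasFiniteFlatModel (GaloisRep.ratLocalizedAt p)
      (ρ₃.V ⧸ (I₃ • (⊤ : Submodule A₃ ρ₃.V))) (fun σ => ρ₃.levelAction I₃ σ) := by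
  classical
  haveI := s59fe_finite_level ρ₁ I₁
  haveI := s59fe_finite_level ρ₂ I₂
  haveI := s59fe_finite_level ρ₃ I₃
  have hX := hasFiniteFlatModel_prod h₁ h₂
  have hfst : ∀ (c : S59GQ →₀ ℤ)
      (x : (ρ₁.V ⧸ (I₁ • (⊤ : Submodule A₁ ρ₁.V))) × (ρ₂.V ⧸ (I₂ • (⊤ : Submodule A₂ ρ₂.V)))),
      (c.sum fun g z => z • ((ρ₁.levelAction I₁ g x.1, ρ₂.levelAction I₂ g x.2) :
        (ρ₁.V ⧸ (I₁ • (⊤ : Submodule A₁ ρ₁.V))) × (ρ₂.V ⧸ (I₂ • (⊤ : Submodule A₂ ρ₂.V))))) =
      ((c.sum fun g z => z • ρ₁.levelAction I₁ g x.1),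
        (c.sum fun g z => z • ρ₂.levelAction I₂ g x.2)) := by
    intro c x
    simp only [Finsupp.sum]
    refine Prod.ext ?_ ?_
    · rw [Prod.fst_sum]
      rfl
    · rw [Prod.snd_sum]
      rfl
  refine s59fe_subquot (GaloisRep.ratLocalizedAt p)
    ((ρ₁.V ⧸ (I₁ • (⊤ : Submodule A₁ ρ₁.V))) × (ρ₂.V ⧸ (I₂ • (⊤ : Submodule A₂ ρ₂.V))))
    (fun σ x => (ρ₁.levelAction I₁ σ x.1, ρ₂.levelAction I₂ σ x.2))
    (ρ₃.V ⧸ (I₃ • (⊤ : Submodule A₃ ρ₃.V))) (fun σ => ρ₃.levelAction I₃ σ)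
    ?_ ?_ ?_ ?_ ?_ ?_ hX
  · intro σ x x'
    refine Prod.ext ?_ ?_
    · exact map_add _ x.1 x'.1
    · exact map_add _ x.2 x'.2
  · intro σ τ x
    refine Prod.ext ?_ ?_
    · exact s59fe_levelAction_mul ρ₁ _ σ τ x.1
    · exact s59fe_levelAction_mul ρ₂ _ σ τ x.2
  · intro σ y y'
    exact map_add _ y y'
  · intro σ τ y
    exact s59fe_levelAction_mul ρ₃ _ σ τ y
  · intro y
    exact s59fe_levelAction_one ρ₃ _ y
  · intro c hc y
    obtain ⟨w, rfl⟩ := Submodule.Quotient.mk_surjective _ y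
    have hc₁ : ∀ v : ρ₁.V, (c.sum fun g z => z • ρ₁.ρ g v) ∈
        I₁ • (⊤ : Submodule A₁ ρ₁.V) := by
      intro v
      have h1 := hc (Submodule.Quotient.mk v, 0)
      rw [hfst] at h1
      have h2 := congrArg Prod.fst h1
      simp only [Prod.fst_zero] at h2
      rw [s59fe_sum_level, Submodule.mkQ_apply] at h2
      exact (Submodule.Quotient.mk_eq_zero _).1 h2
    have hc₂ : ∀ v : ρ₂.V, (c.sum fun g z => z • ρ₂.ρ g v) ∈
        I₂ • (⊤ : Submodule A₂ ρ₂.V) := by
      intro v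
      have h1 := hc (0, Submodule.Quotient.mk v)
      rw [hfst] at h1
      have h2 := congrArg Prod.snd h1
      simp only [Prod.snd_zero] at h2
      rw [s59fe_sum_level, Submodule.mkQ_apply] at h2
      exact (Submodule.Quotient.mk_eq_zero _).1 h2
    rw [s59fe_sum_level, Submodule.mkQ_apply]
    exact (Submodule.Quotient.mk_eq_zero _).2 (hann c hc₁ hc₂ w)

end Transport

/-! ### Reflection of annihilators along a base change -/

section Reflect

variable {A B : Type} [CommRing A] [CommRing B]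

theorem s59dcf_reflect_aux [Algebra A B] {G : Type} {M : Type} [AddCommGroup M] [Module A M]
    [Module.Free A M] [Module.Finite A M]
    (f : G → (M →ₗ[A] M)) (J : Ideal B) (c : G →₀ ℤ)
    (hc : ∀ w : B ⊗[A] M, (c.sum fun g z => z • (f g).baseChange B w) ∈
      J • (⊤ : Submodule B (B ⊗[A] M)))
    (v : M) :
    (c.sum fun g z => z • f g v) ∈ (J.comap (algebraMap A B)) • (⊤ : Submodule A M) := by
  have h1 := hc ((1 : B) ⊗ₜ[A] v)
  have e : (c.sum fun g z => z • (f g).baseChange B ((1 : B) ⊗ₜ[A] v)) =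
      (1 : B) ⊗ₜ[A] (c.sum fun g z => z • f g v) := by
    rw [Finsupp.sum, Finsupp.sum, TensorProduct.tmul_sum]
    refine Finset.sum_congr rfl fun g _ => ?_
    rw [LinearMap.baseChange_tmul, ← TensorProduct.tmul_smul]
  rw [e] at h1
  rw [← twbcPsi_ker (Module.Free.chooseBasis A M) J, LinearMap.mem_ker, twbcPsi_apply,
    Submodule.Quotient.mk_eq_zero]
  exact h1

variable [IsLocalRing A] [IsLocalRing B]

/-- `c (B ⊗ V) ⊆ J (B ⊗ V)` ⇒ `c V ⊆ φ⁻¹(J) V` -/
theorem s59dcf_reflect (φ : A →+* B) (hφ : IsLocalHom φ) (ρ : GaloisRepAdic A) (J : Ideal B)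
    (c : S59GQ →₀ ℤ)
    (hc : ∀ w : (ρ.baseChangeAlong φ hφ).V,
      (c.sum fun g z => z • (ρ.baseChangeAlong φ hφ).ρ g w) ∈
        J • (⊤ : Submodule B (ρ.baseChangeAlong φ hφ).V))
    (v : ρ.V) :
    (c.sum fun g z => z • ρ.ρ g v) ∈ (J.comap φ) • (⊤ : Submodule A ρ.V) :=
  @s59dcf_reflect_aux A B _ _ φ.toAlgebra S59GQ ρ.V _ _ _ _ (fun g => ρ.ρ g) J c hc v

end Reflect

/-! ### `IsFlatAt p` is a deformation condition -/

section Main

variable (𝒪 : Type) [CommRing 𝒪] [IsLocalRing 𝒪] [Finite (ResidueField 𝒪)]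
  (p : ℕ) [Fact p.Prime]

/-- field 1: invariance under equivalence (any local ring) -/
theorem s59dcf_of_isEquiv {A : Type} [CommRing A] [IsLocalRing A]
    {ρ ρ' : GaloisRepAdic A} (he : ρ.IsEquiv ρ') (h : ρ.IsFlatAt p) : ρ'.IsFlatAt p := by
  obtain ⟨e⟩ := he
  rw [sq_isFlatAt_iff] at h ⊢
  obtain ⟨hfin, hmodel⟩ := h
  refine ⟨hfin, fun I hI => ?_⟩
  haveI := hfin
  haveI := hI
  refine s59dcf_transport p ρ ρ' I I ?_ (hmodel I hI)
  intro c hc w
  have key : ∀ x ∈ I • (⊤ : Submodule A ρ.V),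
      e.toLinearEquiv x ∈ I • (⊤ : Submodule A ρ'.V) := by
    intro x hx
    refine Submodule.smul_induction_on
      (p := fun x => e.toLinearEquiv x ∈ I • (⊤ : Submodule A ρ'.V)) hx ?_ ?_
    · intro a ha v _
      rw [map_smul]
      exact Submodule.smul_mem_smul ha Submodule.mem_top
    · intro x y hx hy
      rw [map_add]
      exact Submodule.add_mem _ hx hy
  have e1 : (c.sum fun g z => z • ρ'.ρ g w) =
      e.toLinearEquiv (c.sum fun g z => z • ρ.ρ g (e.toLinearEquiv.symm w)) := by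
    rw [Finsupp.sum, Finsupp.sum, map_sum]
    refine Finset.sum_congr rfl fun g _ => ?_
    rw [map_zsmul, e.map_apply, LinearEquiv.apply_symm_apply]
  rw [e1]
  exact key _ (hc _)

/-- field 3: descent along an injective local homomorphism to a finite local ring -/
theorem s59dcf_of_injective {A B : Type} [CommRing A] [IsLocalRing A] [CommRing B]
    [IsLocalRing B] [Finite (ResidueField A)] [Finite (B ⧸ (⊥ : Ideal B))]
    (φ : A →+* B) (hφ : IsLocalHom φ) (hinj : Function.Injective φ) (ρ : GaloisRepAdic A)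
    (h : (ρ.baseChangeAlong φ hφ).IsFlatAt p) : ρ.IsFlatAt p := by
  rw [sq_isFlatAt_iff] at h ⊢
  obtain ⟨hfinB, hmodel⟩ := h
  refine ⟨inferInstance, fun I hI => ?_⟩
  haveI := hfinB
  haveI := hI
  refine s59dcf_transport p (ρ.baseChangeAlong φ hφ) ρ ⊥ I ?_ (hmodel ⊥ inferInstance)
  intro c hc v
  have h1 := s59dcf_reflect φ hφ ρ ⊥ c hc v
  rw [Ideal.comap_bot_of_injective φ hinj] at h1
  exact Submodule.smul_mono_left bot_le h1

/-- field 4: fibre products -/
theorem s59dcf_of_fibreProduct {A B P : Type} [CommRing A] [IsLocalRing A] [CommRing B]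
    [IsLocalRing B] [CommRing P] [IsLocalRing P] [Finite (ResidueField P)]
    [Finite (A ⧸ (⊥ : Ideal A))] [Finite (B ⧸ (⊥ : Ideal B))]
    (pA : P →+* A) (pB : P →+* B) (hpA : IsLocalHom pA) (hpB : IsLocalHom pB)
    (hinj : Function.Injective (fun x => (pA x, pB x))) (ρ : GaloisRepAdic P)
    (hA : (ρ.baseChangeAlong pA hpA).IsFlatAt p) (hB : (ρ.baseChangeAlong pB hpB).IsFlatAt p) :
    ρ.IsFlatAt p := by
  rw [sq_isFlatAt_iff] at hA hB ⊢
  obtain ⟨hfinA, hmodelA⟩ := hA
  obtain ⟨hfinB, hmodelB⟩ := hB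
  refine ⟨inferInstance, fun I hI => ?_⟩
  haveI := hfinA
  haveI := hfinB
  haveI := hI
  refine s59dcf_transport_prod p (ρ.baseChangeAlong pA hpA) (ρ.baseChangeAlong pB hpB) ρ ⊥ ⊥ I ?_
    (hmodelA ⊥ inferInstance) (hmodelB ⊥ inferInstance)
  intro c hcA hcB v
  have h1 := s59dcf_reflect pA hpA ρ ⊥ c hcA v
  have h2 := s59dcf_reflect pB hpB ρ ⊥ c hcB v
  set x := (c.sum fun g z => z • ρ.ρ g v) with hx
  have hzero : x = 0 := by
    let b := Module.Free.chooseBasis P ρ.V
    apply b.repr.injective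
    rw [map_zero]
    ext i
    have c1 := twbc_repr_mem_of_mem_smul_top b _ h1 i
    have c2 := twbc_repr_mem_of_mem_smul_top b _ h2 i
    rw [Ideal.mem_comap, Ideal.mem_bot] at c1 c2
    rw [Finsupp.zero_apply]
    apply hinj
    show (pA (b.repr x i), pB (b.repr x i)) = (pA 0, pB 0)
    rw [c1, c2, map_zero, map_zero]
  rw [hzero]
  exact Submodule.zero_mem _

/-- field 5, `⇐`: a quotient by an ideal of finite index -/
theorem s59dcf_of_quotient {A : Type} [CommRing A] [IsLocalRing A] [Finite (ResidueField A)]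
    (ρ : GaloisRepAdic A) (I : Ideal A) [Finite (A ⧸ I)] [IsLocalRing (A ⧸ I)]
    (hq : IsLocalHom (Ideal.Quotient.mk I))
    (h : (ρ.baseChangeAlong (Ideal.Quotient.mk I) hq).IsFlatAt p) :
    HasFiniteFlatModel (GaloisRep.ratLocalizedAt p)
      (ρ.V ⧸ (I • (⊤ : Submodule A ρ.V))) (fun σ => ρ.levelAction I σ) := by
  rw [sq_isFlatAt_iff] at h
  obtain ⟨hfinB, hmodel⟩ := h
  haveI := hfinB
  haveI : Finite ((A ⧸ I) ⧸ (⊥ : Ideal (A ⧸ I))) :=
    Finite.of_surjective (Ideal.Quotient.mk (⊥ : Ideal (A ⧸ I))) Ideal.Quotient.mk_surjective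
  refine s59dcf_transport p (ρ.baseChangeAlong (Ideal.Quotient.mk I) hq) ρ ⊥ I ?_
    (hmodel ⊥ inferInstance)
  intro c hc v
  have h1 := s59dcf_reflect (Ideal.Quotient.mk I) hq ρ ⊥ c hc v
  have e : (⊥ : Ideal (A ⧸ I)).comap (Ideal.Quotient.mk I) = I := by
    rw [← RingHom.ker_eq_comap_bot, Ideal.mk_ker]
  rw [e] at h1
  exact h1

/-- **DC-F, the `p`-local field**: flatness at `p` is a deformation condition. -/
theorem s59dcf_flat : GaloisRep.IsDeformationCondition 𝒪
    (fun ⦃A : Type⦄ [CommRing A] [IsLocalRing A] [Algebra 𝒪 A] (ρ : GaloisRepAdic A) =>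
      ρ.IsFlatAt p) where
  of_isEquiv := by
    intro A _ _ _ hA ρ ρ' he h
    exact s59dcf_of_isEquiv p he h
  baseChangeAlong := by
    intro A B _ _ _ _ _ _ hA hB φ hφ ρ h
    haveI := s59dcf_finite_residue 𝒪 hB.isLocalHom hB.residue_surjective
    exact s59fe_isFlatAt_baseChange (φ : A →+* B) hφ ρ p h
  of_baseChangeAlong_injective := by
    intro A B _ _ _ _ _ _ hA hB φ hφ hinj ρ h
    haveI := s59dcf_finite_residue 𝒪 hA.isLocalHom hA.residue_surjective
    haveI := s59dcf_finite_residue 𝒪 hB.isLocalHom hB.residue_surjective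
    haveI := hB.isArtinian
    haveI : Finite (B ⧸ (⊥ : Ideal B)) := s59dcf_finite_quot_bot
    exact s59dcf_of_injective p (φ : A →+* B) hφ hinj ρ h
  of_fibreProduct := by
    intro A B C P _ _ _ _ _ _ _ _ _ _ _ _ hA hB hC hP f g pA pB hpA hpB hcomp hinj hsurj ρ h1 h2
    haveI := s59dcf_finite_residue 𝒪 hA.isLocalHom hA.residue_surjective
    haveI := s59dcf_finite_residue 𝒪 hB.isLocalHom hB.residue_surjective
    haveI := s59dcf_finite_residue 𝒪 hP.isLocalHom hP.residue_surjective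
    haveI := hA.isArtinian
    haveI := hB.isArtinian
    haveI : Finite (A ⧸ (⊥ : Ideal A)) := s59dcf_finite_quot_bot
    haveI : Finite (B ⧸ (⊥ : Ideal B)) := s59dcf_finite_quot_bot
    exact s59dcf_of_fibreProduct p (pA : P →+* A) (pB : P →+* B) hpA hpB hinj ρ h1 h2
  iff_forall_surjective := by
    intro A _ _ _ _ _ hloc hsurj ρ
    haveI hfinA := s59dcf_finite_residue 𝒪 hloc hsurj
    constructor
    · intro h B _ _ _ hB q hq hqs
      haveI := s59dcf_finite_residue 𝒪 hB.isLocalHom hB.residue_surjective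
      exact s59fe_isFlatAt_baseChange (q : A →+* B) hq ρ p h
    · intro H
      rw [sq_isFlatAt_iff]
      refine ⟨hfinA, fun I hI => ?_⟩
      haveI := hI
      by_cases hI' : I = ⊤
      · subst hI'
        haveI : Subsingleton (ρ.V ⧸ ((⊤ : Ideal A) • (⊤ : Submodule A ρ.V))) := by
          rw [Submodule.top_smul]
          exact Submodule.Quotient.subsingleton_iff.mpr rfl
        exact hasFiniteFlatModel_of_subsingleton
      · haveI : Nontrivial (A ⧸ I) := Ideal.Quotient.nontrivial_iff.mpr hI'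
        haveI : IsLocalRing (A ⧸ I) :=
          IsLocalRing.of_surjective' (Ideal.Quotient.mk I) Ideal.Quotient.mk_surjective
        have hle : I ≤ Ideal.jacobson (⊥ : Ideal A) := by
          rw [IsLocalRing.jacobson_eq_maximalIdeal ⊥ bot_ne_top]
          exact IsLocalRing.le_maximalIdeal hI'
        have hq : IsLocalHom (Ideal.Quotient.mk I) := isLocalHom_of_le_jacobson_bot I hle
        have hB : GaloisRep.IsArtinianTestAlgebra 𝒪 (A ⧸ I) :=
          { isLocalHom := by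
              haveI := hloc
              haveI := hq
              have : algebraMap 𝒪 (A ⧸ I) = (Ideal.Quotient.mk I).comp (algebraMap 𝒪 A) := rfl
              rw [this]
              exact RingHom.isLocalHom_comp _ _
            residue_surjective := by
              intro y
              obtain ⟨a', rfl⟩ := IsLocalRing.residue_surjective y
              obtain ⟨a, rfl⟩ := Ideal.Quotient.mk_surjective a'
              obtain ⟨x, hx⟩ := hsurj (IsLocalRing.residue A a)
              refine ⟨x, ?_⟩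
              haveI := hq
              have h1 : IsLocalRing.ResidueField.map (Ideal.Quotient.mk I)
                  (IsLocalRing.residue A (algebraMap 𝒪 A x)) =
                  IsLocalRing.ResidueField.map (Ideal.Quotient.mk I)
                    (IsLocalRing.residue A a) := congrArg _ hx
              rw [IsLocalRing.ResidueField.map_residue,
                IsLocalRing.ResidueField.map_residue] at h1
              exact h1
            isArtinian := inferInstance }
        exact s59dcf_of_quotient p ρ I hq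
          (H hB (Ideal.Quotient.mkₐ 𝒪 I) hq (Ideal.Quotient.mkₐ_surjective 𝒪 I))

end Main

end Fermat.Agent.S59
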