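/-
S59, wall DEF-COND: **DC-F CLOSED** (`s59dc_StmtCondFlat`).

`twFlat 𝒪 p Smin Q` is a deformation condition: the `p`-local field is helper29's `s59dcf_flat`
(`CondFlat.lean`), the conditions away from `p` and the glue are DC-COMMON (`CommonGlue.lean`).
-/
import Fermat.Agent.S59.DefCond.CondFlat
import Fermat.Agent.S59.DefCond.CommonGlue

set_option autoImplicit false
set_option linter.unusedSectionVars false
set_option linter.unusedVariables false
set_option linter.style.longLine false

noncomputable section

namespace Fermat.Agent.S59

open IsLocalRing Fermat.Agent.TW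

/-- **DC-F**: the flat condition of S56 (with extra primes `Q`) is a deformation condition. -/
theorem s59dcc_stmtCondFlat : s59dc_StmtCondFlat :=
  s59dcc_stmtCondFlat_of fun 𝒪 _ _ _ p _ _ _ => s59dcf_flat 𝒪 p

end Fermat.Agent.S59

end
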