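/-
S59, wall DEF-COND, leaf **DC-O** (helper76), part 1: the linear algebra.

For a free module `M` of rank 2 over a local ring `R`, a family `ρ : G → End M`, sets `D`, `I` and a
relation `cyc`, the module form `s59dco_SO` of strict ordinarity (prelude: `IsStrictOrdinaryAt`)
is EQUIVALENT to an equational condition `s59dco_Emat` on the matrices of `ρ` in ANY basis, as soon
as some `σ0 ∈ I ∩ D` has `cyc σ0 1 2` and `p ∈ 𝔪` (`s59dco_SO_iff_Emat`):
with `T = ρ σ0`, `x0 = det T`, `N = T - 1`, `N' = T - x0`: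
`IsUnit (x0 - 1)`, `tr T = 1 + x0`, `N' ρ(σ) N = 0` (`σ ∈ D`), `N' (ρ(σ) - 1) = 0` (`σ ∈ I`),
`tr (N ρσ) + a tr (N' ρσ) ∈ (p ^ n)` (`cyc σ n a`).  The line is `L = range N`: it is UNIQUE.
-/
import Mathlib

set_option autoImplicit false
set_option linter.style.longLine false
set_option linter.unusedVariables false
set_option linter.unusedSectionVars false

noncomputable section

namespace Fermat.Agent.S59

section Defs

variable {R : Type} [CommRing R] {G : Type} {M : Type} [AddCommGroup M] [Module R M]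

/-- module form of strict ordinarity (the body of the prelude's `IsStrictOrdinaryAt`) -/
def s59dco_SO (ρ : G → Module.End R M) (D I : Set G) (cyc : G → ℕ → ℕ → Prop) (p : ℕ) : Prop :=
  ∃ L : Submodule R M,
      (∃ b : Module.Basis (Fin 2) R M, L = Submodule.span R {b 0}) ∧
      (∀ σ ∈ D, ∀ v ∈ L, ρ σ v ∈ L) ∧
      (∀ σ ∈ I, ∀ v : M, ρ σ v - v ∈ L) ∧
      (∀ σ ∈ D, ∃ x z : R,
        (∀ w ∈ L, ρ σ w = x • w) ∧ (∀ v : M, ρ σ v - z • v ∈ L) ∧
        ∀ (n a : ℕ), cyc σ n a → x - (a : R) * z ∈ Ideal.span {((p ^ n : ℕ) : R)})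

/-- the two auxiliary matrices `N = T - 1`, `N' = T - det T` -/
def s59dcoN (T : Matrix (Fin 2) (Fin 2) R) : Matrix (Fin 2) (Fin 2) R := T - 1

def s59dcoN' (T : Matrix (Fin 2) (Fin 2) R) : Matrix (Fin 2) (Fin 2) R :=
  T - Matrix.scalar (Fin 2) T.det

/-- the coefficient of the congruence -/
def s59dcoY (T S : Matrix (Fin 2) (Fin 2) R) (a : ℕ) : R :=
  (s59dcoN T * S).trace + (a : R) * (s59dcoN' T * S).trace

/-- equational form of strict ordinarity, for matrices -/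
def s59dco_Emat (m : G → Matrix (Fin 2) (Fin 2) R) (σ0 : G) (D I : Set G)
    (cyc : G → ℕ → ℕ → Prop) (p : ℕ) : Prop :=
  IsUnit ((m σ0).det - 1) ∧
  (m σ0).trace - (1 + (m σ0).det) = 0 ∧
  (∀ σ ∈ D, s59dcoN' (m σ0) * m σ * s59dcoN (m σ0) = 0) ∧
  (∀ σ ∈ I, s59dcoN' (m σ0) * (m σ - 1) = 0) ∧
  (∀ σ ∈ D, ∀ n a : ℕ, cyc σ n a →
     s59dcoY (m σ0) (m σ) a ∈ Ideal.span {((p ^ n : ℕ) : R)})

end Defs

section Mat

variable {R : Type} [CommRing R]

theorem s59dco_ch2 (T : Matrix (Fin 2) (Fin 2) R) :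
    T * T = T.trace • T - T.det • (1 : Matrix (Fin 2) (Fin 2) R) := by
  ext i j
  fin_cases i <;> fin_cases j <;>
    simp [Matrix.mul_apply, Fin.sum_univ_two, Matrix.trace_fin_two, Matrix.det_fin_two] <;> ring

/-- Cayley–Hamilton when `tr T = 1 + det T`: `N * N' = 0`. -/
theorem s59dco_N_mul_N' (T : Matrix (Fin 2) (Fin 2) R) (h : T.trace - (1 + T.det) = 0) :
    s59dcoN T * s59dcoN' T = 0 := by
  have h1 : T.trace = 1 + T.det := sub_eq_zero.1 h
  have h2 := s59dco_ch2 T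
  rw [h1] at h2
  unfold s59dcoN s59dcoN'
  have e : (T - 1) * (T - Matrix.scalar (Fin 2) T.det) =
      T * T - (1 + T.det) • T + T.det • (1 : Matrix (Fin 2) (Fin 2) R) := by
    ext i j
    fin_cases i <;> fin_cases j <;>
      simp [Matrix.mul_apply, Fin.sum_univ_two, Matrix.det_fin_two] <;> ring
  rw [e, h2]
  ext i j
  fin_cases i <;> fin_cases j <;> simp

theorem s59dco_N'_mul_N (T : Matrix (Fin 2) (Fin 2) R) (h : T.trace - (1 + T.det) = 0) :
    s59dcoN' T * s59dcoN T = 0 := by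
  have h0 := s59dco_N_mul_N' T h
  have e : s59dcoN' T * s59dcoN T = s59dcoN T * s59dcoN' T := by
    unfold s59dcoN s59dcoN'
    ext i j
    fin_cases i <;> fin_cases j <;>
      simp [Matrix.mul_apply, Fin.sum_univ_two, Matrix.det_fin_two] <;> ring
  rw [e, h0]

end Mat

section Conj

variable {R : Type} [CommRing R] {G : Type}

theorem s59dco_conj_det (g g' T : Matrix (Fin 2) (Fin 2) R) (h1 : g * g' = 1) :
    (g' * T * g).det = T.det := by
  have h : g.det * g'.det = 1 := by rw [← Matrix.det_mul, h1, Matrix.det_one]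
  rw [Matrix.det_mul, Matrix.det_mul]
  calc g'.det * T.det * g.det = T.det * (g.det * g'.det) := by ring
    _ = T.det := by rw [h, mul_one]

theorem s59dco_conj_trace (g g' T : Matrix (Fin 2) (Fin 2) R) (h1 : g * g' = 1) :
    (g' * T * g).trace = T.trace := by
  rw [Matrix.trace_mul_comm, ← Matrix.mul_assoc, h1, Matrix.one_mul]

theorem s59dco_conj_N (g g' T : Matrix (Fin 2) (Fin 2) R) (h2 : g' * g = 1) :
    s59dcoN (g' * T * g) = g' * s59dcoN T * g := by
  unfold s59dcoN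
  rw [Matrix.mul_sub, Matrix.sub_mul, Matrix.mul_one, h2]

theorem s59dco_conj_N' (g g' T : Matrix (Fin 2) (Fin 2) R) (h1 : g * g' = 1) (h2 : g' * g = 1) :
    s59dcoN' (g' * T * g) = g' * s59dcoN' T * g := by
  unfold s59dcoN'
  rw [s59dco_conj_det g g' T h1, Matrix.mul_sub, Matrix.sub_mul]
  congr 1
  have hc : g' * Matrix.scalar (Fin 2) T.det = Matrix.scalar (Fin 2) T.det * g' :=
    ((Matrix.scalar_commute T.det (fun r' => mul_comm _ _)) g').symm.eq
  rw [hc, Matrix.mul_assoc, h2, Matrix.mul_one]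

theorem s59dco_conj_Y (g g' T S : Matrix (Fin 2) (Fin 2) R) (h1 : g * g' = 1) (h2 : g' * g = 1)
    (a : ℕ) : s59dcoY (g' * T * g) (g' * S * g) a = s59dcoY T S a := by
  unfold s59dcoY
  rw [s59dco_conj_N g g' T h2, s59dco_conj_N' g g' T h1 h2]
  have e1 : g' * s59dcoN T * g * (g' * S * g) = g' * (s59dcoN T * S) * g := by
    calc g' * s59dcoN T * g * (g' * S * g) = g' * s59dcoN T * (g * g') * S * g := by
          simp only [Matrix.mul_assoc]
      _ = g' * (s59dcoN T * S) * g := by rw [h1, Matrix.mul_one]; simp only [Matrix.mul_assoc]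
  have e2 : g' * s59dcoN' T * g * (g' * S * g) = g' * (s59dcoN' T * S) * g := by
    calc g' * s59dcoN' T * g * (g' * S * g) = g' * s59dcoN' T * (g * g') * S * g := by
          simp only [Matrix.mul_assoc]
      _ = g' * (s59dcoN' T * S) * g := by rw [h1, Matrix.mul_one]; simp only [Matrix.mul_assoc]
  rw [e1, e2, s59dco_conj_trace g g' _ h1, s59dco_conj_trace g g' _ h1]

/-- `s59dco_Emat` is invariant under conjugation. -/
theorem s59dco_Emat_conj (m : G → Matrix (Fin 2) (Fin 2) R) (σ0 : G) (D I : Set G)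
    (cyc : G → ℕ → ℕ → Prop) (p : ℕ) (g g' : Matrix (Fin 2) (Fin 2) R)
    (h1 : g * g' = 1) (h2 : g' * g = 1) (h : s59dco_Emat m σ0 D I cyc p) :
    s59dco_Emat (fun σ => g' * m σ * g) σ0 D I cyc p := by
  obtain ⟨hu, ht, hD, hI, hY⟩ := h
  refine ⟨?_, ?_, ?_, ?_, ?_⟩
  · show IsUnit ((g' * m σ0 * g).det - 1)
    rw [s59dco_conj_det g g' _ h1]; exact hu
  · show (g' * m σ0 * g).trace - (1 + (g' * m σ0 * g).det) = 0
    rw [s59dco_conj_det g g' _ h1, s59dco_conj_trace g g' _ h1]; exact ht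
  · intro σ hσ
    show s59dcoN' (g' * m σ0 * g) * (g' * m σ * g) * s59dcoN (g' * m σ0 * g) = 0
    rw [s59dco_conj_N g g' _ h2, s59dco_conj_N' g g' _ h1 h2]
    calc g' * s59dcoN' (m σ0) * g * (g' * m σ * g) * (g' * s59dcoN (m σ0) * g)
        = g' * s59dcoN' (m σ0) * (g * g') * m σ * (g * g') * s59dcoN (m σ0) * g := by
          simp only [Matrix.mul_assoc]
      _ = g' * (s59dcoN' (m σ0) * m σ * s59dcoN (m σ0)) * g := by
          rw [h1, Matrix.mul_one, Matrix.mul_one]; simp only [Matrix.mul_assoc]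
      _ = 0 := by rw [hD σ hσ, Matrix.mul_zero, Matrix.zero_mul]
  · intro σ hσ
    show s59dcoN' (g' * m σ0 * g) * (g' * m σ * g - 1) = 0
    rw [s59dco_conj_N' g g' _ h1 h2]
    have e : g' * m σ * g - 1 = g' * (m σ - 1) * g := by
      rw [Matrix.mul_sub, Matrix.sub_mul, Matrix.mul_one, h2]
    rw [e]
    calc g' * s59dcoN' (m σ0) * g * (g' * (m σ - 1) * g)
        = g' * s59dcoN' (m σ0) * (g * g') * (m σ - 1) * g := by simp only [Matrix.mul_assoc]
      _ = g' * (s59dcoN' (m σ0) * (m σ - 1)) * g := by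
          rw [h1, Matrix.mul_one]; simp only [Matrix.mul_assoc]
      _ = 0 := by rw [hI σ hσ, Matrix.mul_zero, Matrix.zero_mul]
  · intro σ hσ n a hc
    show s59dcoY (g' * m σ0 * g) (g' * m σ * g) a ∈ _
    rw [s59dco_conj_Y g g' _ _ h1 h2]
    exact hY σ hσ n a hc

/-- change of basis -/
theorem s59dco_Emat_basis {M : Type} [AddCommGroup M] [Module R M]
    (b c : Module.Basis (Fin 2) R M) (ρ : G → Module.End R M) (σ0 : G) (D I : Set G)
    (cyc : G → ℕ → ℕ → Prop) (p : ℕ)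
    (h : s59dco_Emat (fun σ => LinearMap.toMatrix b b (ρ σ)) σ0 D I cyc p) :
    s59dco_Emat (fun σ => LinearMap.toMatrix c c (ρ σ)) σ0 D I cyc p := by
  have h1 : b.toMatrix c * c.toMatrix b = 1 := Module.Basis.toMatrix_mul_toMatrix_flip b c
  have h2 : c.toMatrix b * b.toMatrix c = 1 := Module.Basis.toMatrix_mul_toMatrix_flip c b
  have h3 := s59dco_Emat_conj _ σ0 D I cyc p (b.toMatrix c) (c.toMatrix b) h1 h2 h
  have e : (fun σ => c.toMatrix b * LinearMap.toMatrix b b (ρ σ) * b.toMatrix c) =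
      fun σ => LinearMap.toMatrix c c (ρ σ) := by
    funext σ
    exact basis_toMatrix_mul_linearMap_toMatrix_mul_basis_toMatrix c b c b (ρ σ)
  rw [e] at h3
  exact h3

end Conj

section SOtoE

variable {R : Type} [CommRing R] {G : Type} {M : Type} [AddCommGroup M] [Module R M]

/-- the matrix of an endomorphism which is triangular in the basis `b` -/
theorem s59dco_toMatrix_tri (b : Module.Basis (Fin 2) R M) (f : Module.End R M) (x z : R)
    (hx : f (b 0) = x • b 0) (hz : f (b 1) - z • b 1 ∈ Submodule.span R {b 0}) :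
    ∃ c : R, LinearMap.toMatrix b b f = !![x, c; 0, z] := by
  obtain ⟨c, hc⟩ := Submodule.mem_span_singleton.1 hz
  have h1 : f (b 1) = c • b 0 + z • b 1 := by rw [hc]; abel
  refine ⟨c, ?_⟩
  ext i j
  fin_cases i <;> fin_cases j <;>
    simp [LinearMap.toMatrix_apply, hx, h1]

/-- **(I)** strict ordinarity gives the equations, in the basis of the line. -/
theorem s59dco_Emat_of_SO [IsLocalRing R] (ρ : G → Module.End R M) (σ0 : G) (D I : Set G)
    (cyc : G → ℕ → ℕ → Prop) (p : ℕ)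
    (hp : (p : R) ∈ IsLocalRing.maximalIdeal R) (hD0 : σ0 ∈ D) (hI0 : σ0 ∈ I)
    (hc0 : cyc σ0 1 2) (h : s59dco_SO ρ D I cyc p) :
    ∃ b : Module.Basis (Fin 2) R M,
      s59dco_Emat (fun σ => LinearMap.toMatrix b b (ρ σ)) σ0 D I cyc p := by
  obtain ⟨L, ⟨b, rfl⟩, hDst, hIn, hS⟩ := h
  refine ⟨b, ?_⟩
  have hb0 : b 0 ∈ Submodule.span R {b 0} := Submodule.mem_span_singleton_self _
  -- the matrix of `σ0`
  obtain ⟨x0, z0, hx0, hz0, hxz0⟩ := hS σ0 hD0
  obtain ⟨c0, hT⟩ := s59dco_toMatrix_tri b (ρ σ0) x0 1 (hx0 _ hb0)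
    (by rw [one_smul]; exact hIn σ0 hI0 (b 1))
  obtain ⟨c0', hT'⟩ := s59dco_toMatrix_tri b (ρ σ0) x0 z0 (hx0 _ hb0) (hz0 (b 1))
  have hz1 : z0 = 1 := by
    have h1 := congrFun (congrFun (hT'.symm.trans hT) 1) 1
    simpa using h1
  have hx2 : x0 - 2 ∈ IsLocalRing.maximalIdeal R := by
    have h1 := hxz0 1 2 hc0
    rw [hz1, pow_one, mul_one] at h1
    obtain ⟨y, hy⟩ := Ideal.mem_span_singleton'.1 h1
    have e : x0 - 2 = y * (p : R) := by rw [hy]; norm_num
    rw [e]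
    exact Ideal.mul_mem_left _ _ hp
  have hu : IsUnit (x0 - 1) := by
    by_contra hnu
    have h1 : x0 - 1 ∈ IsLocalRing.maximalIdeal R := (IsLocalRing.mem_maximalIdeal _).2 hnu
    have h2 : (1 : R) ∈ IsLocalRing.maximalIdeal R := by
      have h3 := Ideal.sub_mem _ h1 hx2
      have e : x0 - 1 - (x0 - 2) = 1 := by ring
      rwa [e] at h3
    exact (Ideal.ne_top_iff_one _).1 (IsLocalRing.maximalIdeal.isMaximal R).ne_top h2
  have hdet : (LinearMap.toMatrix b b (ρ σ0)).det = x0 := by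
    rw [hT]; simp [Matrix.det_fin_two]
  refine ⟨?_, ?_, ?_, ?_, ?_⟩
  · show IsUnit ((LinearMap.toMatrix b b (ρ σ0)).det - 1)
    rw [hdet]; exact hu
  · show (LinearMap.toMatrix b b (ρ σ0)).trace - (1 + (LinearMap.toMatrix b b (ρ σ0)).det) = 0
    rw [hdet, hT]; simp [Matrix.trace_fin_two]; ring
  · intro σ hσ
    obtain ⟨x, z, hx, hz, -⟩ := hS σ hσ
    obtain ⟨c, hS'⟩ := s59dco_toMatrix_tri b (ρ σ) x z (hx _ hb0) (hz (b 1))
    show s59dcoN' (LinearMap.toMatrix b b (ρ σ0)) * LinearMap.toMatrix b b (ρ σ) *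
      s59dcoN (LinearMap.toMatrix b b (ρ σ0)) = 0
    unfold s59dcoN s59dcoN'
    rw [hdet, hT, hS']
    ext i j
    fin_cases i <;> fin_cases j <;>
      simp [Matrix.mul_apply, Fin.sum_univ_two]
  · intro σ hσ
    obtain ⟨α, hα⟩ := Submodule.mem_span_singleton.1 (hIn σ hσ (b 0))
    have hb : ρ σ (b 0) = (α + 1) • b 0 := by
      rw [add_smul, one_smul, hα]; abel
    obtain ⟨c, hS'⟩ := s59dco_toMatrix_tri b (ρ σ) (α + 1) 1 hb
      (by rw [one_smul]; exact hIn σ hσ (b 1))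
    show s59dcoN' (LinearMap.toMatrix b b (ρ σ0)) * (LinearMap.toMatrix b b (ρ σ) - 1) = 0
    unfold s59dcoN'
    rw [hdet, hT, hS']
    ext i j
    fin_cases i <;> fin_cases j <;>
      simp [Matrix.mul_apply, Fin.sum_univ_two]
  · intro σ hσ n a hcyc
    obtain ⟨x, z, hx, hz, hxz⟩ := hS σ hσ
    obtain ⟨c, hS'⟩ := s59dco_toMatrix_tri b (ρ σ) x z (hx _ hb0) (hz (b 1))
    have h1 := hxz n a hcyc
    show s59dcoY (LinearMap.toMatrix b b (ρ σ0)) (LinearMap.toMatrix b b (ρ σ)) a ∈ _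
    have e : s59dcoY (LinearMap.toMatrix b b (ρ σ0)) (LinearMap.toMatrix b b (ρ σ)) a =
        (x0 - 1) * (x - (a : R) * z) := by
      unfold s59dcoY s59dcoN s59dcoN'
      rw [hdet, hT, hS']
      simp [Matrix.trace_fin_two, Matrix.mul_apply, Fin.sum_univ_two]
      ring
    rw [e]
    exact Ideal.mul_mem_left _ _ h1

end SOtoE

section Char

/-- **(I), in any basis.** -/
theorem s59dco_Emat_of_SO_basis {R : Type} [CommRing R] [IsLocalRing R] {G : Type} {M : Type}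
    [AddCommGroup M] [Module R M] (c : Module.Basis (Fin 2) R M)
    (ρ : G → Module.End R M) (σ0 : G) (D I : Set G)
    (cyc : G → ℕ → ℕ → Prop) (p : ℕ)
    (hp : (p : R) ∈ IsLocalRing.maximalIdeal R) (hD0 : σ0 ∈ D) (hI0 : σ0 ∈ I)
    (hc0 : cyc σ0 1 2) (h : s59dco_SO ρ D I cyc p) :
    s59dco_Emat (fun σ => LinearMap.toMatrix c c (ρ σ)) σ0 D I cyc p := by
  obtain ⟨b, hb⟩ := s59dco_Emat_of_SO ρ σ0 D I cyc p hp hD0 hI0 hc0 h
  exact s59dco_Emat_basis b c ρ σ0 D I cyc p hb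

/-- **(II)** (statement): the equations, in any basis, give strict ordinarity. -/
def s59dco_StmtSOofEmat : Prop :=
  ∀ (R : Type) [CommRing R] [IsLocalRing R] (G : Type) (M : Type) [AddCommGroup M] [Module R M]
    (c : Module.Basis (Fin 2) R M) (ρ : G → Module.End R M) (σ0 : G) (D I : Set G)
    (cyc : G → ℕ → ℕ → Prop) (p : ℕ),
    s59dco_Emat (fun σ => LinearMap.toMatrix c c (ρ σ)) σ0 D I cyc p → s59dco_SO ρ D I cyc p

/-- **The characterization** (statement): strict ordinarity ⟺ the equations in any basis. -/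
def s59dco_StmtChar : Prop :=
  ∀ (R : Type) [CommRing R] [IsLocalRing R] (G : Type) (M : Type) [AddCommGroup M] [Module R M]
    (c : Module.Basis (Fin 2) R M) (ρ : G → Module.End R M) (σ0 : G) (D I : Set G)
    (cyc : G → ℕ → ℕ → Prop) (p : ℕ),
    (p : R) ∈ IsLocalRing.maximalIdeal R → σ0 ∈ D → σ0 ∈ I → cyc σ0 1 2 →
    (s59dco_SO ρ D I cyc p ↔ s59dco_Emat (fun σ => LinearMap.toMatrix c c (ρ σ)) σ0 D I cyc p)

theorem s59dco_stmtChar_of (h : s59dco_StmtSOofEmat) : s59dco_StmtChar := by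
  intro R _ _ G M _ _ c ρ σ0 D I cyc p hp hD0 hI0 hc0
  exact ⟨s59dco_Emat_of_SO_basis c ρ σ0 D I cyc p hp hD0 hI0 hc0,
    h R G M c ρ σ0 D I cyc p⟩

end Char

end Fermat.Agent.S59

end
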