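/-
S59, wall DEF-COND, leaf **DC-O** (helper76), part 2: direction (II) of the characterization:
the equations `s59dco_Emat` (in any basis) give strict ordinarity `s59dco_SO`.

`T = ρ σ0`, `x0 = det T`, `u = x0 - 1` a unit, `N = T - 1`, `N' = T - x0`, `N N' = 0 = N' N`
(Cayley–Hamilton and `tr T = 1 + x0`).  One of the diagonal entries `a`, `d` of `N` is a unit
(`a + d = u`, local ring); `b0 = N (c j0)`, `b1 = N' (c j1)` is a basis (determinant `∓ a u` resp.
`d u`) in which `T = diag (x0, 1)`; the equations in this basis say that `ρ σ` is upper triangular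
for `σ ∈ D`, etc.
-/
import Fermat.Agent.S59.DefCond.OrdAlg

set_option autoImplicit false
set_option linter.style.longLine false
set_option linter.unusedVariables false
set_option linter.unusedSectionVars false

noncomputable section

namespace Fermat.Agent.S59

section Diag

variable {R : Type} [CommRing R] {G : Type} {M : Type} [AddCommGroup M] [Module R M]

/-- the columns of the matrix of `f` -/
theorem s59dco_apply_basis (b : Module.Basis (Fin 2) R M) (f : Module.End R M) (j : Fin 2) :
    f (b j) = (LinearMap.toMatrix b b f) 0 j • b 0 + (LinearMap.toMatrix b b f) 1 j • b 1 := by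
  rw [LinearMap.toMatrix_apply, LinearMap.toMatrix_apply]
  conv_lhs => rw [← b.sum_repr (f (b j))]
  rw [Fin.sum_univ_two]

/-- a linear map with values in `L` on a basis has values in `L` -/
theorem s59dco_mem_of_basis (b : Module.Basis (Fin 2) R M) (L : Submodule R M)
    (f : M →ₗ[R] M) (h : ∀ i, f (b i) ∈ L) (v : M) : f v ∈ L := by
  rw [← b.sum_repr v, map_sum]
  refine Submodule.sum_mem _ fun i _ => ?_
  rw [map_smul]
  exact L.smul_mem _ (h i)

/-- **(II), diagonal case**: if the matrix of `ρ σ0` in the basis `b` is `diag (x0, 1)`, the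
equations give strict ordinarity with the line `R ∙ b 0`. -/
theorem s59dco_SO_of_Emat_diag (b : Module.Basis (Fin 2) R M) (ρ : G → Module.End R M) (σ0 : G)
    (D I : Set G) (cyc : G → ℕ → ℕ → Prop) (p : ℕ) (x0 : R)
    (hT : LinearMap.toMatrix b b (ρ σ0) = !![x0, 0; 0, 1])
    (h : s59dco_Emat (fun σ => LinearMap.toMatrix b b (ρ σ)) σ0 D I cyc p) :
    s59dco_SO ρ D I cyc p := by
  obtain ⟨hu, -, hD, hI, hY⟩ := h
  have hdet : (LinearMap.toMatrix b b (ρ σ0)).det = x0 := by
    rw [hT]; simp [Matrix.det_fin_two]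
  simp only [hdet] at hu
  obtain ⟨u, hu'⟩ := hu
  have hb0 : b 0 ∈ Submodule.span R {b 0} := Submodule.mem_span_singleton_self _
  -- `ρ σ` is upper triangular for `σ ∈ D`
  have hD10 : ∀ σ ∈ D, (LinearMap.toMatrix b b (ρ σ)) 1 0 = 0 := by
    intro σ hσ
    have h1 := hD σ hσ
    simp only [s59dcoN, s59dcoN', hT] at h1
    have h2 := congrFun (congrFun h1 1) 0
    simp [Matrix.mul_apply, Fin.sum_univ_two] at h2
    -- `(1 - x0) * S10 * (x0 - 1) = 0`
    have h3 : (u : R) * (u : R) * (LinearMap.toMatrix b b (ρ σ)) 1 0 = 0 := by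
      rw [hu']; linear_combination -h2
    have h4 : ((u * u : Rˣ) : R) * (LinearMap.toMatrix b b (ρ σ)) 1 0 = 0 := by
      rw [Units.val_mul]; exact h3
    exact (Units.mul_right_eq_zero _).1 h4
  have hDb0 : ∀ σ ∈ D, ρ σ (b 0) = (LinearMap.toMatrix b b (ρ σ)) 0 0 • b 0 := by
    intro σ hσ
    rw [s59dco_apply_basis b (ρ σ) 0, hD10 σ hσ, zero_smul, add_zero]
  have hDx : ∀ σ ∈ D, ∀ w ∈ Submodule.span R {b 0},
      ρ σ w = (LinearMap.toMatrix b b (ρ σ)) 0 0 • w := by
    intro σ hσ w hw
    obtain ⟨r, rfl⟩ := Submodule.mem_span_singleton.1 hw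
    rw [map_smul, hDb0 σ hσ, smul_comm]
  refine ⟨Submodule.span R {b 0}, ⟨b, rfl⟩, ?_, ?_, ?_⟩
  · intro σ hσ v hv
    rw [hDx σ hσ v hv]
    exact Submodule.smul_mem _ _ hv
  · intro σ hσ v
    have h1 := hI σ hσ
    simp only [s59dcoN', hT] at h1
    have h10 := congrFun (congrFun h1 1) 0
    have h11 := congrFun (congrFun h1 1) 1
    simp [Matrix.mul_apply, Fin.sum_univ_two] at h10 h11
    have e10 : (LinearMap.toMatrix b b (ρ σ)) 1 0 = 0 := by
      have h3 : (u : R) * (LinearMap.toMatrix b b (ρ σ)) 1 0 = 0 := by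
        rw [hu']; linear_combination -h10
      exact (Units.mul_right_eq_zero _).1 h3
    have e11 : (LinearMap.toMatrix b b (ρ σ)) 1 1 - 1 = 0 := by
      have h3 : (u : R) * ((LinearMap.toMatrix b b (ρ σ)) 1 1 - 1) = 0 := by
        rw [hu']; linear_combination -h11
      exact (Units.mul_right_eq_zero _).1 h3
    have key : ∀ i, (ρ σ - 1 : Module.End R M) (b i) ∈ Submodule.span R {b 0} := by
      intro i
      rw [LinearMap.sub_apply, Module.End.one_apply, s59dco_apply_basis b (ρ σ) i]
      fin_cases i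
      · simp only [Fin.zero_eta, e10, zero_smul, add_zero]
        have e : (LinearMap.toMatrix b b (ρ σ)) 0 0 • b 0 - b 0 =
            ((LinearMap.toMatrix b b (ρ σ)) 0 0 - 1) • b 0 := by rw [sub_smul, one_smul]
        rw [e]
        exact Submodule.smul_mem _ _ hb0
      · simp only [Fin.mk_one, sub_eq_zero.1 e11, one_smul, add_sub_cancel_right]
        exact Submodule.smul_mem _ _ hb0
    have := s59dco_mem_of_basis b _ (ρ σ - 1 : Module.End R M) key v
    rwa [LinearMap.sub_apply, Module.End.one_apply] at this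
  · intro σ hσ
    refine ⟨(LinearMap.toMatrix b b (ρ σ)) 0 0, (LinearMap.toMatrix b b (ρ σ)) 1 1,
      hDx σ hσ, ?_, ?_⟩
    · intro v
      have key : ∀ i, (ρ σ - (LinearMap.toMatrix b b (ρ σ)) 1 1 • (1 : Module.End R M) :
          Module.End R M) (b i) ∈ Submodule.span R {b 0} := by
        intro i
        rw [LinearMap.sub_apply, LinearMap.smul_apply, Module.End.one_apply,
          s59dco_apply_basis b (ρ σ) i]
        fin_cases i
        · simp only [Fin.zero_eta, hD10 σ hσ, zero_smul, add_zero]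
          rw [← sub_smul]
          exact Submodule.smul_mem _ _ hb0
        · simp only [Fin.mk_one, add_sub_cancel_right]
          exact Submodule.smul_mem _ _ hb0
      have := s59dco_mem_of_basis b _ _ key v
      rwa [LinearMap.sub_apply, LinearMap.smul_apply, Module.End.one_apply] at this
    · intro n a hc
      have h1 := hY σ hσ n a hc
      have e : s59dcoY (LinearMap.toMatrix b b (ρ σ0)) (LinearMap.toMatrix b b (ρ σ)) a =
          (u : R) * ((LinearMap.toMatrix b b (ρ σ)) 0 0 -
            (a : R) * (LinearMap.toMatrix b b (ρ σ)) 1 1) := by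
        unfold s59dcoY s59dcoN s59dcoN'
        rw [hdet, hT, hu']
        simp [Matrix.trace_fin_two, Matrix.mul_apply, Fin.sum_univ_two]
        ring
      rw [e] at h1
      have h2 := Ideal.mul_mem_left _ ((u⁻¹ : Rˣ) : R) h1
      rwa [← mul_assoc, Units.inv_mul, one_mul] at h2

end Diag

section General

variable {R : Type} [CommRing R] {G : Type} {M : Type} [AddCommGroup M] [Module R M]

/-- a basis from two vectors with unit determinant -/
theorem s59dco_exists_basis (c : Module.Basis (Fin 2) R M) (v0 v1 : M)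
    (h : IsUnit (c.repr v0 0 * c.repr v1 1 - c.repr v1 0 * c.repr v0 1)) :
    ∃ b : Module.Basis (Fin 2) R M, b 0 = v0 ∧ b 1 = v1 := by
  have hdet : c.det ![v0, v1] = c.repr v0 0 * c.repr v1 1 - c.repr v1 0 * c.repr v0 1 := by
    rw [Module.Basis.det_apply, Matrix.det_fin_two]
    simp [Module.Basis.toMatrix_apply]
  have h1 := (Module.Basis.is_basis_iff_det c (v := ![v0, v1])).2 (by rw [hdet]; exact h)
  refine ⟨Module.Basis.mk h1.1 h1.2.ge, ?_, ?_⟩
  · rw [Module.Basis.mk_apply]; rfl
  · rw [Module.Basis.mk_apply]; rfl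

/-- the matrix of an endomorphism which is diagonal in the basis `b` -/
theorem s59dco_toMatrix_diag (b : Module.Basis (Fin 2) R M) (f : Module.End R M) (x z : R)
    (hx : f (b 0) = x • b 0) (hz : f (b 1) = z • b 1) :
    LinearMap.toMatrix b b f = !![x, 0; 0, z] := by
  ext i j
  fin_cases i <;> fin_cases j <;>
    simp [LinearMap.toMatrix_apply, hx, hz]

/-- the adapted basis: `T` with `tr T = 1 + det T`, `det T - 1` a unit, over a local ring, is
`diag (det T, 1)` in a suitable basis. -/
theorem s59dco_exists_adapted [IsLocalRing R] (c : Module.Basis (Fin 2) R M) (T : Module.End R M)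
    (Tm : Matrix (Fin 2) (Fin 2) R) (hTm : LinearMap.toMatrix c c T = Tm) (x0 : R)
    (hx0 : Tm.det = x0) (hu : IsUnit (x0 - 1)) (ht : Tm.trace - (1 + x0) = 0) :
    ∃ b : Module.Basis (Fin 2) R M, LinearMap.toMatrix b b T = !![x0, 0; 0, 1] := by
  have ht' : Tm.trace - (1 + Tm.det) = 0 := by rw [hx0]; exact ht
  -- the two linear maps
  obtain ⟨Nl, hNl⟩ : ∃ Nl : Module.End R M, Nl = T - 1 := ⟨_, rfl⟩
  obtain ⟨Nl', hNl'⟩ : ∃ Nl' : Module.End R M, Nl' = T - x0 • (1 : Module.End R M) := ⟨_, rfl⟩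
  have hNm : LinearMap.toMatrix c c Nl = s59dcoN Tm := by
    rw [hNl, map_sub, LinearMap.toMatrix_one, hTm]; rfl
  have hNm' : LinearMap.toMatrix c c Nl' = s59dcoN' Tm := by
    rw [hNl', map_sub, map_smul, LinearMap.toMatrix_one, hTm]
    unfold s59dcoN'
    rw [hx0]
    congr 1
    ext i j
    simp [Matrix.one_apply, Matrix.scalar_apply, Matrix.diagonal_apply]
  have hNN' : Nl * Nl' = 0 := by
    apply (LinearMap.toMatrix c c).injective
    rw [LinearMap.toMatrix_mul, hNm, hNm', s59dco_N_mul_N' Tm ht', map_zero]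
  have hN'N : Nl' * Nl = 0 := by
    apply (LinearMap.toMatrix c c).injective
    rw [LinearMap.toMatrix_mul, hNm, hNm', s59dco_N'_mul_N Tm ht', map_zero]
  -- eigenvectors
  have hev0 : ∀ v : M, T (Nl v) = x0 • Nl v := by
    intro v
    have h1 : (Nl' * Nl) v = 0 := by rw [hN'N]; rfl
    rw [Module.End.mul_apply, hNl', LinearMap.sub_apply, LinearMap.smul_apply,
      Module.End.one_apply, sub_eq_zero] at h1
    exact h1
  have hev1 : ∀ v : M, T (Nl' v) = (1 : R) • Nl' v := by
    intro v
    have h1 : (Nl * Nl') v = 0 := by rw [hNN']; rfl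
    rw [Module.End.mul_apply, hNl, LinearMap.sub_apply, Module.End.one_apply, sub_eq_zero] at h1
    rw [one_smul]
    exact h1
  -- entries
  have hrepN : ∀ i j, c.repr (Nl (c j)) i = s59dcoN Tm i j := by
    intro i j
    rw [← hNm, LinearMap.toMatrix_apply]
  have hrepN' : ∀ i j, c.repr (Nl' (c j)) i = s59dcoN' Tm i j := by
    intro i j
    rw [← hNm', LinearMap.toMatrix_apply]
  have hx0' : Tm 0 0 * Tm 1 1 - Tm 0 1 * Tm 1 0 = x0 := by
    rw [← hx0, Matrix.det_fin_two]
  have htr : Tm 0 0 + Tm 1 1 = 1 + x0 := by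
    have h1 := sub_eq_zero.1 ht
    rw [Matrix.trace_fin_two] at h1
    exact h1
  have hsum : IsUnit ((Tm 0 0 - 1) + (Tm 1 1 - 1)) := by
    have e : (Tm 0 0 - 1) + (Tm 1 1 - 1) = x0 - 1 := by linear_combination htr
    rw [e]; exact hu
  have eN : ∀ i j, s59dcoN Tm i j = Tm i j - (1 : Matrix (Fin 2) (Fin 2) R) i j := fun i j => rfl
  have eN' : ∀ i j, s59dcoN' Tm i j = Tm i j - (if i = j then x0 else 0) := by
    intro i j
    unfold s59dcoN'
    rw [hx0, Matrix.sub_apply, Matrix.scalar_apply, Matrix.diagonal_apply]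
  rcases IsLocalRing.isUnit_or_isUnit_of_isUnit_add hsum with ha | hd
  · obtain ⟨b, hb0, hb1⟩ := s59dco_exists_basis c (Nl (c 0)) (Nl' (c 1)) (by
      rw [hrepN, hrepN, hrepN', hrepN', eN, eN, eN', eN']
      have e : (Tm 0 0 - (1 : Matrix (Fin 2) (Fin 2) R) 0 0) *
            (Tm 1 1 - (if (1 : Fin 2) = 1 then x0 else 0)) -
          (Tm 0 1 - (if (0 : Fin 2) = 1 then x0 else 0)) *
            (Tm 1 0 - (1 : Matrix (Fin 2) (Fin 2) R) 1 0) =
          -((Tm 0 0 - 1) * (x0 - 1)) := by
        simp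
        linear_combination hx0' - htr
      rw [e]
      exact (ha.mul hu).neg)
    exact ⟨b, s59dco_toMatrix_diag b T x0 1 (by rw [hb0]; exact hev0 _)
      (by rw [hb1]; exact hev1 _)⟩
  · obtain ⟨b, hb0, hb1⟩ := s59dco_exists_basis c (Nl (c 1)) (Nl' (c 0)) (by
      rw [hrepN, hrepN, hrepN', hrepN', eN, eN, eN', eN']
      have e : (Tm 0 1 - (1 : Matrix (Fin 2) (Fin 2) R) 0 1) *
            (Tm 1 0 - (if (1 : Fin 2) = 0 then x0 else 0)) -
          (Tm 0 0 - (if (0 : Fin 2) = 0 then x0 else 0)) *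
            (Tm 1 1 - (1 : Matrix (Fin 2) (Fin 2) R) 1 1) =
          (Tm 1 1 - 1) * (x0 - 1) := by
        simp
        linear_combination htr - hx0'
      rw [e]
      exact hd.mul hu)
    exact ⟨b, s59dco_toMatrix_diag b T x0 1 (by rw [hb0]; exact hev0 _)
      (by rw [hb1]; exact hev1 _)⟩

/-- **(II)**: the equations, in any basis, give strict ordinarity. -/
theorem s59dco_stmtSOofEmat : s59dco_StmtSOofEmat := by
  intro R _ _ G M _ _ c ρ σ0 D I cyc p h
  obtain ⟨b, hb⟩ := s59dco_exists_adapted c (ρ σ0) _ rfl _ rfl h.1 h.2.1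
  exact s59dco_SO_of_Emat_diag b ρ σ0 D I cyc p _ hb
    (s59dco_Emat_basis c b ρ σ0 D I cyc p h)

/-- **The characterization**: strict ordinarity ⟺ the equations in any basis. -/
theorem s59dco_stmtChar : s59dco_StmtChar := s59dco_stmtChar_of s59dco_stmtSOofEmat

end General

end Fermat.Agent.S59

end
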