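/-
S59, wall DEF-COND, leaf **DC-O** (helper76 + helper94), the TOP:

`s59dco_strict_of : s59dco_StmtChar → IsDeformationCondition 𝒪 (fun ρ => ρ.IsStrictOrdinaryAt p)`
(`p` odd, `p ∈ 𝔪_𝒪`) by the coefficient principle `s59dcc_of_coeff`: by `s59dco_StmtChar`
(`OrdAlg.lean`) strict ordinarity at a place `P` is the equational condition `s59dco_Emat` on the
matrices of `ρ` in ANY basis, with `σ0 = σ0(P)` an element of the inertia group squaring the
`p`-th roots of unity (`EC.ecord_exists_inertia_sq`); the entries of these equations are the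
coefficients (`s59dcot_coef`; the unit clause is the coefficient `if IsUnit … then 0 else 1`).
-/
import Fermat.Agent.S59.DefCond.OrdAlg
import Fermat.Agent.S59.DefCond.CommonDet
import Fermat.Agent.EC.Ord.CycRam

set_option autoImplicit false
set_option linter.unusedSectionVars false
set_option linter.unusedVariables false
set_option linter.style.longLine false

noncomputable section

namespace Fermat.Agent.S59

open IsLocalRing
open scoped TensorProduct

section map

variable {R S : Type} [CommRing R] [CommRing S] (φ : R →+* S)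

theorem s59dcot_map_det (T : Matrix (Fin 2) (Fin 2) R) : (T.map φ).det = φ T.det := by
  simp [Matrix.det_fin_two]

theorem s59dcot_map_trace (T : Matrix (Fin 2) (Fin 2) R) : (T.map φ).trace = φ T.trace := by
  simp [Matrix.trace_fin_two]

theorem s59dcot_map_N (T : Matrix (Fin 2) (Fin 2) R) :
    s59dcoN (T.map φ) = (s59dcoN T).map φ := by
  unfold s59dcoN
  ext i j
  fin_cases i <;> fin_cases j <;> simp

theorem s59dcot_map_N' (T : Matrix (Fin 2) (Fin 2) R) :
    s59dcoN' (T.map φ) = (s59dcoN' T).map φ := by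
  unfold s59dcoN'
  ext i j
  fin_cases i <;> fin_cases j <;> simp [Matrix.det_fin_two]

theorem s59dcot_map_sub_one (T : Matrix (Fin 2) (Fin 2) R) :
    T.map φ - 1 = (T - 1).map φ := by
  ext i j
  fin_cases i <;> fin_cases j <;> simp

theorem s59dcot_map_Y (T U : Matrix (Fin 2) (Fin 2) R) (a : ℕ) :
    s59dcoY (T.map φ) (U.map φ) a = φ (s59dcoY T U a) := by
  unfold s59dcoY
  rw [s59dcot_map_N, s59dcot_map_N', ← Matrix.map_mul, ← Matrix.map_mul, s59dcot_map_trace,
    s59dcot_map_trace, map_add, map_mul, map_natCast]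

theorem s59dcot_map_eq_zero_iff (X : Matrix (Fin 2) (Fin 2) R) :
    X.map φ = 0 ↔ ∀ i j, φ (X i j) = 0 := by
  constructor
  · intro h i j
    have := congrFun (congrFun h i) j
    simpa using this
  · intro h
    ext i j
    simpa using h i j

variable {G : Type}

/-- the equations of `s59dco_Emat`, transported by `φ` (entrywise) -/
def s59dcot_EmatC (φ : R →+* S) (m : G → Matrix (Fin 2) (Fin 2) R) (σ0 : G) (D I : Set G)
    (cyc : G → ℕ → ℕ → Prop) (p : ℕ) : Prop :=
  IsUnit ((m σ0).det - 1) ∧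
  φ ((m σ0).trace - (1 + (m σ0).det)) = 0 ∧
  (∀ σ ∈ D, ∀ i j, φ ((s59dcoN' (m σ0) * m σ * s59dcoN (m σ0)) i j) = 0) ∧
  (∀ σ ∈ I, ∀ i j, φ ((s59dcoN' (m σ0) * (m σ - 1)) i j) = 0) ∧
  (∀ σ ∈ D, ∀ n a : ℕ, cyc σ n a →
    φ (s59dcoY (m σ0) (m σ) a) ∈ Ideal.span {((p ^ n : ℕ) : S)})

theorem s59dcot_Emat_map (hφ : IsLocalHom φ) (m : G → Matrix (Fin 2) (Fin 2) R) (σ0 : G)
    (D I : Set G) (cyc : G → ℕ → ℕ → Prop) (p : ℕ) :
    s59dco_Emat (fun σ => (m σ).map φ) σ0 D I cyc p ↔ s59dcot_EmatC φ m σ0 D I cyc p := by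
  unfold s59dco_Emat s59dcot_EmatC
  refine and_congr ?_ (and_congr ?_ (and_congr ?_ (and_congr ?_ ?_)))
  · rw [s59dcot_map_det, show φ (m σ0).det - 1 = φ ((m σ0).det - 1) by rw [map_sub, map_one]]
    exact isUnit_map_iff φ _
  · rw [s59dcot_map_det, s59dcot_map_trace, map_sub, map_add, map_one]
  · refine forall_congr' fun σ => forall_congr' fun hσ => ?_
    rw [s59dcot_map_N, s59dcot_map_N', ← Matrix.map_mul, ← Matrix.map_mul]
    exact s59dcot_map_eq_zero_iff φ _
  · refine forall_congr' fun σ => forall_congr' fun hσ => ?_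
    rw [s59dcot_map_N', s59dcot_map_sub_one, ← Matrix.map_mul]
    exact s59dcot_map_eq_zero_iff φ _
  · refine forall_congr' fun σ => forall_congr' fun hσ => forall_congr' fun n =>
      forall_congr' fun a => forall_congr' fun hc => ?_
    rw [s59dcot_map_Y]

theorem s59dcot_Emat_self (m : G → Matrix (Fin 2) (Fin 2) R) (σ0 : G)
    (D I : Set G) (cyc : G → ℕ → ℕ → Prop) (p : ℕ) :
    s59dco_Emat m σ0 D I cyc p ↔ s59dcot_EmatC (RingHom.id R) m σ0 D I cyc p := by
  unfold s59dco_Emat s59dcot_EmatC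
  simp only [RingHom.id_apply]
  refine and_congr Iff.rfl (and_congr Iff.rfl (and_congr ?_ (and_congr ?_ Iff.rfl)))
  · refine forall_congr' fun σ => forall_congr' fun hσ => ?_
    exact ⟨fun h i j => by rw [h]; rfl, fun h => Matrix.ext h⟩
  · refine forall_congr' fun σ => forall_congr' fun hσ => ?_
    exact ⟨fun h i j => by rw [h]; rfl, fun h => Matrix.ext h⟩

end map

section family

variable {R S : Type} [CommRing R] [CommRing S] (φ : R →+* S) {G : Type}

/-- the index set of the coefficients -/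
abbrev S59dcotIdx (G : Type) : Type :=
  Unit ⊕ Unit ⊕ (G × Fin 2 × Fin 2) ⊕ (G × Fin 2 × Fin 2) ⊕ (G × ℕ × ℕ)

open Classical in
/-- the coefficients of the equations `s59dco_Emat` -/
def s59dcot_coef (m : G → Matrix (Fin 2) (Fin 2) R) (σ0 : G) (D I : Set G)
    (cyc : G → ℕ → ℕ → Prop) : S59dcotIdx G → R :=
  Sum.elim (fun _ => if IsUnit ((m σ0).det - 1) then 0 else 1)
    (Sum.elim (fun _ => (m σ0).trace - (1 + (m σ0).det))
      (Sum.elim (fun t => if t.1 ∈ D then
          (s59dcoN' (m σ0) * m t.1 * s59dcoN (m σ0)) t.2.1 t.2.2 else 0)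
        (Sum.elim (fun t => if t.1 ∈ I then
            (s59dcoN' (m σ0) * (m t.1 - 1)) t.2.1 t.2.2 else 0)
          (fun t => if t.1 ∈ D ∧ cyc t.1 t.2.1 t.2.2 then
            s59dcoY (m σ0) (m t.1) t.2.2 else 0))))

/-- the moduli of the congruences -/
def s59dcot_mod (G : Type) (p : ℕ) : S59dcotIdx G → ℕ :=
  Sum.elim (fun _ => 0) (Sum.elim (fun _ => 0) (Sum.elim (fun _ => 0)
    (Sum.elim (fun _ => 0) (fun t => p ^ t.2.1))))

theorem s59dcot_ite_mem (c : Prop) [Decidable c] (e : R) (J : Ideal S) :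
    φ (if c then e else 0) ∈ J ↔ (c → φ e ∈ J) := by
  by_cases hc : c
  · simp [hc]
  · simp [hc]

theorem s59dcot_ite_eq (c : Prop) [Decidable c] (e : R) :
    φ (if c then e else 0) = 0 ↔ (c → φ e = 0) := by
  by_cases hc : c
  · simp [hc]
  · simp [hc]

theorem s59dcot_unit_eq [Nontrivial S] (c : Prop) [Decidable c] :
    φ (if c then (0 : R) else 1) = 0 ↔ c := by
  by_cases hc : c
  · simp [hc]
  · simp [hc]

theorem s59dcot_mem_span_zero (x : S) : x ∈ Ideal.span {(((0 : ℕ) : ℕ) : S)} ↔ x = 0 := by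
  rw [Nat.cast_zero, Ideal.span_singleton_eq_bot.2 rfl, Ideal.mem_bot]

/-- the congruence form of the equations -/
theorem s59dcot_EmatC_iff [Nontrivial S] (m : G → Matrix (Fin 2) (Fin 2) R) (σ0 : G)
    (D I : Set G) (cyc : G → ℕ → ℕ → Prop) (p : ℕ) :
    s59dcot_EmatC φ m σ0 D I cyc p ↔
      ∀ x : S59dcotIdx G, φ (s59dcot_coef m σ0 D I cyc x) ∈
        Ideal.span {((s59dcot_mod G p x : ℕ) : S)} := by
  unfold s59dcot_EmatC
  simp only [Sum.forall, Prod.forall, s59dcot_coef, s59dcot_mod, Sum.elim_inl, Sum.elim_inr,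
    s59dcot_mem_span_zero, s59dcot_ite_mem, s59dcot_unit_eq, forall_const]
  refine and_congr Iff.rfl (and_congr Iff.rfl (and_congr ?_ (and_congr ?_ ?_)))
  · exact ⟨fun h σ i j hσ => h σ hσ i j, fun h σ hσ i j => h σ i j hσ⟩
  · exact ⟨fun h σ i j hσ => h σ hσ i j, fun h σ hσ i j => h σ i j hσ⟩
  · exact ⟨fun h σ n a hσ => h σ hσ.1 n a hσ.2, fun h σ hσ n a hc => h σ n a ⟨hσ, hc⟩⟩

end family

section levelN

variable {R S : Type} [CommRing R] [CommRing S] (φ : R →+* S)

/-- the cyclotomic relation: `σ` acts on `μ_{p^n}` through the exponent `a` -/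
def s59dcot_cyc (p : ℕ) : S59dccGal → ℕ → ℕ → Prop :=
  fun σ n a => ∀ μ : AlgebraicClosure ℚ, μ ^ p ^ n = 1 → σ μ = μ ^ a

/-- the cyclotomic relation at the fixed level `N` -/
def s59dcot_cycN (p N : ℕ) : S59dccGal → ℕ → ℕ → Prop :=
  fun σ _ a => ∀ μ : AlgebraicClosure ℚ, μ ^ p ^ N = 1 → σ μ = μ ^ a

/-- **Congruences ⟺ equations at level `N`** for a family affine in the exponent. -/
theorem s59dcot_aff_iff (p : ℕ) [hp : Fact p.Prime] (N : ℕ) (hN : (p : S) ^ N = 0)
    (D : Set S59dccGal) (Y : S59dccGal → ℕ → S) (v : S59dccGal → S)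
    (hY : ∀ σ a a', Y σ a - Y σ a' = ((a : S) - (a' : S)) * v σ) :
    (∀ σ ∈ D, ∀ n a : ℕ, s59dcot_cyc p σ n a → Y σ a ∈ Ideal.span {((p ^ n : ℕ) : S)}) ↔
      (∀ σ ∈ D, ∀ n a : ℕ, s59dcot_cycN p N σ n a → Y σ a = 0) := by
  constructor
  · intro h σ hσ _ a ha
    have h1 := h σ hσ N a ha
    rwa [Nat.cast_pow, hN, Ideal.span_singleton_eq_bot.2 rfl, Ideal.mem_bot] at h1
  · intro h σ hσ n a ha
    haveI : NeZero (p ^ N) := ⟨pow_ne_zero _ hp.out.ne_zero⟩
    obtain ⟨a', ha'⟩ := s59dcc_exists_exp (p ^ N) σ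
    have h1 : Y σ a' = 0 := h σ hσ 0 a' ha'
    have h2 := hY σ a a'
    rw [h1, sub_zero] at h2
    rw [h2]
    have h3 := s59dcc_cast_sub_mem (R := S) p N hN n σ ha ha'
    have h4 : (a : S) - (a' : S) = -((a' : S) - (a : S)) := by ring
    rw [h4]
    exact Ideal.mul_mem_right _ _ (Ideal.neg_mem_iff _ |>.2 h3)

/-- the equational form of the equations, at level `N` -/
theorem s59dcot_EmatC_iff_art [Nontrivial S] (p : ℕ) [hp : Fact p.Prime] (N : ℕ)
    (hN : (p : S) ^ N = 0) (m : S59dccGal → Matrix (Fin 2) (Fin 2) R) (σ0 : S59dccGal)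
    (D I : Set S59dccGal) :
    s59dcot_EmatC φ m σ0 D I (s59dcot_cyc p) p ↔
      ∀ x : S59dcotIdx S59dccGal, φ (s59dcot_coef m σ0 D I (s59dcot_cycN p N) x) = 0 := by
  have haff := s59dcot_aff_iff (S := S) p N hN D
    (fun σ a => φ (s59dcoY (m σ0) (m σ) a))
    (fun σ => φ ((s59dcoN' (m σ0) * m σ).trace)) (fun σ a a' => by
      unfold s59dcoY
      simp only [map_add, map_mul, map_natCast]
      ring)
  unfold s59dcot_EmatC
  simp only [Sum.forall, Prod.forall, s59dcot_coef, Sum.elim_inl, Sum.elim_inr,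
    s59dcot_ite_eq, s59dcot_unit_eq, forall_const]
  refine and_congr Iff.rfl (and_congr Iff.rfl (and_congr ?_ (and_congr ?_ ?_)))
  · exact ⟨fun h σ i j hσ => h σ hσ i j, fun h σ hσ i j => h σ i j hσ⟩
  · exact ⟨fun h σ i j hσ => h σ hσ i j, fun h σ hσ i j => h σ i j hσ⟩
  · rw [haff]
    exact ⟨fun h σ n a hσ => h σ hσ.1 n a hσ.2, fun h σ hσ n a hc => h σ n a ⟨hσ, hc⟩⟩

end levelN

section top

/-- an element of the inertia group at `P` squaring the `p`-th roots of unity -/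
def s59dcot_sigma (p : ℕ) [Fact p.Prime] (hp2 : p ≠ 2)
    (P : ValuationSubring (AlgebraicClosure ℚ)) : S59dccGal :=
  open Classical in
  if h : P.LiesOverPrime p then
    Classical.choose (Fermat.Agent.EC.ecord_exists_inertia_sq p hp2 P h) else 1

theorem s59dcot_sigma_spec (p : ℕ) [Fact p.Prime] (hp2 : p ≠ 2)
    (P : ValuationSubring (AlgebraicClosure ℚ)) (hP : P.LiesOverPrime p) :
    s59dcot_sigma p hp2 P ∈ (P.inertiaSubgroupIn ℚ : Set S59dccGal) ∧
      s59dcot_sigma p hp2 P ∈ (P.decompositionSubgroup ℚ : Set S59dccGal) ∧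
      s59dcot_cyc p (s59dcot_sigma p hp2 P) 1 2 := by
  unfold s59dcot_sigma
  rw [dif_pos hP]
  obtain ⟨h1, h2⟩ := Classical.choose_spec (Fermat.Agent.EC.ecord_exists_inertia_sq p hp2 P hP)
  refine ⟨h1, ?_, ?_⟩
  · obtain ⟨τ, -, hτ⟩ := h1
    rw [← hτ]
    exact τ.2
  · intro μ hμ
    rw [pow_one] at hμ
    exact h2 μ hμ

/-- the matrices of `ρ` in the chosen basis -/
def s59dcot_mat {A : Type} [CommRing A] [IsLocalRing A] (ρ : GaloisRepAdic A) (σ : S59dccGal) :
    Matrix (Fin 2) (Fin 2) A :=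
  LinearMap.toMatrix (Module.finBasisOfFinrankEq A ρ.V ρ.finrank_eq)
    (Module.finBasisOfFinrankEq A ρ.V ρ.finrank_eq) (ρ.ρ σ)

/-- strict ordinarity at `P`, module form -/
def s59dcot_SOat {A : Type} [CommRing A] [IsLocalRing A] (ρ : GaloisRepAdic A) (p : ℕ)
    (P : ValuationSubring (AlgebraicClosure ℚ)) : Prop :=
  s59dco_SO (fun σ => ρ.ρ σ) (P.decompositionSubgroup ℚ : Set S59dccGal)
    (P.inertiaSubgroupIn ℚ : Set S59dccGal) (s59dcot_cyc p) p

theorem s59dcot_strict_iff {A : Type} [CommRing A] [IsLocalRing A] (ρ : GaloisRepAdic A)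
    (p : ℕ) : ρ.IsStrictOrdinaryAt p ↔ (p : A) ∈ maximalIdeal A ∧
      ∀ P : ValuationSubring (AlgebraicClosure ℚ), P.LiesOverPrime p → s59dcot_SOat ρ p P :=
  Iff.rfl

/-- **(★ self)** -/
theorem s59dcot_SO_self (h : s59dco_StmtChar) {A : Type} [CommRing A] [IsLocalRing A]
    (ρ : GaloisRepAdic A) (p : ℕ) [Fact p.Prime] (hp2 : p ≠ 2)
    (hpA : (p : A) ∈ maximalIdeal A) (P : ValuationSubring (AlgebraicClosure ℚ))
    (hP : P.LiesOverPrime p) :
    s59dcot_SOat ρ p P ↔
      s59dcot_EmatC (RingHom.id A) (s59dcot_mat ρ) (s59dcot_sigma p hp2 P)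
        (P.decompositionSubgroup ℚ : Set S59dccGal) (P.inertiaSubgroupIn ℚ : Set S59dccGal)
        (s59dcot_cyc p) p := by
  obtain ⟨hI0, hD0, hc0⟩ := s59dcot_sigma_spec p hp2 P hP
  rw [← s59dcot_Emat_self]
  exact h A S59dccGal ρ.V (Module.finBasisOfFinrankEq A ρ.V ρ.finrank_eq) (fun σ => ρ.ρ σ) _ _ _ _
    p hpA hD0 hI0 hc0

/-- **(★ base change)**, for an algebra `A → B` -/
theorem s59dcot_SO_baseChange (h : s59dco_StmtChar) {A B : Type} [CommRing A] [CommRing B]
    [IsLocalRing B] [Algebra A B] (hloc : IsLocalHom (algebraMap A B))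
    {V : Type} [AddCommGroup V] [Module A V] (c : Module.Basis (Fin 2) A V)
    (r : S59dccGal → Module.End A V) (p : ℕ) (hpB : (p : B) ∈ maximalIdeal B)
    (σ0 : S59dccGal) (D I : Set S59dccGal) (hD0 : σ0 ∈ D) (hI0 : σ0 ∈ I)
    (hc0 : s59dcot_cyc p σ0 1 2) :
    s59dco_SO (fun σ => ((r σ).baseChange B : Module.End B (B ⊗[A] V))) D I (s59dcot_cyc p) p ↔
      s59dcot_EmatC (algebraMap A B) (fun σ => LinearMap.toMatrix c c (r σ)) σ0 D I
        (s59dcot_cyc p) p := by
  rw [← s59dcot_Emat_map (algebraMap A B) hloc]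
  have h1 := h B S59dccGal (B ⊗[A] V) (Algebra.TensorProduct.basis B c)
    (fun σ => ((r σ).baseChange B : Module.End B (B ⊗[A] V))) σ0 D I (s59dcot_cyc p) p hpB hD0 hI0
    hc0
  have e : (fun σ => LinearMap.toMatrix (Algebra.TensorProduct.basis B c)
      (Algebra.TensorProduct.basis B c) ((r σ).baseChange B)) =
      fun σ => (LinearMap.toMatrix c c (r σ)).map (algebraMap A B) := by
    funext σ
    exact LinearMap.toMatrix_baseChange B (r σ) c c
  rw [e] at h1
  exact h1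

/-- **(★ base change)** for `ρ.baseChangeAlong φ` -/
theorem s59dcot_SO_along (h : s59dco_StmtChar) {A B : Type} [CommRing A] [IsLocalRing A]
    [CommRing B] [IsLocalRing B] (φ : A →+* B) (hφ : IsLocalHom φ)
    (ρ : GaloisRepAdic A) (p : ℕ) [Fact p.Prime] (hp2 : p ≠ 2)
    (hpB : (p : B) ∈ maximalIdeal B) (P : ValuationSubring (AlgebraicClosure ℚ))
    (hP : P.LiesOverPrime p) :
    s59dcot_SOat (ρ.baseChangeAlong φ hφ) p P ↔
      s59dcot_EmatC φ (s59dcot_mat ρ) (s59dcot_sigma p hp2 P)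
        (P.decompositionSubgroup ℚ : Set S59dccGal) (P.inertiaSubgroupIn ℚ : Set S59dccGal)
        (s59dcot_cyc p) p := by
  obtain ⟨hI0, hD0, hc0⟩ := s59dcot_sigma_spec p hp2 P hP
  exact @s59dcot_SO_baseChange h A B _ _ _ φ.toAlgebra hφ ρ.V _ _
    (Module.finBasisOfFinrankEq A ρ.V ρ.finrank_eq) (fun σ => ρ.ρ σ) p hpB _ _ _ hD0 hI0 hc0

end top

section main

open Classical in
/-- the quantifier over the places, congruence form -/
theorem s59dcot_forall_place_mem {R S : Type} [CommRing R] [CommRing S] (φ : R →+* S)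
    {ι' : Type} (cond Q : ValuationSubring (AlgebraicClosure ℚ) → Prop)
    (coef : ValuationSubring (AlgebraicClosure ℚ) → ι' → R) (md : ι' → ℕ)
    (h : ∀ P, cond P → (Q P ↔ ∀ x, φ (coef P x) ∈ Ideal.span {((md x : ℕ) : S)})) :
    (∀ P, cond P → Q P) ↔
      ∀ i : ValuationSubring (AlgebraicClosure ℚ) × ι',
        φ (if cond i.1 then coef i.1 i.2 else 0) ∈ Ideal.span {((md i.2 : ℕ) : S)} := by
  simp only [Prod.forall, s59dcot_ite_mem]
  constructor
  · intro hQ P x hP
    exact (h P hP).1 (hQ P hP) x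
  · intro hx P hP
    exact (h P hP).2 fun x => hx P x hP

open Classical in
/-- the quantifier over the places, equational form -/
theorem s59dcot_forall_place_eq {R S : Type} [CommRing R] [CommRing S] (φ : R →+* S)
    {ι' : Type} (cond Q : ValuationSubring (AlgebraicClosure ℚ) → Prop)
    (coef : ValuationSubring (AlgebraicClosure ℚ) → ι' → R)
    (h : ∀ P, cond P → (Q P ↔ ∀ x, φ (coef P x) = 0)) :
    (∀ P, cond P → Q P) ↔
      ∀ i : ValuationSubring (AlgebraicClosure ℚ) × ι',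
        φ (if cond i.1 then coef i.1 i.2 else 0) = 0 := by
  simp only [Prod.forall, s59dcot_ite_eq]
  constructor
  · intro hQ P x hP
    exact (h P hP).1 (hQ P hP) x
  · intro hx P hP
    exact (h P hP).2 fun x => hx P x hP

/-- invariance of strict ordinarity under equivalence (through the characterization) -/
theorem s59dcot_isEquiv (h : s59dco_StmtChar) {A : Type} [CommRing A] [IsLocalRing A]
    {ρ ρ' : GaloisRepAdic A} (p : ℕ) [Fact p.Prime] (hp2 : p ≠ 2) (he : ρ.IsEquiv ρ')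
    (hρ : ρ.IsStrictOrdinaryAt p) : ρ'.IsStrictOrdinaryAt p := by
  obtain ⟨e⟩ := he
  rw [s59dcot_strict_iff] at hρ ⊢
  refine ⟨hρ.1, fun P hP => ?_⟩
  obtain ⟨hI0, hD0, hc0⟩ := s59dcot_sigma_spec p hp2 P hP
  set c := Module.finBasisOfFinrankEq A ρ.V ρ.finrank_eq with hc
  have h1 := (h A S59dccGal ρ.V c (fun σ => ρ.ρ σ) _ _ _ _ p hρ.1 hD0 hI0 hc0).1 (hρ.2 P hP)
  have h2 := h A S59dccGal ρ'.V (c.map e.toLinearEquiv) (fun σ => ρ'.ρ σ) _ _ _ _ p hρ.1 hD0 hI0
    hc0
  have e1 : (fun σ => LinearMap.toMatrix (c.map e.toLinearEquiv) (c.map e.toLinearEquiv)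
      (ρ'.ρ σ)) = fun σ => LinearMap.toMatrix c c (ρ.ρ σ) := by
    funext σ
    ext i j
    rw [LinearMap.toMatrix_apply, LinearMap.toMatrix_apply, Module.Basis.map_apply,
      ← e.map_apply, Module.Basis.map_repr, LinearEquiv.trans_apply,
      LinearEquiv.symm_apply_apply]
  rw [e1] at h2
  exact h2.2 h1

variable {𝒪 : Type} [CommRing 𝒪] [IsLocalRing 𝒪] [Finite (ResidueField 𝒪)]

/-- **DC-O, the `p`-local field**: strict ordinarity at `p` is a deformation condition
(from the characterization `s59dco_StmtChar`). -/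
theorem s59dco_strict_of (h : s59dco_StmtChar) (p : ℕ) [hp : Fact p.Prime] (hp2 : p ≠ 2)
    (hp𝒪 : (p : 𝒪) ∈ maximalIdeal 𝒪) :
    GaloisRep.IsDeformationCondition 𝒪 (fun _A _ _ _ ρ => ρ.IsStrictOrdinaryAt p) := by
  classical
  refine s59dcc_of_coeff _ ?_ ?_ ?_
  · intro A _ _ _ ρ ρ' _ he hρ
    exact s59dcot_isEquiv h p hp2 he hρ
  · -- equations on the Artinian test algebras
    intro A _ _ _ ρ hA
    have hpA : (p : A) ∈ maximalIdeal A := s59dcc_p_mem hA.isLocalHom p hp𝒪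
    haveI := hA.isArtinian
    obtain ⟨N, hN⟩ := IsArtinianRing.isNilpotent_jacobson_bot (R := A)
    rw [IsLocalRing.jacobson_eq_maximalIdeal _ bot_ne_top] at hN
    have hpN : (p : A) ^ N = 0 := by
      have := Ideal.pow_mem_pow hpA N
      rwa [hN, Ideal.zero_eq_bot, Ideal.mem_bot] at this
    refine ⟨ValuationSubring (AlgebraicClosure ℚ) × S59dcotIdx S59dccGal,
      fun i => if i.1.LiesOverPrime p then
        s59dcot_coef (s59dcot_mat ρ) (s59dcot_sigma p hp2 i.1)
          (i.1.decompositionSubgroup ℚ : Set S59dccGal) (i.1.inertiaSubgroupIn ℚ : Set S59dccGal)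
          (s59dcot_cycN p N) i.2 else 0, ?_, ?_⟩
    · rw [s59dcot_strict_iff]
      have h1 := s59dcot_forall_place_eq (RingHom.id A)
        (fun P => P.LiesOverPrime p) (fun P => s59dcot_SOat ρ p P)
        (fun P => s59dcot_coef (s59dcot_mat ρ) (s59dcot_sigma p hp2 P)
          (P.decompositionSubgroup ℚ : Set S59dccGal) (P.inertiaSubgroupIn ℚ : Set S59dccGal)
          (s59dcot_cycN p N))
        (fun P hP => (s59dcot_SO_self h ρ p hp2 hpA P hP).trans
          (s59dcot_EmatC_iff_art (RingHom.id A) p N hpN _ _ _ _))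
      exact ⟨fun h' => h1.1 h'.2, fun h' => ⟨hpA, h1.2 h'⟩⟩
    · intro B _ _ _ hB φ hφ
      have hpB : (p : B) ∈ maximalIdeal B := s59dcc_p_mem hB.isLocalHom p hp𝒪
      have hpNB : (p : B) ^ N = 0 := by
        have := congrArg (φ : A →+* B) hpN
        rwa [map_pow, map_natCast, map_zero] at this
      rw [s59dcot_strict_iff]
      have h1 := s59dcot_forall_place_eq (φ : A →+* B)
        (fun P => P.LiesOverPrime p)
        (fun P => s59dcot_SOat (ρ.baseChangeAlong (φ : A →+* B) hφ) p P)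
        (fun P => s59dcot_coef (s59dcot_mat ρ) (s59dcot_sigma p hp2 P)
          (P.decompositionSubgroup ℚ : Set S59dccGal) (P.inertiaSubgroupIn ℚ : Set S59dccGal)
          (s59dcot_cycN p N))
        (fun P hP => (s59dcot_SO_along h (φ : A →+* B) hφ ρ p hp2 hpB P hP).trans
          (s59dcot_EmatC_iff_art (φ : A →+* B) p N hpNB _ _ _ _))
      exact ⟨fun h' => h1.1 h'.2, fun h' => ⟨hpB, h1.2 h'⟩⟩
  · -- congruences in general
    intro A _ _ _ ρ hA
    have hpA : (p : A) ∈ maximalIdeal A := s59dcc_p_mem hA p hp𝒪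
    refine ⟨ValuationSubring (AlgebraicClosure ℚ) × S59dcotIdx S59dccGal,
      fun i => if i.1.LiesOverPrime p then
        s59dcot_coef (s59dcot_mat ρ) (s59dcot_sigma p hp2 i.1)
          (i.1.decompositionSubgroup ℚ : Set S59dccGal) (i.1.inertiaSubgroupIn ℚ : Set S59dccGal)
          (s59dcot_cyc p) i.2 else 0,
      fun i => s59dcot_mod S59dccGal p i.2, ?_, ?_⟩
    · rw [s59dcot_strict_iff]
      have h1 := s59dcot_forall_place_mem (RingHom.id A)
        (fun P => P.LiesOverPrime p) (fun P => s59dcot_SOat ρ p P)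
        (fun P => s59dcot_coef (s59dcot_mat ρ) (s59dcot_sigma p hp2 P)
          (P.decompositionSubgroup ℚ : Set S59dccGal) (P.inertiaSubgroupIn ℚ : Set S59dccGal)
          (s59dcot_cyc p)) (s59dcot_mod S59dccGal p)
        (fun P hP => (s59dcot_SO_self h ρ p hp2 hpA P hP).trans
          (s59dcot_EmatC_iff (RingHom.id A) _ _ _ _ _ p))
      exact ⟨fun h' => h1.1 h'.2, fun h' => ⟨hpA, h1.2 h'⟩⟩
    · intro B _ _ _ hB φ hφ
      have hpB : (p : B) ∈ maximalIdeal B := s59dcc_p_mem hB p hp𝒪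
      rw [s59dcot_strict_iff]
      have h1 := s59dcot_forall_place_mem (φ : A →+* B)
        (fun P => P.LiesOverPrime p)
        (fun P => s59dcot_SOat (ρ.baseChangeAlong (φ : A →+* B) hφ) p P)
        (fun P => s59dcot_coef (s59dcot_mat ρ) (s59dcot_sigma p hp2 P)
          (P.decompositionSubgroup ℚ : Set S59dccGal) (P.inertiaSubgroupIn ℚ : Set S59dccGal)
          (s59dcot_cyc p)) (s59dcot_mod S59dccGal p)
        (fun P hP => (s59dcot_SO_along h (φ : A →+* B) hφ ρ p hp2 hpB P hP).trans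
          (s59dcot_EmatC_iff (φ : A →+* B) _ _ _ _ _ p))
      exact ⟨fun h' => h1.1 h'.2, fun h' => ⟨hpB, h1.2 h'⟩⟩

end main

end Fermat.Agent.S59

end
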