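/-
S59, wall DEF-COND: **DC-O CLOSED** (`s59dc_StmtCondOrd`).

`twOrd 𝒪 p Smin Q` is a deformation condition: the `p`-local field is `s59dco_strict_of`
(`OrdTop.lean`, coefficient principle) applied to helper76's characterization `s59dco_stmtChar`
(`OrdAlg.lean`, `OrdAlg2.lean`); the conditions away from `p` and the glue are DC-COMMON
(`CommonGlue.lean`).
-/
import Fermat.Agent.S59.DefCond.OrdTop
import Fermat.Agent.S59.DefCond.OrdAlg2
import Fermat.Agent.S59.DefCond.CommonGlue

set_option autoImplicit false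
set_option linter.unusedSectionVars false
set_option linter.unusedVariables false
set_option linter.style.longLine false

noncomputable section

namespace Fermat.Agent.S59

open IsLocalRing Fermat.Agent.TW

/-- strict ordinarity at an odd prime `p ∈ 𝔪_𝒪` is a deformation condition -/
theorem s59dco_strict {𝒪 : Type} [CommRing 𝒪] [IsLocalRing 𝒪] [Finite (ResidueField 𝒪)]
    (p : ℕ) [Fact p.Prime] (hp2 : p ≠ 2) (hp𝒪 : (p : 𝒪) ∈ maximalIdeal 𝒪) :
    GaloisRep.IsDeformationCondition 𝒪 (fun _A _ _ _ ρ => ρ.IsStrictOrdinaryAt p) :=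
  s59dco_strict_of s59dco_stmtChar p hp2 hp𝒪

/-- **DC-O**: the strict-ordinary condition of S56 (with extra primes `Q`) is a deformation
condition. -/
theorem s59dcc_stmtCondOrd : s59dc_StmtCondOrd :=
  s59dcc_stmtCondOrd_of fun 𝒪 _ _ _ p _ hp2 hp𝒪 => s59dco_strict p hp2 hp𝒪

end Fermat.Agent.S59

end
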