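/-
S59, wall M5, leaf **DC-P (COND)** (top: helper94), the algebra (helper76):

`s59dcp_char` : for a module `M` with a basis `c` over a local ring, `σ0 ∈ D ∩ I`:
  (ordinary line, module form of the prelude's `IsOrdinaryAt`) ∧ `IsUnit (det ρ(σ0) - 1)`
    ⟺  `s59dco_Emat (toMatrix c c ∘ ρ) σ0 D I (fun _ _ _ => False) p`
(the equations of DC-O without the cyclotomic clause).
-/
import Fermat.Agent.S59.DefCond.OrdAlg2

set_option autoImplicit false
set_option linter.style.longLine false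
set_option linter.unusedVariables false
set_option linter.unusedSectionVars false

noncomputable section

namespace Fermat.Agent.S59

section

variable {R : Type} [CommRing R] {G M : Type} [AddCommGroup M] [Module R M]

/-- an ordinary line gives the scalars `x`, `z` of `s59dco_SO` (no congruence asked) -/
theorem s59dcp_SO_false_of_ord (ρ : G → Module.End R M) (D I : Set G) (p : ℕ)
    (hord : ∃ L : Submodule R M, (∃ b : Module.Basis (Fin 2) R M, L = Submodule.span R {b 0}) ∧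
        (∀ σ ∈ D, ∀ v ∈ L, ρ σ v ∈ L) ∧ (∀ σ ∈ I, ∀ v : M, ρ σ v - v ∈ L)) :
    s59dco_SO ρ D I (fun _ _ _ => False) p := by
  obtain ⟨L, ⟨b, rfl⟩, hD, hI⟩ := hord
  have hb0 : b 0 ∈ Submodule.span R {b 0} := Submodule.mem_span_singleton_self _
  have h10 : ∀ σ ∈ D, (LinearMap.toMatrix b b (ρ σ)) 1 0 = 0 := by
    intro σ hσ
    obtain ⟨x, hx⟩ := Submodule.mem_span_singleton.1 (hD σ hσ (b 0) hb0)
    rw [LinearMap.toMatrix_apply, ← hx, map_smul, Module.Basis.repr_self]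
    simp
  have hDb0 : ∀ σ ∈ D, ρ σ (b 0) = (LinearMap.toMatrix b b (ρ σ)) 0 0 • b 0 := by
    intro σ hσ
    rw [s59dco_apply_basis b (ρ σ) 0, h10 σ hσ, zero_smul, add_zero]
  refine ⟨Submodule.span R {b 0}, ⟨b, rfl⟩, hD, hI, ?_⟩
  intro σ hσ
  refine ⟨(LinearMap.toMatrix b b (ρ σ)) 0 0, (LinearMap.toMatrix b b (ρ σ)) 1 1, ?_, ?_,
    fun _ _ h => h.elim⟩
  · intro w hw
    obtain ⟨r, rfl⟩ := Submodule.mem_span_singleton.1 hw
    rw [map_smul, hDb0 σ hσ, smul_comm]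
  · intro v
    have key : ∀ i, (ρ σ - (LinearMap.toMatrix b b (ρ σ)) 1 1 • (1 : Module.End R M) :
        Module.End R M) (b i) ∈ Submodule.span R {b 0} := by
      intro i
      rw [LinearMap.sub_apply, LinearMap.smul_apply, Module.End.one_apply,
        s59dco_apply_basis b (ρ σ) i]
      fin_cases i
      · simp only [Fin.zero_eta, h10 σ hσ, zero_smul, add_zero]
        rw [← sub_smul]
        exact Submodule.smul_mem _ _ hb0
      · simp only [Fin.mk_one, add_sub_cancel_right]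
        exact Submodule.smul_mem _ _ hb0
    have := s59dco_mem_of_basis b _ _ key v
    rwa [LinearMap.sub_apply, LinearMap.smul_apply, Module.End.one_apply] at this

/-- **(I) with the unit as a hypothesis**: strict ordinarity (any `cyc`) and
`IsUnit (det ρ(σ0) - 1)` give the equations, in the basis of the line. -/
theorem s59dcp_Emat_of_SO_unit (ρ : G → Module.End R M) (σ0 : G) (D I : Set G)
    (cyc : G → ℕ → ℕ → Prop) (p : ℕ) (hD0 : σ0 ∈ D) (hI0 : σ0 ∈ I)
    (hu : IsUnit (LinearMap.det (ρ σ0) - 1)) (h : s59dco_SO ρ D I cyc p) :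
    ∃ b : Module.Basis (Fin 2) R M,
      s59dco_Emat (fun σ => LinearMap.toMatrix b b (ρ σ)) σ0 D I cyc p := by
  obtain ⟨L, ⟨b, rfl⟩, hDst, hIn, hS⟩ := h
  refine ⟨b, ?_⟩
  have hb0 : b 0 ∈ Submodule.span R {b 0} := Submodule.mem_span_singleton_self _
  obtain ⟨x0, z0, hx0, hz0, hxz0⟩ := hS σ0 hD0
  obtain ⟨c0, hT⟩ := s59dco_toMatrix_tri b (ρ σ0) x0 1 (hx0 _ hb0)
    (by rw [one_smul]; exact hIn σ0 hI0 (b 1))
  have hdet : (LinearMap.toMatrix b b (ρ σ0)).det = x0 := by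
    rw [hT]; simp [Matrix.det_fin_two]
  have hu' : IsUnit (x0 - 1) := by
    rw [← hdet, LinearMap.det_toMatrix b]; exact hu
  refine ⟨?_, ?_, ?_, ?_, ?_⟩
  · show IsUnit ((LinearMap.toMatrix b b (ρ σ0)).det - 1)
    rw [hdet]; exact hu'
  · show (LinearMap.toMatrix b b (ρ σ0)).trace - (1 + (LinearMap.toMatrix b b (ρ σ0)).det) = 0
    rw [hdet, hT]; simp [Matrix.trace_fin_two]; ring
  · intro σ hσ
    obtain ⟨x, z, hx, hz, -⟩ := hS σ hσ
    obtain ⟨c, hS'⟩ := s59dco_toMatrix_tri b (ρ σ) x z (hx _ hb0) (hz (b 1))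
    show s59dcoN' (LinearMap.toMatrix b b (ρ σ0)) * LinearMap.toMatrix b b (ρ σ) *
      s59dcoN (LinearMap.toMatrix b b (ρ σ0)) = 0
    unfold s59dcoN s59dcoN'
    rw [hdet, hT, hS']
    ext i j
    fin_cases i <;> fin_cases j <;>
      simp [Matrix.mul_apply, Fin.sum_univ_two]
  · intro σ hσ
    obtain ⟨α, hα⟩ := Submodule.mem_span_singleton.1 (hIn σ hσ (b 0))
    have hb : ρ σ (b 0) = (α + 1) • b 0 := by
      rw [add_smul, one_smul, hα]; abel
    obtain ⟨c, hS'⟩ := s59dco_toMatrix_tri b (ρ σ) (α + 1) 1 hb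
      (by rw [one_smul]; exact hIn σ hσ (b 1))
    show s59dcoN' (LinearMap.toMatrix b b (ρ σ0)) * (LinearMap.toMatrix b b (ρ σ) - 1) = 0
    unfold s59dcoN'
    rw [hdet, hT, hS']
    ext i j
    fin_cases i <;> fin_cases j <;>
      simp [Matrix.mul_apply, Fin.sum_univ_two]
  · intro σ hσ n a hcyc
    obtain ⟨x, z, hx, hz, hxz⟩ := hS σ hσ
    obtain ⟨c, hS'⟩ := s59dco_toMatrix_tri b (ρ σ) x z (hx _ hb0) (hz (b 1))
    have h1 := hxz n a hcyc
    show s59dcoY (LinearMap.toMatrix b b (ρ σ0)) (LinearMap.toMatrix b b (ρ σ)) a ∈ _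
    have e : s59dcoY (LinearMap.toMatrix b b (ρ σ0)) (LinearMap.toMatrix b b (ρ σ)) a =
        (x0 - 1) * (x - (a : R) * z) := by
      unfold s59dcoY s59dcoN s59dcoN'
      rw [hdet, hT, hS']
      simp [Matrix.trace_fin_two, Matrix.mul_apply, Fin.sum_univ_two]
      ring
    rw [e]
    exact Ideal.mul_mem_left _ _ h1

/-- strict ordinarity (module form) gives the ordinary line -/
theorem s59dcp_ord_of_SO (ρ : G → Module.End R M) (D I : Set G) (cyc : G → ℕ → ℕ → Prop) (p : ℕ)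
    (h : s59dco_SO ρ D I cyc p) :
    ∃ L : Submodule R M, (∃ b : Module.Basis (Fin 2) R M, L = Submodule.span R {b 0}) ∧
        (∀ σ ∈ D, ∀ v ∈ L, ρ σ v ∈ L) ∧ (∀ σ ∈ I, ∀ v : M, ρ σ v - v ∈ L) := by
  obtain ⟨L, hb, hD, hI, -⟩ := h
  exact ⟨L, hb, hD, hI⟩

end

/-- **The characterization of the ordinary condition** (exact shape asked by helper94). -/
theorem s59dcp_char :
    ∀ (R : Type) [CommRing R] [IsLocalRing R] (G : Type) (M : Type) [AddCommGroup M] [Module R M]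
      (c : Module.Basis (Fin 2) R M) (ρ : G → Module.End R M) (σ0 : G) (D I : Set G) (p : ℕ),
      σ0 ∈ D → σ0 ∈ I →
      (((∃ L : Submodule R M, (∃ b : Module.Basis (Fin 2) R M, L = Submodule.span R {b 0}) ∧
          (∀ σ ∈ D, ∀ v ∈ L, ρ σ v ∈ L) ∧ (∀ σ ∈ I, ∀ v : M, ρ σ v - v ∈ L)) ∧
        IsUnit (LinearMap.det (ρ σ0) - 1)) ↔
        s59dco_Emat (fun σ => LinearMap.toMatrix c c (ρ σ)) σ0 D I (fun _ _ _ => False) p) := by
  intro R _ _ G M _ _ c ρ σ0 D I p hD0 hI0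
  constructor
  · rintro ⟨hord, hu⟩
    obtain ⟨b, hb⟩ := s59dcp_Emat_of_SO_unit ρ σ0 D I (fun _ _ _ => False) p hD0 hI0 hu
      (s59dcp_SO_false_of_ord ρ D I p hord)
    exact s59dco_Emat_basis b c ρ σ0 D I _ p hb
  · intro h
    refine ⟨s59dcp_ord_of_SO ρ D I _ p (s59dco_stmtSOofEmat R G M c ρ σ0 D I _ p h), ?_⟩
    have h1 := h.1
    simp only at h1
    rwa [LinearMap.det_toMatrix c] at h1

end Fermat.Agent.S59

end
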