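/-
S59, wall M5 = P-STEP, leaf **DC-P (COND part)** (helper76 + helper94), the TOP:

`s59dcpt_ord_of`  : (characterization of ordinarity by equations) ⇒
                    `DetIsCyclotomic p ∧ IsOrdinaryAt p` is a deformation condition (`p` odd);
`s59dcpt_cond_of` : ⇒ `s59psCond 𝒪 p Smin Sg` (non-strict ordinary, peu ramifié at `p` unless
                    `p ∈ Sg`) is a deformation condition.

The equations are helper76's `s59dco_Emat` WITHOUT the cyclotomic clause (`cyc := False`); the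
condition `𝒟'` "the equations hold at every place over `p`" is a deformation condition by the
equational coefficient principle `s59dcc_of_eq`, and under `DetIsCyclotomic p` ordinarity is
equivalent to `𝒟'` (the unit clause `IsUnit (det ρ(σ0) - 1)` follows from `det ρ(σ0) ≡ 2 mod p`).
-/
import Fermat.Agent.S59.DefCond.OrdTop
import Fermat.Agent.S59.DefCond.CommonGlue
import Fermat.Agent.S59.PStep.Plan

set_option autoImplicit false
set_option linter.unusedSectionVars false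
set_option linter.unusedVariables false
set_option linter.style.longLine false

noncomputable section

namespace Fermat.Agent.S59

open IsLocalRing Fermat.Agent.TW
open scoped TensorProduct

/-- the empty cyclotomic relation -/
def s59dcpt_cyc0 : S59dccGal → ℕ → ℕ → Prop := fun _ _ _ => False

/-- **The characterization of ordinarity** (statement; proved by helper76 in `OrdPAlg.lean`). -/
def s59dcpt_StmtChar : Prop :=
  ∀ (R : Type) [CommRing R] [IsLocalRing R] (G : Type) (M : Type) [AddCommGroup M] [Module R M]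
    (c : Module.Basis (Fin 2) R M) (ρ : G → Module.End R M) (σ0 : G) (D I : Set G) (p : ℕ),
    σ0 ∈ D → σ0 ∈ I →
    (((∃ L : Submodule R M, (∃ b : Module.Basis (Fin 2) R M, L = Submodule.span R {b 0}) ∧
        (∀ σ ∈ D, ∀ v ∈ L, ρ σ v ∈ L) ∧ (∀ σ ∈ I, ∀ v : M, ρ σ v - v ∈ L)) ∧
      IsUnit (LinearMap.det (ρ σ0) - 1)) ↔
      s59dco_Emat (fun σ => LinearMap.toMatrix c c (ρ σ)) σ0 D I (fun _ _ _ => False) p)

section family

variable {R S : Type} [CommRing R] [CommRing S] (φ : R →+* S)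

/-- the equational form of the equations without cyclotomic clause -/
theorem s59dcpt_EmatC_iff [Nontrivial S] (m : S59dccGal → Matrix (Fin 2) (Fin 2) R)
    (σ0 : S59dccGal) (D I : Set S59dccGal) (p : ℕ) :
    s59dcot_EmatC φ m σ0 D I s59dcpt_cyc0 p ↔
      ∀ x : S59dcotIdx S59dccGal, φ (s59dcot_coef m σ0 D I s59dcpt_cyc0 x) = 0 := by
  unfold s59dcot_EmatC s59dcpt_cyc0
  simp only [Sum.forall, Prod.forall, s59dcot_coef, Sum.elim_inl, Sum.elim_inr,
    s59dcot_ite_eq, s59dcot_unit_eq, forall_const, and_false, if_false, map_zero, implies_true,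
    IsEmpty.forall_iff, and_true]
  refine and_congr Iff.rfl (and_congr Iff.rfl (and_congr ?_ ?_))
  · exact ⟨fun h σ i j hσ => h σ hσ i j, fun h σ hσ i j => h σ i j hσ⟩
  · exact ⟨fun h σ i j hσ => h σ hσ i j, fun h σ hσ i j => h σ i j hσ⟩

end family

section top

/-- the equations at the place `P` -/
def s59dcpt_Eat {A : Type} [CommRing A] [IsLocalRing A] (ρ : GaloisRepAdic A) (p : ℕ)
    [Fact p.Prime] (hp2 : p ≠ 2) (P : ValuationSubring (AlgebraicClosure ℚ)) : Prop :=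
  s59dco_Emat (s59dcot_mat ρ) (s59dcot_sigma p hp2 P)
    (P.decompositionSubgroup ℚ : Set S59dccGal) (P.inertiaSubgroupIn ℚ : Set S59dccGal)
    s59dcpt_cyc0 p

/-- the equations after base change, in terms of the matrices of `ρ` -/
theorem s59dcpt_Eat_along {A B : Type} [CommRing A] [IsLocalRing A] [CommRing B] [IsLocalRing B]
    (φ : A →+* B) (hφ : IsLocalHom φ) (ρ : GaloisRepAdic A) (p : ℕ) [Fact p.Prime]
    (hp2 : p ≠ 2) (P : ValuationSubring (AlgebraicClosure ℚ)) :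
    s59dcpt_Eat (ρ.baseChangeAlong φ hφ) p hp2 P ↔
      s59dcot_EmatC φ (s59dcot_mat ρ) (s59dcot_sigma p hp2 P)
        (P.decompositionSubgroup ℚ : Set S59dccGal) (P.inertiaSubgroupIn ℚ : Set S59dccGal)
        s59dcpt_cyc0 p := by
  rw [← s59dcot_Emat_map φ hφ]
  letI : Algebra A B := φ.toAlgebra
  set c := Module.finBasisOfFinrankEq A ρ.V ρ.finrank_eq with hc
  set cB := Module.finBasisOfFinrankEq B (ρ.baseChangeAlong φ hφ).V
    (ρ.baseChangeAlong φ hφ).finrank_eq with hcB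
  have e : (fun σ => LinearMap.toMatrix (Algebra.TensorProduct.basis B c)
      (Algebra.TensorProduct.basis B c) ((ρ.ρ σ).baseChange B)) =
      fun σ => (s59dcot_mat ρ σ).map φ := by
    funext σ
    exact LinearMap.toMatrix_baseChange B (ρ.ρ σ) c c
  constructor
  · intro h
    have h1 := s59dco_Emat_basis cB (Algebra.TensorProduct.basis B c)
      (fun σ => (ρ.baseChangeAlong φ hφ).ρ σ) _ _ _ _ p h
    rw [← e]
    exact h1
  · intro h
    rw [← e] at h
    exact s59dco_Emat_basis (Algebra.TensorProduct.basis B c) cB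
      (fun σ => (ρ.baseChangeAlong φ hφ).ρ σ) _ _ _ _ p h

/-- invariance of the equations under equivalence -/
theorem s59dcpt_Eat_isEquiv {A : Type} [CommRing A] [IsLocalRing A] {ρ ρ' : GaloisRepAdic A}
    (p : ℕ) [Fact p.Prime] (hp2 : p ≠ 2) (he : ρ.IsEquiv ρ')
    (P : ValuationSubring (AlgebraicClosure ℚ)) (h : s59dcpt_Eat ρ p hp2 P) :
    s59dcpt_Eat ρ' p hp2 P := by
  obtain ⟨e⟩ := he
  set c := Module.finBasisOfFinrankEq A ρ.V ρ.finrank_eq with hc
  have e1 : (fun σ => LinearMap.toMatrix (c.map e.toLinearEquiv) (c.map e.toLinearEquiv)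
      (ρ'.ρ σ)) = fun σ => LinearMap.toMatrix c c (ρ.ρ σ) := by
    funext σ
    ext i j
    rw [LinearMap.toMatrix_apply, LinearMap.toMatrix_apply, Module.Basis.map_apply,
      ← e.map_apply, Module.Basis.map_repr, LinearEquiv.trans_apply,
      LinearEquiv.symm_apply_apply]
  have h1 : s59dco_Emat (fun σ => LinearMap.toMatrix (c.map e.toLinearEquiv)
      (c.map e.toLinearEquiv) (ρ'.ρ σ)) (s59dcot_sigma p hp2 P)
      (P.decompositionSubgroup ℚ : Set S59dccGal) (P.inertiaSubgroupIn ℚ : Set S59dccGal)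
      s59dcpt_cyc0 p := by
    rw [e1]
    exact h
  exact s59dco_Emat_basis (c.map e.toLinearEquiv)
    (Module.finBasisOfFinrankEq A ρ'.V ρ'.finrank_eq) (fun σ => ρ'.ρ σ) _ _ _ _ p h1

variable {𝒪 : Type} [CommRing 𝒪] [IsLocalRing 𝒪] [Finite (ResidueField 𝒪)]

/-- **The equations at all places over `p` form a deformation condition.** -/
theorem s59dcpt_eqs (p : ℕ) [hp : Fact p.Prime] (hp2 : p ≠ 2) :
    GaloisRep.IsDeformationCondition 𝒪 (fun _A _ _ _ ρ =>
      ∀ P : ValuationSubring (AlgebraicClosure ℚ), P.LiesOverPrime p → s59dcpt_Eat ρ p hp2 P) := by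
  classical
  refine s59dcc_of_eq _ ?_ ?_
  · intro A _ _ _ ρ ρ' _ he hρ P hP
    exact s59dcpt_Eat_isEquiv p hp2 he P (hρ P hP)
  · intro A _ _ _ ρ hA
    refine ⟨ValuationSubring (AlgebraicClosure ℚ) × S59dcotIdx S59dccGal,
      fun i => if i.1.LiesOverPrime p then
        s59dcot_coef (s59dcot_mat ρ) (s59dcot_sigma p hp2 i.1)
          (i.1.decompositionSubgroup ℚ : Set S59dccGal) (i.1.inertiaSubgroupIn ℚ : Set S59dccGal)
          s59dcpt_cyc0 i.2 else 0, ?_, ?_⟩
    · exact s59dcot_forall_place_eq (RingHom.id A)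
        (fun P => P.LiesOverPrime p) (fun P => s59dcpt_Eat ρ p hp2 P)
        (fun P => s59dcot_coef (s59dcot_mat ρ) (s59dcot_sigma p hp2 P)
          (P.decompositionSubgroup ℚ : Set S59dccGal) (P.inertiaSubgroupIn ℚ : Set S59dccGal)
          s59dcpt_cyc0)
        (fun P hP => (s59dcot_Emat_self _ _ _ _ _ p).trans
          (s59dcpt_EmatC_iff (RingHom.id A) _ _ _ _ p))
    · intro B _ _ _ hB φ hφ
      exact s59dcot_forall_place_eq (φ : A →+* B)
        (fun P => P.LiesOverPrime p)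
        (fun P => s59dcpt_Eat (ρ.baseChangeAlong (φ : A →+* B) hφ) p hp2 P)
        (fun P => s59dcot_coef (s59dcot_mat ρ) (s59dcot_sigma p hp2 P)
          (P.decompositionSubgroup ℚ : Set S59dccGal) (P.inertiaSubgroupIn ℚ : Set S59dccGal)
          s59dcpt_cyc0)
        (fun P hP => (s59dcpt_Eat_along (φ : A →+* B) hφ ρ p hp2 P).trans
          (s59dcpt_EmatC_iff (φ : A →+* B) _ _ _ _ p))

end top

section main

/-- under `DetIsCyclotomic p`, ordinarity at `p` is the system of equations -/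
theorem s59dcpt_ord_iff (h : s59dcpt_StmtChar) {A : Type} [CommRing A] [IsLocalRing A]
    (ρ : GaloisRepAdic A) (p : ℕ) [Fact p.Prime] (hp2 : p ≠ 2) (hdet : ρ.DetIsCyclotomic p) :
    ρ.IsOrdinaryAt p ↔
      ∀ P : ValuationSubring (AlgebraicClosure ℚ), P.LiesOverPrime p → s59dcpt_Eat ρ p hp2 P := by
  have hunit : ∀ P : ValuationSubring (AlgebraicClosure ℚ), P.LiesOverPrime p →
      IsUnit (LinearMap.det (ρ.ρ (s59dcot_sigma p hp2 P)) - 1) := by
    intro P hP
    obtain ⟨hI0, hD0, hc0⟩ := s59dcot_sigma_spec p hp2 P hP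
    have h1 := hdet.2 1 (s59dcot_sigma p hp2 P) 2 hc0
    have h2 : LinearMap.det (ρ.ρ (s59dcot_sigma p hp2 P)) - ((2 : ℕ) : A) ∈ maximalIdeal A := by
      obtain ⟨y, hy⟩ := Ideal.mem_span_singleton'.1 h1
      rw [← hy, pow_one]
      exact Ideal.mul_mem_left _ _ hdet.1
    by_contra hnu
    have h3 : LinearMap.det (ρ.ρ (s59dcot_sigma p hp2 P)) - 1 ∈ maximalIdeal A :=
      (IsLocalRing.mem_maximalIdeal _).2 hnu
    have h4 : (1 : A) ∈ maximalIdeal A := by
      have h5 := Ideal.sub_mem _ h3 h2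
      have e : LinearMap.det (ρ.ρ (s59dcot_sigma p hp2 P)) - 1 -
          (LinearMap.det (ρ.ρ (s59dcot_sigma p hp2 P)) - ((2 : ℕ) : A)) = 1 := by
        push_cast
        ring
      rwa [e] at h5
    exact (Ideal.ne_top_iff_one _).1 (IsLocalRing.maximalIdeal.isMaximal A).ne_top h4
  constructor
  · intro hord P hP
    obtain ⟨hI0, hD0, hc0⟩ := s59dcot_sigma_spec p hp2 P hP
    exact (h A S59dccGal ρ.V (Module.finBasisOfFinrankEq A ρ.V ρ.finrank_eq) (fun σ => ρ.ρ σ)
      _ _ _ p hD0 hI0).1 ⟨hord P hP, hunit P hP⟩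
  · intro hE P hP
    obtain ⟨hI0, hD0, hc0⟩ := s59dcot_sigma_spec p hp2 P hP
    exact ((h A S59dccGal ρ.V (Module.finBasisOfFinrankEq A ρ.V ρ.finrank_eq) (fun σ => ρ.ρ σ)
      _ _ _ p hD0 hI0).2 (hE P hP)).1

variable {𝒪 : Type} [CommRing 𝒪] [IsLocalRing 𝒪] [Finite (ResidueField 𝒪)]

/-- **`DetIsCyclotomic p ∧ IsOrdinaryAt p` is a deformation condition** (`p` odd). -/
theorem s59dcpt_ord_of (h : s59dcpt_StmtChar) (p : ℕ) [Fact p.Prime] (hp2 : p ≠ 2)
    (hp𝒪 : (p : 𝒪) ∈ maximalIdeal 𝒪) :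
    GaloisRep.IsDeformationCondition 𝒪
      (fun _A _ _ _ ρ => ρ.DetIsCyclotomic p ∧ ρ.IsOrdinaryAt p) :=
  s59dcc_congr (fun _A _ _ _ ρ =>
      ⟨fun hh => ⟨hh.1, (s59dcpt_ord_iff h ρ p hp2 hh.1).2 hh.2⟩,
        fun hh => ⟨hh.1, (s59dcpt_ord_iff h ρ p hp2 hh.1).1 hh.2⟩⟩)
    (s59dcc_and (s59dcc_det p hp𝒪) (s59dcpt_eqs p hp2))

/-- "peu ramifié at `p` unless `p ∈ Sg`" is a deformation condition -/
theorem s59dcpt_peu (p : ℕ) (Sg : Finset ℕ) :
    GaloisRep.IsDeformationCondition 𝒪 (fun _A _ _ _ ρ => p ∉ Sg → s59psPeuTriv ρ p) := by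
  have h : GaloisRep.IsDeformationCondition 𝒪
      (fun _A _ _ _ ρ => p ∉ Sg → ∀ σ : S59dccGal, σ ∈ s59psPeuSet p → ρ.ρ σ = 1) :=
    s59dcc_imp _ fun _ => s59dcc_forall fun σ => s59dcc_imp _ fun _ => s59dcc_unramAt σ
  exact s59dcc_congr (fun _A _ _ _ ρ => Iff.rfl) h

/-- **DC-P (COND part)**: the non-strict ordinary condition of the `p`-step is a deformation
condition (from the characterization of ordinarity). -/
theorem s59dcpt_cond_of (h : s59dcpt_StmtChar) (p : ℕ) [Fact p.Prime] (hp2 : p ≠ 2)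
    (hp𝒪 : (p : 𝒪) ∈ maximalIdeal 𝒪) (Smin Sg : Finset ℕ) :
    GaloisRep.IsDeformationCondition 𝒪 (s59psCond 𝒪 p Smin Sg) :=
  s59dcc_congr (fun _A _ _ _ ρ =>
      ⟨fun hh => ⟨⟨hh.1.1.1, hh.1.1.2, hh.1.2⟩, hh.2.1, hh.2.2⟩,
        fun hh => ⟨⟨⟨hh.1.1, hh.1.2.1⟩, hh.1.2.2⟩, hh.2.1, hh.2.2⟩⟩)
    (s59dcc_and (s59dcc_and (s59dcpt_ord_of h p hp2 hp𝒪) (s59dcc_unram_outside (Smin ∪ Sg)))
      (s59dcc_and (s59dcpt_peu p Sg) (s59dcc_unip_on Smin p)))

end main

end Fermat.Agent.S59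

end
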