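/-
S59 DEF-COND, **DC-P (COND part) CLOSED** (helper94, with helper76's characterization):
the non-strict ordinary condition `s59psCond` of the `p`-step (`S59/PStep/Plan.lean`)
is a deformation condition.

Assembly only: `s59dcpt_cond_of` (`OrdPTop.lean`, helper94) applied to `s59dcp_char`
(`OrdPAlg.lean`, helper76).
-/
import Fermat.Agent.S59.DefCond.OrdPTop
import Fermat.Agent.S59.DefCond.OrdPAlg

noncomputable section

namespace Fermat.Agent.S59

open IsLocalRing

/-- the characterization statement of `OrdPTop.lean` holds (helper76's `s59dcp_char`) -/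
theorem s59dcpt_stmtChar : s59dcpt_StmtChar :=
  s59dcp_char

section

variable {𝒪 : Type} [CommRing 𝒪] [IsLocalRing 𝒪] [Finite (ResidueField 𝒪)]

/-- "determinant cyclotomic and ordinary at `p`" is a deformation condition -/
theorem s59dcpt_ord (p : ℕ) [Fact p.Prime] (hp2 : p ≠ 2)
    (hp𝒪 : (p : 𝒪) ∈ maximalIdeal 𝒪) :
    GaloisRep.IsDeformationCondition 𝒪
      (fun _A _ _ _ ρ => ρ.DetIsCyclotomic p ∧ ρ.IsOrdinaryAt p) :=
  s59dcpt_ord_of s59dcpt_stmtChar p hp2 hp𝒪

/-- **DC-P (COND part)**: the condition `s59psCond` of the `p`-step is a deformation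
condition. -/
theorem s59dcpt_cond (p : ℕ) [Fact p.Prime] (hp2 : p ≠ 2)
    (hp𝒪 : (p : 𝒪) ∈ maximalIdeal 𝒪) (Smin Sg : Finset ℕ) :
    GaloisRep.IsDeformationCondition 𝒪 (s59psCond 𝒪 p Smin Sg) :=
  s59dcpt_cond_of s59dcpt_stmtChar p hp2 hp𝒪 Smin Sg

end

end Fermat.Agent.S59

end
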