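/-
S59, wall DEF-COND, leaf **DC-T** (helper63): finiteness of the tangent space of the
Taylor–Wiles deformation conditions `twFlat 𝒪 p Smin Q` and `twOrd 𝒪 p Smin Q`, for EVERY finite
set `Q` of primes.

* `s59dct_tangentFinite_of_card` : `TwTanCard 𝒪 ρ̄ 𝒟 N → GaloisRep.TangentFinite 𝒪 ρ̄ 𝒟`
  (an infinite quotient contains `N + 1` pairwise inequivalent deformations).
* `s59dct_sel_finite` : the Selmer group `selGroup p ρ̄ Smin Lp (primesOf (Smin ∪ Q))` is finite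
  for every `Q` and every local condition `Lp` at `p` (it lies in the level group
  `levH1 (towerS T) (ad⁰ ρ̄)`, finite by TW-F `stmtGloFin`).
* `s59dct_stmtTanFlat : s59dc_StmtTanFlat` (TW-S `stmtSelCardFlat` with `Lp = flatH1`).
* `s59dct_stmtTanOrd : s59dc_StmtTanOrd` (TW-S `stmtSelCardOrd`; if `ρ̄` has no strictly ordinary
  line there is no deformation at all, `stmtResStrict`).
-/
import Fermat.Agent.S59.DefCond.Plan
import Fermat.Agent.TW.Core.Final
import Fermat.Agent.TW.W.Plan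

set_option autoImplicit false
set_option linter.style.longLine false
set_option linter.unusedVariables false
set_option linter.unusedSectionVars false
set_option linter.style.haveILetI false

noncomputable section

namespace Fermat.Agent.S59

open CategoryTheory groupCohomology IsLocalRing Module
open Fermat.Agent.PT Fermat.Agent.PT.B Fermat.Agent.PT.F Fermat.Agent.S53
open Fermat.Agent.TW Fermat.Agent.TW.S Fermat.Agent.TW.L Fermat.Agent.TW.F Fermat.Agent.TW.E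
open Fermat.Agent.TW.W Fermat.Agent.TW.Core
open ExtCitation

section

variable {𝒪 : Type} [CommRing 𝒪] [IsDomain 𝒪] [IsDiscreteValuationRing 𝒪]
  [IsAdicComplete (maximalIdeal 𝒪) 𝒪] [Finite (ResidueField 𝒪)]

/-- **A bound for the families of pairwise inequivalent deformations gives finiteness of the
tangent space.** -/
theorem s59dct_tangentFinite_of_card {ρbar : ResidualGaloisRep (ResidueField 𝒪)}
    {𝒟 : ∀ ⦃A : Type⦄ [CommRing A] [IsLocalRing A] [Algebra 𝒪 A], GaloisRepAdic A → Prop}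
    {N : ℕ} (h : TwTanCard 𝒪 ρbar 𝒟 N) : GaloisRep.TangentFinite 𝒪 ρbar 𝒟 := by
  rw [tangentFinite_iff]
  by_contra hinf
  rw [not_finite_iff_infinite] at hinf
  let f : ℕ ↪ Quotient (tangentSetoid 𝒪 ρbar 𝒟) := Infinite.natEmbedding _
  let t : Fin (N + 1) → TangentSub 𝒪 ρbar 𝒟 := fun i => (f i.1).out
  have ht : ∀ i j, (t i).1.IsEquiv (t j).1 → i = j := by
    intro i j hij
    have h1 : f i.1 = f j.1 := by
      rw [← Quotient.out_eq (f i.1), ← Quotient.out_eq (f j.1)]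
      exact Quotient.sound hij
    exact Fin.ext (f.injective h1)
  have h2 := h (Fin (N + 1)) t ht
  rw [Nat.card_eq_fintype_card, Fintype.card_fin] at h2
  omega

/-- **The Selmer group is finite**, for every set `Q` of auxiliary primes and every local
condition at `p`. -/
theorem s59dct_sel_finite (p : ℕ) [Fact p.Prime] [CharP (ResidueField 𝒪) p]
    (ρbar : ResidualGaloisRep (ResidueField 𝒪)) (S Smin : Finset ℕ)
    (hyp : TWHyp 𝒪 p ρbar S Smin) (Q : Finset ℕ)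
    (Lp : Submodule (ZMod p) (H1 (locRep p (ad0Rep p ρbar)))) :
    Finite ↥(selGroup p ρbar Smin Lp (primesOf (Smin ∪ Q))) := by
  classical
  have hp2 := hyp.hp2
  have hpT : pPrime p ∈ primesOf (Smin ∪ Q) :=
    (casm_mem_primesOf _ _).2 (Finset.mem_union_left _ hyp.hpSmin)
  have hunr : ∀ q : Nat.Primes, q ∉ primesOf (Smin ∪ Q) → ρbar.IsUnramifiedAt (q : ℕ) := by
    intro q hq
    have h1 : (q : ℕ) ∉ Smin ∪ Q := fun h => hq ((casm_mem_primesOf _ _).2 h)
    have h2 : (q : ℕ) ∉ Smin := fun h => h1 (Finset.mem_union_left _ h)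
    have h3 : (q : ℕ) ≠ p := fun h => h2 (h ▸ hyp.hpSmin)
    by_contra hc
    exact h2 ((hyp.hmin q q.2 h3).2 hc)
  obtain ⟨hA, hB⟩ := Fermat.Agent.TW.S.stmtAdLevel p (ResidueField 𝒪) ρbar _ hpT hunr
  haveI : Finite (ad0Rep p ρbar).V := casm_finite_ad0 p ρbar
  haveI hAfd : FiniteDimensional (ZMod p) (ad0Rep p ρbar).V := Module.Finite.of_finite
  let D : PTDatum p GQ ↥(primesOf (Smin ∪ Q)) (GlocS (primesOf (Smin ∪ Q))) :=
    concreteDatum p hp2 _ hpT
      (Fermat.Agent.PT.B.stmtCmGlob_of_GA Fermat.Agent.PT.G3.stmtGA_B)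
      Fermat.Agent.PT.B.stmtCmLoc
      Fermat.Agent.PT.B.stmtH90Loc
      (Fermat.Agent.PT.B.stmtExistC_of_GA Fermat.Agent.PT.G3.stmtGA_B
        Fermat.Agent.PT.X.stmtExistTL)
      (Fermat.Agent.PT.B.stmtSurvC_of_GB
        (Fermat.Agent.PT.B.stmtGB_of_sdShapiro Fermat.Agent.PT.G3.stmtSDShapiro))
  haveI hfinlev : Finite ↥(levH1 D.𝒯 (ad0Rep p ρbar)) :=
    Fermat.Agent.TW.F.stmtGloFin p GQ _ _ D (ad0Rep p ρbar) hA
  have hle : selGroup p ρbar Smin Lp (primesOf (Smin ∪ Q)) ≤ levH1 D.𝒯 (ad0Rep p ρbar) :=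
    inf_le_left
  exact Finite.of_injective (Submodule.inclusion hle) (Submodule.inclusion_injective hle)

end

/-- **DC-T (flat)**: the tangent space of `twFlat 𝒪 p Smin Q` is finite. -/
theorem s59dct_stmtTanFlat : s59dc_StmtTanFlat := by
  intro 𝒪 _ _ _ _ _ p _ ρbar S Smin hyp Q hQ
  haveI : CharP (ResidueField 𝒪) p := casm_charP p hyp.hp𝒪
  obtain ⟨D₀⟩ := nonempty_rigidDatum (𝒪 := 𝒪) ρbar hyp.habs
  have hsfin := s59dct_sel_finite p ρbar S Smin hyp Q (flatH1 p D₀)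
  have hcard : TwTanCard 𝒪 ρbar (twFlat 𝒪 p Smin Q)
      (Nat.card ↥(selGroup p ρbar Smin (flatH1 p D₀) (primesOf (Smin ∪ Q)))) :=
    Fermat.Agent.TW.S.stmtSelCardFlat 𝒪 p ρbar D₀ hyp.hp2 Smin Q hyp.hpSmin hyp.hmin
      (flatH1 p D₀) (fun ρ c hc hdet hflat => flatClass_mem_flatH1 p D₀ ρ c hc hdet hflat) hsfin
  exact s59dct_tangentFinite_of_card hcard

/-- **DC-T (ordinary)**: the tangent space of `twOrd 𝒪 p Smin Q` is finite. -/
theorem s59dct_stmtTanOrd : s59dc_StmtTanOrd := by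
  intro 𝒪 _ _ _ _ _ p _ ρbar S Smin hyp Q hQ
  haveI : CharP (ResidueField 𝒪) p := casm_charP p hyp.hp𝒪
  letI : Algebra (ZMod p) (ResidueField 𝒪) := ZMod.algebra (ResidueField 𝒪) p
  by_cases hex : ∃ Lbar : Submodule (ResidueField 𝒪) ρbar.V, IsStrictOrdLine p ρbar Lbar
  · obtain ⟨Lbar, hLbar⟩ := hex
    have hsfin := s59dct_sel_finite p ρbar S Smin hyp Q (ordH1 p ρbar Lbar p)
    have hcard : TwTanCard 𝒪 ρbar (twOrd 𝒪 p Smin Q)
        (Nat.card ↥(selGroup p ρbar Smin (ordH1 p ρbar Lbar p) (primesOf (Smin ∪ Q)))) :=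
      Fermat.Agent.TW.S.stmtSelCardOrd 𝒪 p ρbar hyp.hp2 hyp.habs Smin Q hyp.hpSmin hyp.hmin
        Lbar hLbar.1 hsfin
    exact s59dct_tangentFinite_of_card hcard
  · have hcard : TwTanCard 𝒪 ρbar (twOrd 𝒪 p Smin Q) 0 :=
      casm_twTanCard_of_isEmpty (fun t => hex (by
        obtain ⟨ρ, h𝒟, hresid⟩ := t
        exact Fermat.Agent.TW.S.stmtResStrict 𝒪 p ρbar ρ hresid h𝒟.1.2.1)) 0
    exact s59dct_tangentFinite_of_card hcard

section

variable (𝒪 : Type) [CommRing 𝒪] [IsDomain 𝒪] [IsDiscreteValuationRing 𝒪]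
  [IsAdicComplete (maximalIdeal 𝒪) 𝒪] [Finite (ResidueField 𝒪)]

/-- **Existence of `D_Σ`, flat case**, with DC-T plugged in (open inputs: DC-F and DC-B). -/
theorem s59dct_exists_flat (hC : s59dc_StmtCondFlat)
    (p : ℕ) [Fact p.Prime] (ρbar : ResidualGaloisRep (ResidueField 𝒪)) (S Smin : Finset ℕ)
    (h : TWHyp 𝒪 p ρbar S Smin) (Q : Finset ℕ) (hQ : ∀ q ∈ Q, q.Prime)
    (hbar : twFlat 𝒪 p Smin Q (GaloisRepAdic.ofResidualGaloisRep ρbar)) :
    Nonempty (GaloisRep.DeformationRingData 𝒪 ρbar (twFlat 𝒪 p Smin Q)) :=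
  s59dc_exists_flat 𝒪 hC s59dct_stmtTanFlat p ρbar S Smin h Q hQ hbar

/-- **Existence of `D_Σ`, ordinary case**, with DC-T plugged in (open inputs: DC-O and DC-B). -/
theorem s59dct_exists_ord (hC : s59dc_StmtCondOrd)
    (p : ℕ) [Fact p.Prime] (ρbar : ResidualGaloisRep (ResidueField 𝒪)) (S Smin : Finset ℕ)
    (h : TWHyp 𝒪 p ρbar S Smin) (Q : Finset ℕ) (hQ : ∀ q ∈ Q, q.Prime)
    (hbar : twOrd 𝒪 p Smin Q (GaloisRepAdic.ofResidualGaloisRep ρbar)) :
    Nonempty (GaloisRep.DeformationRingData 𝒪 ρbar (twOrd 𝒪 p Smin Q)) :=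
  s59dc_exists_ord 𝒪 hC s59dct_stmtTanOrd p ρbar S Smin h Q hQ hbar

end

end Fermat.Agent.S59

end
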