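/-
S59, wall DEF-COND, **FINAL WIRING** (helper63): the universal rings `D_Q` EXIST, unconditionally.

DC-F ✓ (`s59dcc_stmtCondFlat`), DC-O ✓ (`s59dcc_stmtCondOrd`), DC-T ✓ (`s59dct_stmtTanFlat`,
`s59dct_stmtTanOrd`), DC-B ✓ (`s59dcb_flat`, `s59dcb_ord`) and S53 ✓ give

* `s59dcfin_bar_flat`, `s59dcfin_bar_ord` : `ρ̄` of type `(Smin, Σ')` is of type `(Smin, Q)` for
  EVERY `Q` (the primes outside `Smin` are unramified for `ρ̄`, by `TWHyp.hmin`);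
* **`s59dcfin_hD_flat`** : the conjunct `hD` (a6) of `s59topb_StmtOwedGood'` (S59/TopBase.lean),
  `∀ Q ⊆ Σ_W, Nonempty (DeformationRingData 𝒪 ρ̄_W (twFlat 𝒪 p Smin Q))`;
* **`s59dcfin_hD_ord`** : the same for `twOrd` (`W` bad at `p`).
-/
import Fermat.Agent.S59.DefCond.Bar
import Fermat.Agent.S59.DefCond.Tan
import Fermat.Agent.S59.DefCond.CondFlatFinal
import Fermat.Agent.S59.DefCond.CondOrdFinal
import Fermat.Agent.S59.FinEHyp

set_option autoImplicit false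
set_option linter.style.haveILetI false
set_option linter.style.longLine false
set_option linter.unusedSectionVars false
set_option linter.unusedVariables false

noncomputable section

namespace Fermat.Agent.S59

open IsLocalRing Polynomial Fermat.Agent.TW Fermat.Agent.EC

section Gen

variable {𝒪 : Type} [CommRing 𝒪] [IsDomain 𝒪] [IsDiscreteValuationRing 𝒪]
  [IsAdicComplete (maximalIdeal 𝒪) 𝒪] [Finite (ResidueField 𝒪)]

/-- the residual representation is unramified outside `Smin`, as a `GaloisRepAdic` -/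
theorem s59dcfin_unr (p : ℕ) [Fact p.Prime] (ρbar : ResidualGaloisRep (ResidueField 𝒪))
    (S Smin : Finset ℕ) (h : TWHyp 𝒪 p ρbar S Smin) (Q : Finset ℕ) (q : ℕ) (hq : q.Prime)
    (hqS : q ∉ Smin ∪ Q) : (GaloisRepAdic.ofResidualGaloisRep ρbar).IsUnramifiedAt q := by
  have h2 : q ∉ Smin := fun hm => hqS (Finset.mem_union_left _ hm)
  have h3 : q ≠ p := fun he => h2 (he ▸ h.hpSmin)
  have h4 : ρbar.IsUnramifiedAt q := by
    by_contra hc
    exact h2 ((h.hmin q hq h3).2 hc)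
  exact h4

/-- `ρ̄` of flat type `(Smin, Q')` is of flat type `(Smin, Q)` for every `Q`. -/
theorem s59dcfin_bar_flat (p : ℕ) [Fact p.Prime] (ρbar : ResidualGaloisRep (ResidueField 𝒪))
    (S Smin : Finset ℕ) (h : TWHyp 𝒪 p ρbar S Smin) (Q' Q : Finset ℕ)
    (hbar : twFlat 𝒪 p Smin Q' (GaloisRepAdic.ofResidualGaloisRep ρbar)) :
    twFlat 𝒪 p Smin Q (GaloisRepAdic.ofResidualGaloisRep ρbar) :=
  ⟨⟨hbar.1.1, hbar.1.2.1, fun q hq hqS => s59dcfin_unr p ρbar S Smin h Q q hq hqS⟩, hbar.2⟩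

/-- `ρ̄` of strictly ordinary type `(Smin, Q')` is of strictly ordinary type `(Smin, Q)` for every
`Q`. -/
theorem s59dcfin_bar_ord (p : ℕ) [Fact p.Prime] (ρbar : ResidualGaloisRep (ResidueField 𝒪))
    (S Smin : Finset ℕ) (h : TWHyp 𝒪 p ρbar S Smin) (Q' Q : Finset ℕ)
    (hbar : twOrd 𝒪 p Smin Q' (GaloisRepAdic.ofResidualGaloisRep ρbar)) :
    twOrd 𝒪 p Smin Q (GaloisRepAdic.ofResidualGaloisRep ρbar) :=
  ⟨⟨hbar.1.1, hbar.1.2.1, fun q hq hqS => s59dcfin_unr p ρbar S Smin h Q q hq hqS⟩, hbar.2⟩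

/-- **Existence of `D_Q`, flat case**, from `hbar` for SOME `Q'`. -/
theorem s59dcfin_exists_flat (p : ℕ) [Fact p.Prime]
    (ρbar : ResidualGaloisRep (ResidueField 𝒪)) (S Smin : Finset ℕ)
    (h : TWHyp 𝒪 p ρbar S Smin) (Q' : Finset ℕ)
    (hbar : twFlat 𝒪 p Smin Q' (GaloisRepAdic.ofResidualGaloisRep ρbar))
    (Q : Finset ℕ) (hQ : ∀ q ∈ Q, q.Prime) :
    Nonempty (GaloisRep.DeformationRingData 𝒪 ρbar (twFlat 𝒪 p Smin Q)) :=
  s59dc_exists_flat 𝒪 s59dcc_stmtCondFlat s59dct_stmtTanFlat p ρbar S Smin h Q hQ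
    (s59dcfin_bar_flat p ρbar S Smin h Q' Q hbar)

/-- **Existence of `D_Q`, ordinary case**, from `hbar` for SOME `Q'`. -/
theorem s59dcfin_exists_ord (p : ℕ) [Fact p.Prime]
    (ρbar : ResidualGaloisRep (ResidueField 𝒪)) (S Smin : Finset ℕ)
    (h : TWHyp 𝒪 p ρbar S Smin) (Q' : Finset ℕ)
    (hbar : twOrd 𝒪 p Smin Q' (GaloisRepAdic.ofResidualGaloisRep ρbar))
    (Q : Finset ℕ) (hQ : ∀ q ∈ Q, q.Prime) :
    Nonempty (GaloisRep.DeformationRingData 𝒪 ρbar (twOrd 𝒪 p Smin Q)) :=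
  s59dc_exists_ord 𝒪 s59dcc_stmtCondOrd s59dct_stmtTanOrd p ρbar S Smin h Q hQ
    (s59dcfin_bar_ord p ρbar S Smin h Q' Q hbar)

end Gen

section Curve

variable (W : WeierstrassCurve ℤ) (hΔ : W.Δ ≠ 0) (p : ℕ) [hp : Fact p.Prime]
variable {𝒪 : Type} [CommRing 𝒪] [IsDomain 𝒪] [IsDiscreteValuationRing 𝒪]
  [IsAdicComplete (maximalIdeal 𝒪) 𝒪] [Finite (ResidueField 𝒪)]
  (φ : ℤ_[p] →+* 𝒪) (hφ : IsLocalHom φ)

/-- **DEF-COND (a6)**: the conjunct `hD` of `s59topb_StmtOwedGood'`, `W` good at `p`. -/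
theorem s59dcfin_hD_flat (hp35 : p = 3 ∨ p = 5)
    (hK : ∀ (ψ : ZMod p →+* ResidueField 𝒪) (f : (ZMod p)[X]), f.Monic → f.natDegree = 2 →
      ∃ α β : ResidueField 𝒪, f.map ψ = (X - C α) * (X - C β))
    (hss : W.IsSemistableModel) (hirr : W.ModRepIsIrreducible p) (hgood : W.IsGoodPrimeFor p) :
    ∀ Q : Finset ℕ, Q ⊆ s59feSigma W hΔ p →
      Nonempty (GaloisRep.DeformationRingData 𝒪 (s59feBar W hΔ p φ hφ)
        (twFlat 𝒪 p (s59feSmin W hΔ p) Q)) := by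
  intro Q hQ
  have hTW := s59fe_twHyp_union W hΔ p φ hφ hp35 hK hss hirr
  exact s59dcfin_exists_flat p _ _ _ hTW (s59feSigma W hΔ p)
    (s59dcb_flat W hΔ p φ hφ s59dcc_stmtCondFlat hss hTW.hp2 hgood) Q
    (fun q hq => s59fe_prime_of_mem_Sigma W hΔ p (hQ hq))

/-- **DEF-COND, ordinary twin**: `W` bad at `p`. -/
theorem s59dcfin_hD_ord (hp35 : p = 3 ∨ p = 5)
    (hK : ∀ (ψ : ZMod p →+* ResidueField 𝒪) (f : (ZMod p)[X]), f.Monic → f.natDegree = 2 →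
      ∃ α β : ResidueField 𝒪, f.map ψ = (X - C α) * (X - C β))
    (hss : W.IsSemistableModel) (hirr : W.ModRepIsIrreducible p) (hbad : (p : ℤ) ∣ W.Δ) :
    ∀ Q : Finset ℕ, Q ⊆ s59feSigma W hΔ p →
      Nonempty (GaloisRep.DeformationRingData 𝒪 (s59feBar W hΔ p φ hφ)
        (twOrd 𝒪 p (s59feSmin W hΔ p) Q)) := by
  intro Q hQ
  have hTW := s59fe_twHyp_union W hΔ p φ hφ hp35 hK hss hirr
  exact s59dcfin_exists_ord p _ _ _ hTW (s59feSigma W hΔ p)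
    (s59dcb_ord W hΔ p φ hφ s59dcc_stmtCondOrd hss hp35 hbad) Q
    (fun q hq => s59fe_prime_of_mem_Sigma W hΔ p (hQ hq))

end Curve

end Fermat.Agent.S59

end
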