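/-
S59, walls DEF-COND / M5 (DC-P), leaf **DC-T, generic form** (helper63).

`TangentFinite` needs no numerology: EVERY condition `𝒟` which (on `k[ε]`) implies
`det = χ_p`, "unramified outside `Smin ∪ Q`" and "unipotent on inertia at the primes `q ≠ p` of
`Smin`" has a finite tangent space (TW-S `sasm_main` with the local condition `Lp = ⊤` at `p`, and
the finiteness of the Selmer group `s59dct_sel_finite`).

* `s59dct_tangentFinite_gen` : the generic statement;
* `s59dct_tanPs` : `TangentFinite 𝒪 ρ̄ (s59psCond 𝒪 p Smin Sg)` for every `Sg`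
  (= the `TangentFinite` half of DC-P, wall M5);
* `s59dct_tanMinOrd`, `s59dct_tanOrdinary` : the same for the prelude conditions
  `GaloisRep.minimalOrdinaryCondition`-style conjunctions used by the twins.
-/
import Fermat.Agent.S59.DefCond.Tan
import Fermat.Agent.S59.PStep.Plan

set_option autoImplicit false
set_option linter.style.longLine false
set_option linter.unusedVariables false
set_option linter.unusedSectionVars false
set_option linter.style.haveILetI false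

noncomputable section

namespace Fermat.Agent.S59

open CategoryTheory groupCohomology IsLocalRing Module
open Fermat.Agent.PT Fermat.Agent.PT.B Fermat.Agent.PT.F Fermat.Agent.S53
open Fermat.Agent.TW Fermat.Agent.TW.S Fermat.Agent.TW.L Fermat.Agent.TW.F Fermat.Agent.TW.E
open Fermat.Agent.TW.W Fermat.Agent.TW.Core
open ExtCitation

section

variable {𝒪 : Type} [CommRing 𝒪] [IsDomain 𝒪] [IsDiscreteValuationRing 𝒪]
  [IsAdicComplete (maximalIdeal 𝒪) 𝒪] [Finite (ResidueField 𝒪)]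

/-- **DC-T, generic form.** -/
theorem s59dct_tangentFinite_gen (p : ℕ) [Fact p.Prime]
    (ρbar : ResidualGaloisRep (ResidueField 𝒪)) (S Smin : Finset ℕ)
    (hyp : TWHyp 𝒪 p ρbar S Smin) (Q : Finset ℕ)
    (𝒟 : ∀ ⦃A : Type⦄ [CommRing A] [IsLocalRing A] [Algebra 𝒪 A], GaloisRepAdic A → Prop)
    (h𝒟det : ∀ ρ : GaloisRepAdic (DualNumber (ResidueField 𝒪)),
      @𝒟 (DualNumber (ResidueField 𝒪)) _ _ (dnAlg 𝒪) ρ → ρ.DetIsCyclotomic p)
    (h𝒟unr : ∀ ρ : GaloisRepAdic (DualNumber (ResidueField 𝒪)),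
      @𝒟 (DualNumber (ResidueField 𝒪)) _ _ (dnAlg 𝒪) ρ →
      ∀ q : ℕ, q.Prime → q ∉ Smin ∪ Q → ρ.IsUnramifiedAt q)
    (h𝒟min : ∀ ρ : GaloisRepAdic (DualNumber (ResidueField 𝒪)),
      @𝒟 (DualNumber (ResidueField 𝒪)) _ _ (dnAlg 𝒪) ρ →
      ∀ q ∈ Smin, q.Prime → q ≠ p → ρ.IsUnipotentOnInertiaAt q) :
    GaloisRep.TangentFinite 𝒪 ρbar 𝒟 := by
  haveI : CharP (ResidueField 𝒪) p := casm_charP p hyp.hp𝒪
  obtain ⟨D₀⟩ := nonempty_rigidDatum (𝒪 := 𝒪) ρbar hyp.habs
  have hsfin := s59dct_sel_finite p ρbar S Smin hyp Q ⊤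
  exact s59dct_tangentFinite_of_card
    (sasm_main p D₀ hyp.hp2 Smin Q hyp.hmin ⊤ 𝒟 h𝒟det h𝒟unr h𝒟min
      (fun _ _ _ _ => Submodule.mem_top) hsfin)

/-- **DC-P, the `TangentFinite` half** (wall M5): the tangent space of the non-strict ordinary
condition `s59psCond 𝒪 p Smin Sg` of the `p`-step is finite, for every `Sg`. -/
theorem s59dct_tanPs (p : ℕ) [Fact p.Prime]
    (ρbar : ResidualGaloisRep (ResidueField 𝒪)) (S Smin : Finset ℕ)
    (hyp : TWHyp 𝒪 p ρbar S Smin) (Sg : Finset ℕ) :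
    GaloisRep.TangentFinite 𝒪 ρbar (s59psCond 𝒪 p Smin Sg) :=
  s59dct_tangentFinite_gen p ρbar S Smin hyp Sg (s59psCond 𝒪 p Smin Sg)
    (fun ρ h => h.1.1) (fun ρ h => h.1.2.2) (fun ρ h => h.2.2)

/-- the prelude condition `minimalOrdinaryCondition`-shape with the minimal primes `Smin` and the
extra primes `Q` has a finite tangent space -/
theorem s59dct_tanOrdinary (p : ℕ) [Fact p.Prime]
    (ρbar : ResidualGaloisRep (ResidueField 𝒪)) (S Smin : Finset ℕ)
    (hyp : TWHyp 𝒪 p ρbar S Smin) (Q : Finset ℕ) :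
    GaloisRep.TangentFinite 𝒪 ρbar (fun ⦃A : Type⦄ [CommRing A] [IsLocalRing A] [Algebra 𝒪 A]
      (ρ : GaloisRepAdic A) => GaloisRep.ordinaryCondition 𝒪 p (Smin ∪ Q) ρ ∧
        ∀ q ∈ Smin, q.Prime → q ≠ p → ρ.IsUnipotentOnInertiaAt q) :=
  s59dct_tangentFinite_gen p ρbar S Smin hyp Q _
    (fun ρ h => h.1.1) (fun ρ h => h.1.2.2) (fun ρ h => h.2)

end

end Fermat.Agent.S59

end
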