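/-
S59, wall M5 = P-STEP, DEF-COND for the `p`-step, **FINAL WIRING** (helper94): the universal rings
of the NON-STRICT ordinary conditions `s59psCond 𝒪 p Smin Sg` EXIST.

DC-P cond ✓ (`s59dcpt_cond`, helper94 + helper76), DC-P tangent ✓ (`s59dct_tanPs`, helper63) and
S53 ✓ give

* `s59dcfinp_bar`    : `ρ̄` of type `s59psCond … Sg'` with `p ∉ Sg'` (i.e. `ρ̄` peu ramifié at `p`:
                       the CASE HYPOTHESIS of case (c)) is of type `s59psCond … Sg` for EVERY `Sg`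
                       (`ρ̄` is unramified outside `Smin`, by `TWHyp.hmin`);
* `s59dcfinp_bar'`   : the same from `p ∈ Sg` (no peu hypothesis is needed then);
* **`s59dcfinp_exists`** : `Nonempty (DeformationRingData 𝒪 ρ̄ (s59psCond 𝒪 p Smin Sg))` from
                       `hbar` at `Sg`;
* **`s59dcfinp_exists_all`** : the same for EVERY `Sg`, from `hbar` at ONE `Sg'` with `p ∉ Sg'`;
* `s59dcfinp_feBar`  : `hbar` for `ρ̄_{W,p}`, `W` bad at `p` and `ρ̄_{W,p}` peu ramifié at `p`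
                       (DC-B ✓ `s59dcb_ord` + the case hypothesis of case (c));
* **`s59dcfinp_hD`** : the (DEF-COND) clause of `s59pstc_StmtOwedC` (S59/PStep/StagesC.lean):
                       `∀ Q ⊆ s59psfinSW W hΔ p, Nonempty (DeformationRingData 𝒪 ρ̄_W (s59psCond … Q))`.
-/
import Fermat.Agent.S59.DefCond.CondPFinal
import Fermat.Agent.S59.DefCond.TanGen
import Fermat.Agent.S59.DefCond.Final
import Fermat.Agent.S59.PStep.FinP

set_option autoImplicit false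
set_option linter.style.longLine false
set_option linter.unusedSectionVars false
set_option linter.unusedVariables false

noncomputable section

namespace Fermat.Agent.S59

open IsLocalRing Polynomial Fermat.Agent.TW Fermat.Agent.EC

section

variable {𝒪 : Type} [CommRing 𝒪] [IsDomain 𝒪] [IsDiscreteValuationRing 𝒪]
  [IsAdicComplete (maximalIdeal 𝒪) 𝒪] [Finite (ResidueField 𝒪)]

/-- the residual representation is unramified outside `Smin` -/
theorem s59dcfinp_unr (p : ℕ) [Fact p.Prime] (ρbar : ResidualGaloisRep (ResidueField 𝒪))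
    (S Smin : Finset ℕ) (h : TWHyp 𝒪 p ρbar S Smin) (Sg : Finset ℕ) (q : ℕ) (hq : q.Prime)
    (hqS : q ∉ Smin ∪ Sg) : (GaloisRepAdic.ofResidualGaloisRep ρbar).IsUnramifiedAt q := by
  have h2 : q ∉ Smin := fun hm => hqS (Finset.mem_union_left _ hm)
  have h3 : q ≠ p := fun he => h2 (he ▸ h.hpSmin)
  have h4 : ρbar.IsUnramifiedAt q := by
    by_contra hc
    exact h2 ((h.hmin q hq h3).2 hc)
  exact h4

/-- `ρ̄` of type `Sg'`, `p ∉ Sg'` (peu ramifié at `p`), is of type `Sg` for every `Sg`. -/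
theorem s59dcfinp_bar (p : ℕ) [Fact p.Prime] (ρbar : ResidualGaloisRep (ResidueField 𝒪))
    (S Smin : Finset ℕ) (h : TWHyp 𝒪 p ρbar S Smin) (Sg' Sg : Finset ℕ) (hp : p ∉ Sg')
    (hbar : s59psCond 𝒪 p Smin Sg' (GaloisRepAdic.ofResidualGaloisRep ρbar)) :
    s59psCond 𝒪 p Smin Sg (GaloisRepAdic.ofResidualGaloisRep ρbar) :=
  ⟨⟨hbar.1.1, hbar.1.2.1, fun q hq hqS => s59dcfinp_unr p ρbar S Smin h Sg q hq hqS⟩,
    fun _ => hbar.2.1 hp, hbar.2.2⟩

/-- `ρ̄` of type `Sg'` is of type `Sg` for every `Sg ∋ p`. -/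
theorem s59dcfinp_bar' (p : ℕ) [Fact p.Prime] (ρbar : ResidualGaloisRep (ResidueField 𝒪))
    (S Smin : Finset ℕ) (h : TWHyp 𝒪 p ρbar S Smin) (Sg' Sg : Finset ℕ) (hp : p ∈ Sg)
    (hbar : s59psCond 𝒪 p Smin Sg' (GaloisRepAdic.ofResidualGaloisRep ρbar)) :
    s59psCond 𝒪 p Smin Sg (GaloisRepAdic.ofResidualGaloisRep ρbar) :=
  ⟨⟨hbar.1.1, hbar.1.2.1, fun q hq hqS => s59dcfinp_unr p ρbar S Smin h Sg q hq hqS⟩,
    fun hp' => absurd hp hp', hbar.2.2⟩

/-- `ρ̄` ordinary with cyclotomic determinant, unipotent on `Smin`, and peu ramifié at `p` is of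
type `Sg` for every `Sg`. -/
theorem s59dcfinp_bar_of (p : ℕ) [Fact p.Prime] (ρbar : ResidualGaloisRep (ResidueField 𝒪))
    (S Smin : Finset ℕ) (h : TWHyp 𝒪 p ρbar S Smin) (Sg : Finset ℕ)
    (hdet : (GaloisRepAdic.ofResidualGaloisRep ρbar).DetIsCyclotomic p)
    (hord : (GaloisRepAdic.ofResidualGaloisRep ρbar).IsOrdinaryAt p)
    (hpeu : p ∉ Sg → s59psPeuTriv (GaloisRepAdic.ofResidualGaloisRep ρbar) p)
    (hunip : ∀ q ∈ Smin, q.Prime → q ≠ p →
      (GaloisRepAdic.ofResidualGaloisRep ρbar).IsUnipotentOnInertiaAt q) :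
    s59psCond 𝒪 p Smin Sg (GaloisRepAdic.ofResidualGaloisRep ρbar) :=
  ⟨⟨hdet, hord, fun q hq hqS => s59dcfinp_unr p ρbar S Smin h Sg q hq hqS⟩, hpeu, hunip⟩

/-- **Existence of the universal ring of `s59psCond 𝒪 p Smin Sg`** (S53 ✓ + DC-P). -/
theorem s59dcfinp_exists (p : ℕ) [Fact p.Prime]
    (ρbar : ResidualGaloisRep (ResidueField 𝒪)) (S Smin : Finset ℕ)
    (h : TWHyp 𝒪 p ρbar S Smin) (Sg : Finset ℕ)
    (hbar : s59psCond 𝒪 p Smin Sg (GaloisRepAdic.ofResidualGaloisRep ρbar)) :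
    Nonempty (GaloisRep.DeformationRingData 𝒪 ρbar (s59psCond 𝒪 p Smin Sg)) :=
  Fermat.Agent.S53.result 𝒪 ρbar (s59psCond 𝒪 p Smin Sg) h.habs
    (s59dcpt_cond p h.hp2 h.hp𝒪 Smin Sg) hbar (s59dct_tanPs p ρbar S Smin h Sg)

/-- **Existence for every `Sg`**, from `hbar` at one `Sg'` with `p ∉ Sg'` (case (c): `ρ̄` is peu
ramifié at `p`). -/
theorem s59dcfinp_exists_all (p : ℕ) [Fact p.Prime]
    (ρbar : ResidualGaloisRep (ResidueField 𝒪)) (S Smin : Finset ℕ)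
    (h : TWHyp 𝒪 p ρbar S Smin) (Sg' : Finset ℕ) (hp : p ∉ Sg')
    (hbar : s59psCond 𝒪 p Smin Sg' (GaloisRepAdic.ofResidualGaloisRep ρbar)) (Sg : Finset ℕ) :
    Nonempty (GaloisRep.DeformationRingData 𝒪 ρbar (s59psCond 𝒪 p Smin Sg)) :=
  s59dcfinp_exists p ρbar S Smin h Sg (s59dcfinp_bar p ρbar S Smin h Sg' Sg hp hbar)

/-- **Existence for every `Sg ∋ p`**, from `hbar` at ANY `Sg'` (no peu hypothesis). -/
theorem s59dcfinp_exists_of_mem (p : ℕ) [Fact p.Prime]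
    (ρbar : ResidualGaloisRep (ResidueField 𝒪)) (S Smin : Finset ℕ)
    (h : TWHyp 𝒪 p ρbar S Smin) (Sg' : Finset ℕ)
    (hbar : s59psCond 𝒪 p Smin Sg' (GaloisRepAdic.ofResidualGaloisRep ρbar)) (Sg : Finset ℕ)
    (hp : p ∈ Sg) :
    Nonempty (GaloisRep.DeformationRingData 𝒪 ρbar (s59psCond 𝒪 p Smin Sg)) :=
  s59dcfinp_exists p ρbar S Smin h Sg (s59dcfinp_bar' p ρbar S Smin h Sg' Sg hp hbar)

end

section Curve

variable (W : WeierstrassCurve ℤ) (hΔ : W.Δ ≠ 0) (p : ℕ) [hp : Fact p.Prime]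
variable {𝒪 : Type} [CommRing 𝒪] [IsDomain 𝒪] [IsDiscreteValuationRing 𝒪]
  [IsAdicComplete (maximalIdeal 𝒪) 𝒪] [Finite (ResidueField 𝒪)]
  (φ : ℤ_[p] →+* 𝒪) (hφ : IsLocalHom φ)

/-- **`hbar` of DC-P for `ρ̄_{W,p}`** (case (c)): `W` bad at `p` and `ρ̄_{W,p}` peu ramifié at `p`
⇒ `ρ̄_{W,p}` is of type `s59psCond 𝒪 p Smin Σ_W` (`p ∉ Σ_W`). -/
theorem s59dcfinp_feBar (hss : W.IsSemistableModel) (hp35 : p = 3 ∨ p = 5)
    (hbad : (p : ℤ) ∣ W.Δ)
    (hpeu : s59psPeuTriv (GaloisRepAdic.ofResidualGaloisRep (s59feBar W hΔ p φ hφ)) p) :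
    s59psCond 𝒪 p (s59feSmin W hΔ p) (s59feSigma W hΔ p)
      (GaloisRepAdic.ofResidualGaloisRep (s59feBar W hΔ p φ hφ)) := by
  have h := s59dcb_ord W hΔ p φ hφ s59dcc_stmtCondOrd hss hp35 hbad
  exact ⟨GaloisRep.ordinaryCondition_of_strictOrdinaryCondition h.1, fun _ => hpeu, h.2⟩

/-- **DEF-COND for the `p`-step**: the (DEF-COND) clause of `s59pstc_StmtOwedC`. -/
theorem s59dcfinp_hD (hp35 : p = 3 ∨ p = 5)
    (hK : ∀ (ψ : ZMod p →+* ResidueField 𝒪) (f : (ZMod p)[X]), f.Monic → f.natDegree = 2 →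
      ∃ α β : ResidueField 𝒪, f.map ψ = (X - C α) * (X - C β))
    (hss : W.IsSemistableModel) (hirr : W.ModRepIsIrreducible p) (hbad : (p : ℤ) ∣ W.Δ)
    (hpeu : s59psPeuTriv (GaloisRepAdic.ofResidualGaloisRep (s59feBar W hΔ p φ hφ)) p) :
    ∀ Q : Finset ℕ, Q ⊆ s59psfinSW W hΔ p →
      Nonempty (GaloisRep.DeformationRingData 𝒪 (s59feBar W hΔ p φ hφ)
        (s59psCond 𝒪 p (s59feSmin W hΔ p) Q)) := by
  intro Q _
  have hTW := s59fe_twHyp_union W hΔ p φ hφ hp35 hK hss hirr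
  have hpSig : p ∉ s59feSigma W hΔ p := fun h =>
    Finset.disjoint_left.1 (s59fe_disjoint W hΔ p) (s59fe_p_mem_Smin W hΔ p) h
  exact s59dcfinp_exists_all p _ _ _ hTW (s59feSigma W hΔ p) hpSig
    (s59dcfinp_feBar W hΔ p φ hφ hss hp35 hbad hpeu) Q

end Curve

end Fermat.Agent.S59

end
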