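/-
S59, wall DEF-COND, leaf **DC-O** (helper76), sub-lemma for the top (asked by helper94):
strict ordinarity is invariant under equivalence of representations (transport of the line `L`
and of the basis `b` along the equivalence).
-/
import Mathlib
import Fermat.Prelude.Def_GaloisRep_StrictOrdinary

set_option autoImplicit false
set_option linter.style.longLine false
set_option linter.unusedVariables false
set_option linter.unusedSectionVars false

namespace Fermat.Agent.S59

/-- **`IsStrictOrdinaryAt` is invariant under equivalence.** -/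
theorem s59dco_isEquiv {A : Type} [CommRing A] [IsLocalRing A] {ρ ρ' : GaloisRepAdic A} (p : ℕ)
    (he : ρ.IsEquiv ρ') (h : ρ.IsStrictOrdinaryAt p) : ρ'.IsStrictOrdinaryAt p := by
  obtain ⟨e⟩ := he
  refine ⟨h.1, fun P hP => ?_⟩
  obtain ⟨L, ⟨b, hb⟩, hD, hI, hS⟩ := h.2 P hP
  have hmem : ∀ v ∈ L, e.toLinearEquiv v ∈ L.map (e.toLinearEquiv : ρ.V →ₗ[A] ρ'.V) :=
    fun v hv => Submodule.mem_map_of_mem hv
  have hsymm : ∀ v' : ρ'.V, e.toLinearEquiv (e.toLinearEquiv.symm v') = v' :=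
    fun v' => e.toLinearEquiv.apply_symm_apply v'
  refine ⟨L.map (e.toLinearEquiv : ρ.V →ₗ[A] ρ'.V), ⟨b.map e.toLinearEquiv, ?_⟩, ?_, ?_, ?_⟩
  · rw [hb, Submodule.map_span, Set.image_singleton, Module.Basis.map_apply]
    rfl
  · intro σ hσ v' hv'
    obtain ⟨v, hv, rfl⟩ := Submodule.mem_map.1 hv'
    have h1 : ρ'.ρ σ (e.toLinearEquiv v) = e.toLinearEquiv (ρ.ρ σ v) := (e.map_apply σ v).symm
    rw [LinearEquiv.coe_coe, h1]
    exact hmem _ (hD σ hσ v hv)
  · intro σ hσ v'
    have h1 : ρ'.ρ σ v' - v' = e.toLinearEquiv (ρ.ρ σ (e.toLinearEquiv.symm v') -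
        e.toLinearEquiv.symm v') := by
      rw [map_sub, e.map_apply, hsymm]
    rw [h1]
    exact hmem _ (hI σ hσ _)
  · intro σ hσ
    obtain ⟨x, z, hx, hz, hxz⟩ := hS σ hσ
    refine ⟨x, z, ?_, ?_, hxz⟩
    · intro w' hw'
      obtain ⟨w, hw, rfl⟩ := Submodule.mem_map.1 hw'
      have h1 : ρ'.ρ σ (e.toLinearEquiv w) = e.toLinearEquiv (ρ.ρ σ w) := (e.map_apply σ w).symm
      rw [LinearEquiv.coe_coe, h1, hx w hw, map_smul]
    · intro v'
      have h1 : ρ'.ρ σ v' - z • v' = e.toLinearEquiv (ρ.ρ σ (e.toLinearEquiv.symm v') -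
          z • e.toLinearEquiv.symm v') := by
        rw [map_sub, e.map_apply, map_smul, hsymm]
      rw [h1]
      exact hmem _ (hz _)

end Fermat.Agent.S59
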