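/-
S59, wall M5, leaf **DC-P (COND)** (top: helper94), the algebra lemma (helper76):
an ordinary line `L` (module form of the prelude's `IsOrdinaryAt`) together with
`det ρ(σ0) ≡ 2 mod p` for some `σ0 ∈ I ∩ D` gives the module form `s59dco_SO` of strict ordinarity
for the relation `cyc σ n a := (σ = σ0 ∧ n = 1 ∧ a = 2)`.

`x :=` the coefficient of `ρ σ (b 0)`, `z :=` the `b 1`-coefficient of `ρ σ (b 1)`; `z (σ0) = 1` by
the inertia clause and `det ρ(σ0) = x0 * 1`, so `x0 - 2 * z0 = det - 2 ∈ (p ^ 1)`.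
-/
import Fermat.Agent.S59.DefCond.OrdAlg2

set_option autoImplicit false
set_option linter.style.longLine false
set_option linter.unusedVariables false
set_option linter.unusedSectionVars false

noncomputable section

namespace Fermat.Agent.S59

theorem s59dcp_SO_of_ord {R : Type} [CommRing R] [IsLocalRing R] {G M : Type} [AddCommGroup M]
    [Module R M]
    (ρ : G → Module.End R M) (σ0 : G) (D I : Set G) (p : ℕ) (hD0 : σ0 ∈ D) (hI0 : σ0 ∈ I)
    (hdet : LinearMap.det (ρ σ0) - 2 ∈ Ideal.span {(p : R)})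
    (hord : ∃ L : Submodule R M, (∃ b : Module.Basis (Fin 2) R M, L = Submodule.span R {b 0}) ∧
        (∀ σ ∈ D, ∀ v ∈ L, ρ σ v ∈ L) ∧ (∀ σ ∈ I, ∀ v : M, ρ σ v - v ∈ L)) :
    s59dco_SO ρ D I (fun σ n a => σ = σ0 ∧ n = 1 ∧ a = 2) p := by
  obtain ⟨L, ⟨b, rfl⟩, hD, hI⟩ := hord
  have hb0 : b 0 ∈ Submodule.span R {b 0} := Submodule.mem_span_singleton_self _
  -- the matrix of `ρ σ`, `σ ∈ D`, is upper triangular
  have h10 : ∀ σ ∈ D, (LinearMap.toMatrix b b (ρ σ)) 1 0 = 0 := by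
    intro σ hσ
    obtain ⟨x, hx⟩ := Submodule.mem_span_singleton.1 (hD σ hσ (b 0) hb0)
    rw [LinearMap.toMatrix_apply, ← hx, map_smul, Module.Basis.repr_self]
    simp
  have hDb0 : ∀ σ ∈ D, ρ σ (b 0) = (LinearMap.toMatrix b b (ρ σ)) 0 0 • b 0 := by
    intro σ hσ
    rw [s59dco_apply_basis b (ρ σ) 0, h10 σ hσ, zero_smul, add_zero]
  have hDx : ∀ σ ∈ D, ∀ w ∈ Submodule.span R {b 0},
      ρ σ w = (LinearMap.toMatrix b b (ρ σ)) 0 0 • w := by
    intro σ hσ w hw
    obtain ⟨r, rfl⟩ := Submodule.mem_span_singleton.1 hw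
    rw [map_smul, hDb0 σ hσ, smul_comm]
  have hDz : ∀ σ ∈ D, ∀ v : M,
      ρ σ v - (LinearMap.toMatrix b b (ρ σ)) 1 1 • v ∈ Submodule.span R {b 0} := by
    intro σ hσ v
    have key : ∀ i, (ρ σ - (LinearMap.toMatrix b b (ρ σ)) 1 1 • (1 : Module.End R M) :
        Module.End R M) (b i) ∈ Submodule.span R {b 0} := by
      intro i
      rw [LinearMap.sub_apply, LinearMap.smul_apply, Module.End.one_apply,
        s59dco_apply_basis b (ρ σ) i]
      fin_cases i
      · simp only [Fin.zero_eta, h10 σ hσ, zero_smul, add_zero]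
        rw [← sub_smul]
        exact Submodule.smul_mem _ _ hb0
      · simp only [Fin.mk_one, add_sub_cancel_right]
        exact Submodule.smul_mem _ _ hb0
    have := s59dco_mem_of_basis b _ _ key v
    rwa [LinearMap.sub_apply, LinearMap.smul_apply, Module.End.one_apply] at this
  -- the matrix of `σ0`
  have h11 : (LinearMap.toMatrix b b (ρ σ0)) 1 1 = 1 := by
    obtain ⟨c, hc⟩ := s59dco_toMatrix_tri b (ρ σ0) _ 1 (hDb0 σ0 hD0)
      (by rw [one_smul]; exact hI σ0 hI0 (b 1))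
    have h1 := congrFun (congrFun hc 1) 1
    simpa using h1
  have hdet0 : LinearMap.det (ρ σ0) = (LinearMap.toMatrix b b (ρ σ0)) 0 0 := by
    rw [← LinearMap.det_toMatrix b, Matrix.det_fin_two, h11, h10 σ0 hD0]
    ring
  refine ⟨Submodule.span R {b 0}, ⟨b, rfl⟩, hD, hI, ?_⟩
  intro σ hσ
  refine ⟨(LinearMap.toMatrix b b (ρ σ)) 0 0, (LinearMap.toMatrix b b (ρ σ)) 1 1,
    hDx σ hσ, hDz σ hσ, ?_⟩
  rintro n a ⟨rfl, rfl, rfl⟩
  rw [h11, ← hdet0, pow_one]
  have e : LinearMap.det (ρ σ) - ((2 : ℕ) : R) * 1 = LinearMap.det (ρ σ) - 2 := by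
    push_cast; ring
  rw [e]
  exact hdet

end Fermat.Agent.S59

end
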